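import Fermat.Agent.F4.Loc.EFRes

/-!
# F4 / Loc / EFCard : the residue field and `resCard`

* `residue_eq_iff_val` : equality in the residue field of `v.valuationSubring` in terms of `v`;
* `finite_residue_of_hasFiniteResidue`, `resCard_pos'`, `exists_prime_resCard'`;
* `IsResBasis.resCard_eq` : `resCard w = resCard (resVal E w) ^ f` for a residue basis of size
  `f`;
* `hasFiniteResidue_res'`, `isDiscreteVal_res'` : restriction to a subfield.
-/

set_option autoImplicit false

namespace Fermat.Agent.F4.Loc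

section Residue

variable {E : Type*} [Field E] {Γ₀ : Type*} [LinearOrderedCommGroupWithZero Γ₀]

lemma residue_eq_zero_iff_val (v : Valuation E Γ₀) (a : v.valuationSubring) :
    IsLocalRing.residue _ a = 0 ↔ v (a : E) < 1 := by
  rw [IsLocalRing.residue_eq_zero_iff, Valuation.mem_maximalIdeal_iff]

lemma residue_eq_iff_val (v : Valuation E Γ₀) (a b : v.valuationSubring) :
    IsLocalRing.residue _ a = IsLocalRing.residue _ b ↔ v ((a : E) - b) < 1 := by
  rw [← sub_eq_zero, ← map_sub, residue_eq_zero_iff_val]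
  rfl

theorem finite_residue_of_hasFiniteResidue {v : Valuation E Γ₀} (h : HasFiniteResidue v) :
    Finite (IsLocalRing.ResidueField ↥v.valuationSubring) := by
  classical
  obtain ⟨R, hR⟩ := h
  let φ : {r : E // r ∈ R} → IsLocalRing.ResidueField ↥v.valuationSubring := fun r =>
    if h : v r.1 ≤ 1 then IsLocalRing.residue _ (⟨r.1, h⟩ : v.valuationSubring) else 0
  have hφ : Function.Surjective φ := by
    intro y
    obtain ⟨x, rfl⟩ := IsLocalRing.residue_surjective y
    obtain ⟨r, hr, hxr⟩ := hR x x.2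
    have hr1 : v r ≤ 1 := by
      have : r = x - (x - r) := by ring
      rw [this]; exact (Valuation.map_sub _ _ _).trans (max_le x.2 hxr.le)
    refine ⟨⟨r, hr⟩, ?_⟩
    simp only [φ, dif_pos hr1]
    rw [residue_eq_iff_val]
    show v (r - x) < 1
    rw [← Valuation.map_neg, neg_sub]; exact hxr
  exact Finite.of_surjective φ hφ

theorem resCard_pos' {v : Valuation E Γ₀} (h : HasFiniteResidue v) : 0 < resCard v := by
  have := finite_residue_of_hasFiniteResidue h
  exact Nat.card_pos

theorem exists_prime_resCard' {v : Valuation E Γ₀} (h : HasFiniteResidue v) :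
    ∃ (ℓ k : ℕ), ℓ.Prime ∧ 0 < k ∧ resCard v = ℓ ^ k ∧ v (ℓ : E) < 1 := by
  classical
  have := finite_residue_of_hasFiniteResidue h
  have : Fintype (IsLocalRing.ResidueField ↥v.valuationSubring) := Fintype.ofFinite _
  obtain ⟨ℓ, -, n, hℓ, hcard⟩ :=
    FiniteField.card' (IsLocalRing.ResidueField ↥v.valuationSubring)
  refine ⟨ℓ, n, hℓ, n.pos, ?_, ?_⟩
  · rw [resCard, Nat.card_eq_fintype_card, hcard]
  · have h0 : ((Fintype.card (IsLocalRing.ResidueField ↥v.valuationSubring) : ℕ) :
        IsLocalRing.ResidueField ↥v.valuationSubring) = 0 := Nat.cast_card_eq_zero _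
    rw [hcard, Nat.cast_pow] at h0
    have h1 : ((ℓ : ℕ) : IsLocalRing.ResidueField ↥v.valuationSubring) = 0 :=
      pow_eq_zero_iff (n.pos.ne') |>.1 h0
    have h2 : IsLocalRing.residue _ ((ℓ : ℕ) : ↥v.valuationSubring) = 0 := by
      rw [map_natCast]; exact h1
    rw [residue_eq_zero_iff_val] at h2
    simpa using h2

end Residue

section Basis

variable {E L : Type*} [Field E] [Field L] [Algebra E L]
  {Γ₀ : Type*} [LinearOrderedCommGroupWithZero Γ₀]

/-- The combination map `(Fin f → O_E) → O_L`. -/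
noncomputable def combHom (w : Valuation L Γ₀) {f : ℕ} (b : Fin f → L) (hb : ∀ i, w (b i) ≤ 1) :
    (Fin f → ↥(resVal E w).valuationSubring) →+ ↥w.valuationSubring :=
  AddMonoidHom.mk' (fun c => ⟨∑ i, (c i : E) • b i,
      w_sum_smul_le_one w hb (fun i => (c i).2)⟩) (fun c c' => by
    apply Subtype.ext
    show ∑ i, ((c i + c' i : ↥(resVal E w).valuationSubring) : E) • b i
      = ∑ i, (c i : E) • b i + ∑ i, (c' i : E) • b i
    rw [← Finset.sum_add_distrib]
    refine Finset.sum_congr rfl (fun i _ => ?_)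
    rw [← add_smul]; rfl)

@[simp] lemma combHom_coe (w : Valuation L Γ₀) {f : ℕ} (b : Fin f → L) (hb : ∀ i, w (b i) ≤ 1)
    (c : Fin f → ↥(resVal E w).valuationSubring) :
    ((combHom (E := E) w b hb c : ↥w.valuationSubring) : L) = ∑ i, (c i : E) • b i := rfl

/-- The componentwise residue map. -/
noncomputable def resPiHom (v : Valuation E Γ₀) (f : ℕ) :
    (Fin f → ↥v.valuationSubring) →+ (Fin f → IsLocalRing.ResidueField ↥v.valuationSubring) :=
  AddMonoidHom.mk' (fun c i => IsLocalRing.residue _ (c i)) (fun c c' => by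
    funext i; simp)

lemma resPiHom_surjective (v : Valuation E Γ₀) (f : ℕ) : Function.Surjective (resPiHom v f) := by
  intro y
  choose c hc using fun i => IsLocalRing.residue_surjective (y i)
  exact ⟨c, funext hc⟩

/-- **The residue field of `L` has `(#k_E) ^ f` elements**, `f` the size of a residue basis. -/
theorem IsResBasis.resCard_eq {w : Valuation L Γ₀} {f : ℕ} {b : Fin f → L}
    (hb : IsResBasis E w b) : resCard w = resCard (resVal E w) ^ f := by
  set Φ : (Fin f → ↥(resVal E w).valuationSubring) →+ IsLocalRing.ResidueField ↥w.valuationSubring :=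
    (IsLocalRing.residue ↥w.valuationSubring).toAddMonoidHom.comp (combHom (E := E) w b hb.int)
    with hΦ
  set Ψ := resPiHom (resVal E w) f with hΨ
  have hΦs : Function.Surjective Φ := by
    intro y
    obtain ⟨x, rfl⟩ := IsLocalRing.residue_surjective y
    obtain ⟨c, hc, hxc⟩ := hb.span x x.2
    refine ⟨fun i => ⟨c i, hc i⟩, ?_⟩
    show IsLocalRing.residue _ (combHom (E := E) w b hb.int _) = IsLocalRing.residue _ x
    rw [residue_eq_iff_val, combHom_coe, ← Valuation.map_neg, neg_sub]
    exact hxc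
  have hker : Φ.ker = Ψ.ker := by
    ext c
    rw [AddMonoidHom.mem_ker, AddMonoidHom.mem_ker]
    show IsLocalRing.residue _ (combHom (E := E) w b hb.int c) = 0 ↔ _
    rw [residue_eq_zero_iff_val, combHom_coe]
    constructor
    · intro h
      funext i
      show IsLocalRing.residue _ (c i) = 0
      rw [residue_eq_zero_iff_val]
      exact hb.indep (fun i => (c i : E)) (fun i => (c i).2) h i
    · intro h
      refine w_sum_smul_lt_one w hb.int (fun i => ?_)
      have := congrFun h i
      rw [← residue_eq_zero_iff_val]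
      exact this
  have e1 := QuotientAddGroup.quotientKerEquivOfSurjective Φ hΦs
  have e2 := QuotientAddGroup.quotientKerEquivOfSurjective Ψ (resPiHom_surjective _ f)
  have e3 := QuotientAddGroup.quotientAddEquivOfEq hker
  rw [resCard, resCard, Nat.card_congr (e1.symm.toEquiv.trans (e3.toEquiv.trans e2.toEquiv)),
    Nat.card_fun, Nat.card_fin]

end Basis

section Restriction

variable {E L : Type*} [Field E] [Field L] [Algebra E L]
  {Γ₀ : Type*} [LinearOrderedCommGroupWithZero Γ₀]

/-- Finiteness of the residue field passes to a subfield. -/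
theorem hasFiniteResidue_res' (w : Valuation L Γ₀) (hL : HasFiniteResidue w) :
    HasFiniteResidue (resVal E w) := by
  classical
  obtain ⟨R, hR⟩ := hL
  let g : L → E := fun r =>
    if h : ∃ x : E, w (algebraMap E L x - r) < 1 then h.choose else 0
  refine ⟨R.image g, fun x hx => ?_⟩
  obtain ⟨r, hr, hxr⟩ := hR (algebraMap E L x) hx
  have hex : ∃ x : E, w (algebraMap E L x - r) < 1 := ⟨x, hxr⟩
  refine ⟨g r, Finset.mem_image.2 ⟨r, hr, rfl⟩, ?_⟩
  have hg : w (algebraMap E L (g r) - r) < 1 := by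
    simp only [g, dif_pos hex]
    exact hex.choose_spec
  rw [resVal_apply, map_sub]
  have : algebraMap E L x - algebraMap E L (g r)
      = (algebraMap E L x - r) - (algebraMap E L (g r) - r) := by ring
  rw [this]
  exact lt_of_le_of_lt (Valuation.map_sub _ _ _) (max_lt hxr hg)

/-- Discreteness passes to a subfield on which the valuation is non-trivial. -/
theorem isDiscreteVal_res' (w : Valuation L Γ₀) (hL : IsDiscreteVal w)
    (hnt : ∃ x : E, x ≠ 0 ∧ w (algebraMap E L x) ≠ 1) : IsDiscreteVal (resVal E w) := by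
  classical
  obtain ⟨ϖ, hϖ⟩ := hL
  have hϖ0 : 0 < w ϖ := IsUnif.val_pos hϖ
  have hkey : ∀ x : E, x ≠ 0 → ∃ k : ℤ, resVal E w x = w ϖ ^ k := fun x hx =>
    hϖ.2.2 (algebraMap E L x) (by rw [Ne, map_eq_zero]; exact hx)
  let P : ℕ → Prop := fun d => 0 < d ∧ ∃ x : E, x ≠ 0 ∧ resVal E w x = w ϖ ^ (d : ℤ)
  have hP : ∃ d, P d := by
    obtain ⟨x, hx0, hx1⟩ := hnt
    obtain ⟨k, hk⟩ := hkey x hx0
    have hk0 : k ≠ 0 := by
      rintro rfl
      rw [zpow_zero] at hk
      exact hx1 hk
    rcases lt_or_gt_of_ne hk0 with hneg | hpos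
    · refine ⟨(-k).toNat, by omega, x⁻¹, inv_ne_zero hx0, ?_⟩
      rw [map_inv₀, hk, ← zpow_neg]
      congr 1
      omega
    · refine ⟨k.toNat, by omega, x, hx0, ?_⟩
      rw [hk]
      congr 1
      omega
  obtain ⟨hd0, π, hπ0, hπ⟩ := Nat.find_spec hP
  set d := Nat.find hP with hd
  have hd' : (0 : ℤ) < d := by exact_mod_cast hd0
  have hπ1 : resVal E w π < 1 := by
    rw [hπ]; exact (zpow_lt_one_iff_right_of_lt_one₀ hϖ0 hϖ.2.1).2 hd'
  refine ⟨π, hπ0, hπ1, fun x hx => ?_⟩
  obtain ⟨m, hm⟩ := hkey x hx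
  refine ⟨m / d, ?_⟩
  set q := m / (d : ℤ) with hq
  set r := m % (d : ℤ) with hr
  have hr0 : 0 ≤ r := Int.emod_nonneg _ hd'.ne'
  have hrd : r < d := Int.emod_lt_of_pos _ hd'
  have hmqr : m = d * q + r := (Int.mul_ediv_add_emod m d).symm
  have hy : resVal E w (x * (π ^ q)⁻¹) = w ϖ ^ r := by
    rw [map_mul, map_inv₀, map_zpow₀, hπ, hm, ← zpow_mul, ← zpow_neg, ← zpow_add₀ hϖ0.ne']
    congr 1
    rw [hmqr]; ring
  have hr0' : r = 0 := by
    by_contra hne
    have hPr : P r.toNat := ⟨by omega, x * (π ^ q)⁻¹,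
      mul_ne_zero hx (inv_ne_zero (zpow_ne_zero _ hπ0)), by
        rw [hy]; congr 1; omega⟩
    have := Nat.find_min' hP hPr
    omega
  rw [hπ, ← zpow_mul, hm]
  congr 1
  rw [hmqr, hr0', add_zero]

end Restriction

end Fermat.Agent.F4.Loc
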