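import Fermat.Agent.F4.Loc.EFRes

/-!
# F4 / Loc / EFMain : `e f = n`

`L/E` finite Galois, `w` a Galois-invariant valuation of `L`, discrete on `E`.  For a residue
basis `b : Fin f → L`, a uniformizer `ϖ` of `L` and `w π = w ϖ ^ e`, the family
`b i * ϖ ^ j` (`j < e`) is an `E`-basis of `L`; hence `e * f = [L : E]`.

* `linearIndependent_mul_pow` : linear independence (values of distinct `j` are distinct);
* `span_mul_pow_eq_top` : spanning (`O_L = M + π O_L`, trace form nondegenerate,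
  `Tr O_L ⊆ O_E`, `⋂ πᵏ O_E = 0`);
* `e_mul_f_eq_finrank`.
-/

set_option autoImplicit false

namespace Fermat.Agent.F4.Loc

variable {E L : Type*} [Field E] [Field L] [Algebra E L]
  {Γ₀ : Type*} [LinearOrderedCommGroupWithZero Γ₀]

/-- Values `< 1` are at most the value of a uniformizer. -/
lemma IsUnif.le_of_lt_one {F : Type*} [Field F] {v : Valuation F Γ₀} {π : F} (h : IsUnif v π)
    {z : F} (hz : v z < 1) : v z ≤ v π := by
  by_cases hz0 : z = 0
  · rw [hz0, map_zero]; exact zero_le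
  obtain ⟨k, hk⟩ := h.2.2 z hz0
  have h0 : 0 < v π := h.val_pos
  rw [hk] at hz ⊢
  have hk1 : 0 < k := (zpow_lt_one_iff_right_of_lt_one₀ h0 h.2.1).1 hz
  calc v π ^ k ≤ v π ^ (1 : ℤ) := (zpow_le_zpow_iff_right_of_lt_one₀ h0 h.2.1).2 hk1
    _ = v π := zpow_one _

/-- The value of a nonzero combination of a residually independent integral family is the value
of a nonzero element of `E`. -/
lemma ResIndep.exists_val_sum {w : Valuation L Γ₀} {f : ℕ} {b : Fin f → L}
    (hb : ∀ i, w (b i) ≤ 1) (h : ResIndep E w b) (c : Fin f → E)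
    (hy : ∑ i, c i • b i ≠ 0) :
    ∃ i0, c i0 ≠ 0 ∧ w (∑ i, c i • b i) = resVal E w (c i0) := by
  classical
  have hne : (Finset.univ : Finset (Fin f)).Nonempty := by
    by_contra hemp
    rw [Finset.not_nonempty_iff_eq_empty] at hemp
    apply hy
    rw [hemp, Finset.sum_empty]
  obtain ⟨i0, -, hmax⟩ := Finset.exists_max_image Finset.univ (fun j => resVal E w (c j)) hne
  have hval := h.val_sum hb c i0 (fun i => hmax i (Finset.mem_univ i))
  refine ⟨i0, ?_, hval⟩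
  intro h0
  rw [h0, map_zero, Valuation.zero_iff] at hval
  exact hy hval

section Indep

variable {w : Valuation L Γ₀} {π : E} {ϖ : L} {e f : ℕ} {b : Fin f → L}

/-- The family `b i * ϖ ^ j`, `j < e`, is linearly independent over `E`. -/
theorem linearIndependent_mul_pow (hπ : IsUnif (resVal E w) π) (hϖ : IsUnif w ϖ)
    (he : w (algebraMap E L π) = w ϖ ^ e) (hb : ∀ i, w (b i) ≤ 1) (hind : ResIndep E w b) :
    LinearIndependent E (fun p : Fin f × Fin e => b p.1 * ϖ ^ (p.2 : ℕ)) := by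
  classical
  rw [Fintype.linearIndependent_iff]
  intro c hc
  have hϖ0 : 0 < w ϖ := hϖ.val_pos
  set y : Fin e → L := fun j => ∑ i, c (i, j) • b i with hy
  have hsum : ∑ j, y j * ϖ ^ (j : ℕ) = 0 := by
    rw [← hc, Fintype.sum_prod_type_right]
    refine Finset.sum_congr rfl (fun j _ => ?_)
    rw [hy, Finset.sum_mul]
    refine Finset.sum_congr rfl (fun i _ => ?_)
    rw [smul_mul_assoc]
  -- values
  have hval : ∀ j, y j ≠ 0 → ∃ m : ℤ, w (y j * ϖ ^ (j : ℕ)) = w ϖ ^ ((e : ℤ) * m + j) := by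
    intro j hj
    obtain ⟨i0, hi0, hv⟩ := hind.exists_val_sum hb (fun i => c (i, j)) hj
    obtain ⟨m, hm⟩ := hπ.2.2 _ hi0
    refine ⟨m, ?_⟩
    rw [map_mul, map_pow]
    show w (∑ i, c (i, j) • b i) * _ = _
    rw [hv, hm, resVal_apply, he, ← zpow_natCast (w ϖ) e, ← zpow_mul, ← zpow_natCast (w ϖ) (j : ℕ),
      ← zpow_add₀ hϖ0.ne']
  have hyall : ∀ j, y j = 0 := by
    by_contra hcon
    push Not at hcon
    obtain ⟨j1, hj1⟩ := hcon
    have hJ : (Finset.univ.filter (fun j => y j ≠ 0)).Nonempty :=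
      ⟨j1, Finset.mem_filter.2 ⟨Finset.mem_univ _, hj1⟩⟩
    obtain ⟨j0, hj0, hmax⟩ := Finset.exists_max_image _ (fun j => w (y j * ϖ ^ (j : ℕ))) hJ
    have hj0' : y j0 ≠ 0 := (Finset.mem_filter.1 hj0).2
    have hterm0 : w (y j0 * ϖ ^ (j0 : ℕ)) ≠ 0 :=
      (w.ne_zero_iff).2 (mul_ne_zero hj0' (pow_ne_zero _ hϖ.1))
    have hlt : ∀ j ∈ Finset.univ.erase j0,
        w (y j * ϖ ^ (j : ℕ)) < w (y j0 * ϖ ^ (j0 : ℕ)) := by
      intro j hj
      have hjne : j ≠ j0 := Finset.ne_of_mem_erase hj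
      by_cases hyj : y j = 0
      · rw [hyj, zero_mul, map_zero]; exact zero_lt_iff.2 hterm0
      refine lt_of_le_of_ne (hmax j (Finset.mem_filter.2 ⟨Finset.mem_univ _, hyj⟩)) ?_
      intro heq
      obtain ⟨m, hm⟩ := hval j hyj
      obtain ⟨m0, hm0⟩ := hval j0 hj0'
      rw [hm, hm0] at heq
      have := zpow_inj_of_lt_one hϖ0.ne' hϖ.2.1 heq
      apply hjne
      have h1 : (j : ℕ) < e := j.2
      have h2 : (j0 : ℕ) < e := j0.2
      have h3 : ((j : ℕ) : ℤ) = (j0 : ℕ) := by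
        have h4 : ((j : ℕ) : ℤ) % e = ((j0 : ℕ) : ℤ) % e := by
          have : ((e : ℤ) * m + (j : ℕ)) % e = ((e : ℤ) * m0 + (j0 : ℕ)) % e := by rw [this]
          simpa [Int.add_mul_emod_self_left] using this
        rwa [Int.emod_eq_of_lt (by positivity) (by exact_mod_cast h1),
          Int.emod_eq_of_lt (by positivity) (by exact_mod_cast h2)] at h4
      exact Fin.ext (by exact_mod_cast h3)
    have hrest : w (∑ j ∈ Finset.univ.erase j0, y j * ϖ ^ (j : ℕ))
        < w (y j0 * ϖ ^ (j0 : ℕ)) := Valuation.map_sum_lt _ hterm0 hlt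
    rw [Finset.sum_erase_eq_sub (Finset.mem_univ j0), hsum, zero_sub, Valuation.map_neg] at hrest
    exact lt_irrefl _ hrest
  rintro ⟨i, j⟩
  have := hyall j
  exact (Fintype.linearIndependent_iff.1 hind.linearIndependent) (fun i => c (i, j)) this i

end Indep

section Span

variable {w : Valuation L Γ₀} {π : E} {ϖ : L} {e f : ℕ} {b : Fin f → L}

/-- One approximation step: `x = ∑ cᵢ bᵢ + ϖ x'`. -/
lemma IsResBasis.approx_step (hϖ : IsUnif w ϖ) (hb : IsResBasis E w b) {x : L}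
    (hx : w x ≤ 1) :
    ∃ (c : Fin f → E) (x' : L), (∀ i, resVal E w (c i) ≤ 1) ∧ w x' ≤ 1 ∧
      x = ∑ i, c i • b i + ϖ * x' := by
  obtain ⟨c, hc, hlt⟩ := hb.span x hx
  refine ⟨c, (x - ∑ i, c i • b i) / ϖ, hc, ?_, ?_⟩
  · rw [map_div₀]
    exact (div_le_one₀ hϖ.val_pos).2 (hϖ.le_of_lt_one hlt)
  · rw [mul_div_cancel₀ _ hϖ.1]; ring

/-- `j` approximation steps: `x = m + ϖ ^ j x'` with `m` in the span of the `b i * ϖ ^ k`. -/
lemma IsResBasis.approx_pow (hϖ : IsUnif w ϖ) (hb : IsResBasis E w b) (j : ℕ) (hj : j ≤ e)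
    {x : L} (hx : w x ≤ 1) :
    ∃ m ∈ Submodule.span E (Set.range (fun p : Fin f × Fin e => b p.1 * ϖ ^ (p.2 : ℕ))),
      ∃ x' : L, w x' ≤ 1 ∧ x = m + ϖ ^ j * x' := by
  induction j with
  | zero => exact ⟨0, zero_mem _, x, hx, by simp⟩
  | succ j ih =>
    obtain ⟨m, hm, x', hx', hxm⟩ := ih (Nat.le_of_succ_le hj)
    obtain ⟨c, x'', -, hx'', hx'c⟩ := hb.approx_step hϖ hx'
    refine ⟨m + ∑ i, c i • (b i * ϖ ^ j), add_mem hm (Submodule.sum_mem _ fun i _ =>
      Submodule.smul_mem _ _ (Submodule.subset_span ⟨(i, ⟨j, hj⟩), rfl⟩)), x'', hx'', ?_⟩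
    rw [hxm, hx'c, mul_add, Finset.mul_sum, pow_succ]
    have : ∀ i, ϖ ^ j * c i • b i = c i • (b i * ϖ ^ j) := fun i => by
      rw [mul_smul_comm, mul_comm]
    simp only [this]
    ring

/-- `O_L = M + π O_L`. -/
lemma IsResBasis.approx_unif (hπ : IsUnif (resVal E w) π) (hϖ : IsUnif w ϖ)
    (he : w (algebraMap E L π) = w ϖ ^ e) (hb : IsResBasis E w b) {x : L} (hx : w x ≤ 1) :
    ∃ m ∈ Submodule.span E (Set.range (fun p : Fin f × Fin e => b p.1 * ϖ ^ (p.2 : ℕ))),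
      ∃ x' : L, w x' ≤ 1 ∧ x = m + algebraMap E L π * x' := by
  obtain ⟨m, hm, x', hx', hxm⟩ := hb.approx_pow (e := e) hϖ e le_rfl hx
  have hπ0 : algebraMap E L π ≠ 0 := by rw [Ne, map_eq_zero]; exact hπ.1
  refine ⟨m, hm, ϖ ^ e / algebraMap E L π * x', ?_, ?_⟩
  · rw [map_mul, map_div₀, map_pow, he, div_self (pow_ne_zero _ hϖ.val_pos.ne'), one_mul]
    exact hx'
  · rw [hxm, ← mul_assoc, mul_div_cancel₀ _ hπ0]

variable [FiniteDimensional E L] [IsGalois E L]

/-- If `y` is trace-orthogonal to the span `V` of the `b i * ϖ ^ j`, then `Tr (x y) = 0` for all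
integers `x` of `L`. -/
lemma trace_mul_eq_zero_of_int (hinv : IsInvVal E w) (hπ : IsUnif (resVal E w) π)
    (hϖ : IsUnif w ϖ) (he0 : 0 < e) (he : w (algebraMap E L π) = w ϖ ^ e)
    (hb : IsResBasis E w b) (y : L)
    (hy : ∀ m ∈ Submodule.span E (Set.range (fun p : Fin f × Fin e => b p.1 * ϖ ^ (p.2 : ℕ))),
      Algebra.trace E L (m * y) = 0) {x : L} (hx : w x ≤ 1) :
    Algebra.trace E L (x * y) = 0 := by
  have hϖ0 : 0 < w ϖ := hϖ.val_pos
  -- iterate
  have hiter : ∀ k : ℕ, ∀ x : L, w x ≤ 1 → ∃ x' : L, w x' ≤ 1 ∧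
      Algebra.trace E L (x * y) = π ^ k * Algebra.trace E L (x' * y) := by
    intro k
    induction k with
    | zero => intro x hx; exact ⟨x, hx, by simp⟩
    | succ k ih =>
      intro x hx
      obtain ⟨m, hm, x1, hx1, hxm⟩ := hb.approx_unif hπ hϖ he hx
      obtain ⟨x', hx', hx'e⟩ := ih x1 hx1
      refine ⟨x', hx', ?_⟩
      rw [hxm, add_mul, map_add, hy m hm, zero_add, mul_assoc, ← Algebra.smul_def, map_smul,
        smul_eq_mul, hx'e, pow_succ]
      ring
  by_contra ht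
  by_cases hy0 : y = 0
  · apply ht; rw [hy0, mul_zero, map_zero]
  obtain ⟨a, ha⟩ := hπ.2.2 _ ht
  obtain ⟨s, hs⟩ := hϖ.2.2 y hy0
  -- a large `k`
  set k : ℕ := a.toNat + s.natAbs + 1 with hk
  obtain ⟨x', hx', hx'e⟩ := hiter k x hx
  have h1 : resVal E w (Algebra.trace E L (x * y)) ≤ w ϖ ^ ((e : ℤ) * k + s) := by
    rw [hx'e, map_mul, map_pow, resVal_apply, he, zpow_add₀ hϖ0.ne', ← hs,
      zpow_mul, zpow_natCast, zpow_natCast]
    refine mul_le_mul_right ?_ _
    calc resVal E w (Algebra.trace E L (x' * y)) ≤ w (x' * y) := w_trace_le w hinv _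
      _ = w x' * w y := map_mul _ _ _
      _ ≤ 1 * w y := mul_le_mul_left hx' _
      _ = w y := one_mul _
  rw [ha, resVal_apply, he, ← zpow_natCast (w ϖ) e, ← zpow_mul,
    zpow_le_zpow_iff_right_of_lt_one₀ hϖ0 hϖ.2.1] at h1
  have he1 : (1 : ℤ) ≤ e := by exact_mod_cast he0
  have h2 : (a : ℤ) ≤ a.toNat := Int.self_le_toNat a
  have h3 : -(s.natAbs : ℤ) ≤ s := by omega
  have h4 : (k : ℤ) = a.toNat + s.natAbs + 1 := by rw [hk]; push_cast; ring
  nlinarith [Int.natCast_nonneg s.natAbs, Int.natCast_nonneg a.toNat]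

omit [FiniteDimensional E L] [IsGalois E L] in
/-- Every element of `L` becomes integral after multiplication by a power of `π`. -/
lemma exists_pow_mul_int (hϖ : IsUnif w ϖ) (he0 : 0 < e)
    (he : w (algebraMap E L π) = w ϖ ^ e) (x : L) :
    ∃ k : ℕ, w (algebraMap E L π ^ k * x) ≤ 1 := by
  have hϖ0 : 0 < w ϖ := hϖ.val_pos
  by_cases hx0 : x = 0
  · exact ⟨0, by rw [hx0, mul_zero, map_zero]; exact zero_le⟩
  obtain ⟨s, hs⟩ := hϖ.2.2 x hx0
  refine ⟨s.natAbs, ?_⟩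
  rw [map_mul, map_pow, he, hs, ← zpow_natCast (w ϖ) e, ← zpow_natCast, ← zpow_mul,
    ← zpow_add₀ hϖ0.ne', zpow_le_one_iff_right_of_lt_one₀ hϖ0 hϖ.2.1]
  have he1 : (1 : ℤ) ≤ e := by exact_mod_cast he0
  have h3 : -(s.natAbs : ℤ) ≤ s := by omega
  nlinarith [Int.natCast_nonneg s.natAbs]

/-- The family `b i * ϖ ^ j`, `j < e`, spans `L` over `E`. -/
theorem span_mul_pow_eq_top (hinv : IsInvVal E w) (hπ : IsUnif (resVal E w) π)
    (hϖ : IsUnif w ϖ) (he0 : 0 < e) (he : w (algebraMap E L π) = w ϖ ^ e)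
    (hb : IsResBasis E w b) :
    Submodule.span E (Set.range (fun p : Fin f × Fin e => b p.1 * ϖ ^ (p.2 : ℕ))) = ⊤ := by
  set V := Submodule.span E (Set.range (fun p : Fin f × Fin e => b p.1 * ϖ ^ (p.2 : ℕ)))
    with hV
  have hnd : (Algebra.traceForm E L).Nondegenerate := traceForm_nondegenerate E L
  have hπ0 : algebraMap E L π ≠ 0 := by rw [Ne, map_eq_zero]; exact hπ.1
  have horth : (Algebra.traceForm E L).orthogonal V = ⊥ := by
    rw [eq_bot_iff]
    intro y hy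
    rw [LinearMap.BilinForm.mem_orthogonal_iff] at hy
    have hy' : ∀ m ∈ V, Algebra.trace E L (m * y) = 0 := fun m hm => hy m hm
    rw [Submodule.mem_bot]
    refine hnd.2 y (fun x => ?_)
    rw [Algebra.traceForm_apply]
    obtain ⟨k, hk⟩ := exists_pow_mul_int hϖ he0 he x
    have h0 := trace_mul_eq_zero_of_int hinv hπ hϖ he0 he hb y hy' hk
    rw [← map_pow, mul_assoc, ← Algebra.smul_def, map_smul, smul_eq_mul] at h0
    rcases mul_eq_zero.1 h0 with h | h
    · exact absurd h (pow_ne_zero _ hπ.1)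
    · exact h
  have hfr := LinearMap.BilinForm.finrank_orthogonal hnd V
  rw [horth, finrank_bot] at hfr
  have hle : Module.finrank E V ≤ Module.finrank E L := Submodule.finrank_le V
  exact Submodule.eq_top_of_finrank_eq (by omega)

/-- **`e f = n`**. -/
theorem e_mul_f_eq_finrank (hinv : IsInvVal E w) (hπ : IsUnif (resVal E w) π)
    (hϖ : IsUnif w ϖ) (he0 : 0 < e) (he : w (algebraMap E L π) = w ϖ ^ e)
    (hb : IsResBasis E w b) : e * f = Module.finrank E L := by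
  have hli := linearIndependent_mul_pow hπ hϖ he hb.int hb.indep
  have hsp := span_mul_pow_eq_top hinv hπ hϖ he0 he hb
  have h1 := finrank_span_eq_card hli
  rw [hsp, finrank_top] at h1
  rw [h1, Fintype.card_prod, Fintype.card_fin, Fintype.card_fin, mul_comm]

end Span

end Fermat.Agent.F4.Loc
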