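import Fermat.Agent.F4.Loc.Setup
import Fermat.Agent.F4.Loc.EFMain
import Fermat.Agent.F4.Loc.EFCard

/-!
# F4 / Loc / EF : finite extensions of a local valued field  (seat EF, helper26: DONE)

`L/E` finite Galois, `w` a valuation of `L` invariant under `Gal(L/E)`, `E` local for the
restriction of `w`.
* `isDiscreteVal_of_finite`, `hasFiniteResidue_of_finite` : `w` is discrete with finite residue
  field (`w x ^ n = w (N x)`, residue degree `≤ n`);
* `ef_eq` : `e * f = [L : E]`, where `w π_E = w π_L ^ e` and `#k_L = (#k_E) ^ f`;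
* `isDiscreteVal_res`, `hasFiniteResidue_res` : restriction to a subfield.

Proof of `ef_eq`.  `e f ≤ n`: the `ω_i π_L^j` (`ω_i` lifts of a basis of `k_L/k_E`, `j < e`) are
`E`-linearly independent.  `e f ≥ n`: the valuation ring `O_L` is the integral closure of `O_E`
(invariance), a finitely generated `O_E`-module (`L/E` separable, `O_E` a DVR:
`IsIntegralClosure.isNoetherian`), free of rank `n`, and `O_L / π_E O_L` has `(#k_E)^n`
elements and a filtration with `e` quotients `≅ k_L`.  (Or `Ideal.sum_ramification_inertia`.)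

Proof actually used (files `EFCore`, `EFRes`, `EFMain`, `EFCard`): elementary residue bases
(`IsResBasis`), `e f ≥ n` from `O_L = M + π O_L`, `Tr O_L ⊆ O_E`, nondegeneracy of the trace
form and `⋂ πᵏ O_E = 0`; neither Hensel nor finiteness of the residue field is needed.
-/

set_option autoImplicit false

namespace Fermat.Agent.F4.Loc

variable {E L : Type*} [Field E] [Field L] [Algebra E L] {Γ₀ : Type*}
  [LinearOrderedCommGroupWithZero Γ₀]

section Galois

variable [FiniteDimensional E L] [IsGalois E L]

/-- `w (N x) = w x ^ [L:E]` for an invariant valuation. -/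
theorem val_norm_eq_pow (w : Valuation L Γ₀) (hinv : IsInvVal E w) (x : L) :
    w (algebraMap E L (Algebra.norm E x)) = w x ^ Module.finrank E L := by
  exact w_norm w hinv x

theorem isDiscreteVal_of_finite (w : Valuation L Γ₀) (hinv : IsInvVal E w)
    (hE : IsDiscreteVal (resVal E w)) : IsDiscreteVal w := by
  obtain ⟨π, hπ⟩ := hE
  obtain ⟨ϖ, e, hϖ, -, -⟩ := exists_unif_top w hinv hπ
  exact ⟨ϖ, hϖ⟩

theorem hasFiniteResidue_of_finite (w : Valuation L Γ₀) (hinv : IsInvVal E w)
    (hE : IsDiscreteVal (resVal E w)) (hfin : HasFiniteResidue (resVal E w)) :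
    HasFiniteResidue w := by
  obtain ⟨f, b, hb⟩ := exists_isResBasis (E := E) w
  exact hb.hasFiniteResidue hfin

/-- **`e f = n`** for a finite Galois extension of a local valued field (characteristic `0`). -/
theorem ef_eq [CharZero E] (w : Valuation L Γ₀) (hinv : IsInvVal E w)
    (hE : IsLocalVal (resVal E w)) :
    ∃ e f : ℕ, 0 < e ∧ 0 < f ∧ e * f = Module.finrank E L ∧
      resCard w = resCard (resVal E w) ^ f ∧
      ∀ πE : E, ∀ πL : L, IsUnif (resVal E w) πE → IsUnif w πL →
        w (algebraMap E L πE) = w πL ^ e := by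
  obtain ⟨π, hπ⟩ := hE.disc
  obtain ⟨ϖ, e, hϖ, he0, he⟩ := exists_unif_top w hinv hπ
  obtain ⟨f, b, hb⟩ := exists_isResBasis (E := E) w
  have hef := e_mul_f_eq_finrank hinv hπ hϖ he0 he hb
  have hn : 0 < Module.finrank E L := Module.finrank_pos
  have hf0 : 0 < f := by
    rcases Nat.eq_zero_or_pos f with h | h
    · rw [h, mul_zero] at hef; omega
    · exact h
  refine ⟨e, f, he0, hf0, hef, hb.resCard_eq, fun πE πL hπE hπL => ?_⟩
  rw [show w (algebraMap E L πE) = resVal E w πE from rfl, IsUnif.val_eq hπE hπ,
    IsUnif.val_eq hπL hϖ]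
  exact he

end Galois

section Restriction

/-- Discreteness passes to a subfield on which the valuation is non-trivial. -/
theorem isDiscreteVal_res (w : Valuation L Γ₀) (hL : IsDiscreteVal w)
    (hnt : ∃ x : E, x ≠ 0 ∧ w (algebraMap E L x) ≠ 1) : IsDiscreteVal (resVal E w) := by
  exact isDiscreteVal_res' w hL hnt

/-- Finiteness of the residue field passes to a subfield. -/
theorem hasFiniteResidue_res (w : Valuation L Γ₀) (hL : HasFiniteResidue w) :
    HasFiniteResidue (resVal E w) := by
  exact hasFiniteResidue_res' w hL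

/-- `HasFiniteResidue` in terms of `resCard`. -/
theorem resCard_pos_of_hasFiniteResidue {v : Valuation E Γ₀} (h : HasFiniteResidue v) :
    0 < resCard v := by
  exact resCard_pos' h

/-- `resCard` is a power of a prime number `ℓ` with `v ℓ < 1` (residue characteristic), when the
residue field is finite. -/
theorem exists_prime_resCard {v : Valuation E Γ₀} (h : HasFiniteResidue v) :
    ∃ (ℓ k : ℕ), ℓ.Prime ∧ 0 < k ∧ resCard v = ℓ ^ k ∧ v (ℓ : E) < 1 := by
  exact exists_prime_resCard' h

end Restriction

end Fermat.Agent.F4.Loc
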