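import Fermat.Agent.F4.Loc.Hensel
import Fermat.Agent.F4.Loc.EF
import Fermat.Prelude.Def_GaloisRep_CompletionBridge

/-!
# F4 / Loc / Base : the concrete local fields inside `PadicAlgCl q`  (seat BASE, helper77)

`Ω = PadicAlgCl q`, `w = Valued.v : Valuation Ω ℝ≥0` (the `q`-adic norm).
* `padicVal_isInvVal` : `w` is invariant under `Ω ≃ₐ[E] Ω` for every `E ⊇ ℚ_q`;
* `padicVal_isLocalVal_base` : `ℚ_q` is local (uniformizer `q`, representatives `0, …, q-1`,
  Newton–Hensel from `newtonHensel_of_isInvVal`);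
* `padicVal_isLocalVal` : every finite subextension `E` of `Ω/ℚ_q` is local
  (discreteness and finiteness of the residue field: `EF.lean` applied to the normal closure of `E`,
  then restriction to `E`; Newton–Hensel from invariance);
* `padicVal_resCard_base` : the residue field of `ℚ_q` has `q` elements.
-/

set_option autoImplicit false
set_option linter.unusedSectionVars false
set_option linter.style.haveILetI false

open scoped NNReal

namespace Fermat.Agent.F4.Loc

variable (q : ℕ) [Fact q.Prime]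

/-- The `q`-adic valuation of `PadicAlgCl q`. -/
noncomputable abbrev padicVal : Valuation (PadicAlgCl q) ℝ≥0 := Valued.v

theorem padicVal_apply (x : PadicAlgCl q) : padicVal q x = ‖x‖₊ :=
  PadicAlgCl.valuation_def q x

theorem padicVal_isInvVal_base : IsInvVal ℚ_[q] (padicVal q) := by
  intro σ x
  rw [padicVal_apply, padicVal_apply]
  exact nnnorm_padicAlgCl_algEquiv q σ x

theorem padicVal_isInvVal (E : IntermediateField ℚ_[q] (PadicAlgCl q)) :
    IsInvVal E (padicVal q) := by
  intro σ x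
  exact padicVal_isInvVal_base q (σ.restrictScalars ℚ_[q]) x

/-! ### The base field `ℚ_q` -/

/-- The restricted valuation on `ℚ_q` is the `q`-adic norm. -/
theorem padicBase_resVal_apply (x : ℚ_[q]) : resVal ℚ_[q] (padicVal q) x = ‖x‖₊ := by
  rw [resVal_apply, padicVal_apply]
  exact NNReal.eq (PadicAlgCl.norm_extends q x)

theorem padicBase_nnnorm_q : ‖(q : ℚ_[q])‖₊ = (q : ℝ≥0)⁻¹ := by
  apply NNReal.eq
  rw [coe_nnnorm, Padic.norm_p, NNReal.coe_inv, NNReal.coe_natCast]

theorem padicBase_inv_lt_one : ((q : ℝ≥0)⁻¹ : ℝ≥0) < 1 := by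
  have h1 : (1 : ℝ≥0) < (q : ℝ≥0) := by exact_mod_cast (Fact.out : q.Prime).one_lt
  exact inv_lt_one_of_one_lt₀ h1

theorem padicBase_isDiscreteVal : IsDiscreteVal (resVal ℚ_[q] (padicVal q)) := by
  refine ⟨(q : ℚ_[q]), ?_, ?_, ?_⟩
  · exact_mod_cast (Fact.out : q.Prime).ne_zero
  · rw [padicBase_resVal_apply, padicBase_nnnorm_q]
    exact padicBase_inv_lt_one q
  · intro x hx
    refine ⟨x.valuation, ?_⟩
    rw [padicBase_resVal_apply, padicBase_resVal_apply, padicBase_nnnorm_q]
    apply NNReal.eq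
    rw [coe_nnnorm, Padic.norm_eq_zpow_neg_valuation hx, NNReal.coe_zpow, NNReal.coe_inv,
      NNReal.coe_natCast, inv_zpow']

theorem padicBase_hasFiniteResidue : HasFiniteResidue (resVal ℚ_[q] (padicVal q)) := by
  classical
  refine ⟨(Finset.range q).image (fun n : ℕ => (n : ℚ_[q])), ?_⟩
  intro x hx
  rw [padicBase_resVal_apply] at hx
  have hx' : ‖x‖ ≤ 1 := by exact_mod_cast hx
  let xi : ℤ_[q] := ⟨x, hx'⟩
  obtain ⟨n, hn, hmem⟩ := PadicInt.exists_mem_range (p := q) (x := xi)
  refine ⟨(n : ℚ_[q]), Finset.mem_image.mpr ⟨n, Finset.mem_range.mpr hn, rfl⟩, ?_⟩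
  rw [padicBase_resVal_apply]
  have h2 : ‖xi - (n : ℤ_[q])‖ < 1 := by
    rwa [PadicInt.maximalIdeal_eq_span_p, Ideal.mem_span_singleton,
      ← PadicInt.norm_lt_one_iff_dvd] at hmem
  have h3 : ‖x - (n : ℚ_[q])‖ < 1 := by
    have : ((xi - (n : ℤ_[q]) : ℤ_[q]) : ℚ_[q]) = x - (n : ℚ_[q]) := by
      push_cast
      rfl
    rw [← this]
    exact h2
  exact_mod_cast h3

theorem padicVal_isLocalVal_base : IsLocalVal (resVal ℚ_[q] (padicVal q)) :=
  ⟨padicBase_isDiscreteVal q, padicBase_hasFiniteResidue q,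
    newtonHensel_of_isInvVal (padicVal q) (padicVal_isInvVal_base q)⟩

/-- The valuation ring of the restricted valuation on `ℚ_q` is `ℤ_q`. -/
noncomputable def padicBase_ringEquiv :
    ↥(resVal ℚ_[q] (padicVal q)).valuationSubring ≃+* ℤ_[q] where
  toFun x := ⟨x.1, by
    have h := x.2
    rw [Valuation.mem_valuationSubring_iff, padicBase_resVal_apply] at h
    exact_mod_cast h⟩
  invFun y := ⟨y.1, by
    rw [Valuation.mem_valuationSubring_iff, padicBase_resVal_apply]
    exact_mod_cast y.2⟩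
  left_inv _ := rfl
  right_inv _ := rfl
  map_mul' _ _ := rfl
  map_add' _ _ := rfl

theorem padicVal_resCard_base : resCard (resVal ℚ_[q] (padicVal q)) = q := by
  unfold resCard
  have e : IsLocalRing.ResidueField ↥(resVal ℚ_[q] (padicVal q)).valuationSubring ≃+* ZMod q :=
    (IsLocalRing.ResidueField.mapEquiv (padicBase_ringEquiv q)).trans PadicInt.residueField
  rw [Nat.card_congr e.toEquiv, Nat.card_zmod]

/-! ### Finite subextensions -/

section Finite

variable (E : IntermediateField ℚ_[q] (PadicAlgCl q)) [FiniteDimensional ℚ_[q] E]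

/-- The valuation of the normal closure of `E`. -/
noncomputable abbrev padicBase_ncVal :
    Valuation (IntermediateField.normalClosure ℚ_[q] E (PadicAlgCl q)) ℝ≥0 :=
  resVal (IntermediateField.normalClosure ℚ_[q] E (PadicAlgCl q)) (padicVal q)

theorem padicBase_ncVal_isInvVal : IsInvVal ℚ_[q] (padicBase_ncVal q E) := by
  intro σ x
  have h := padicVal_isInvVal_base q (σ.liftNormal (PadicAlgCl q))
    (algebraMap (IntermediateField.normalClosure ℚ_[q] E (PadicAlgCl q)) (PadicAlgCl q) x)
  rw [AlgEquiv.liftNormal_commutes] at h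
  exact h

theorem padicBase_ncVal_resVal_base :
    resVal ℚ_[q] (padicBase_ncVal q E) = resVal ℚ_[q] (padicVal q) :=
  Valuation.ext fun _ => rfl

theorem padicBase_ncVal_resVal :
    resVal E (padicBase_ncVal q E) = resVal E (padicVal q) :=
  Valuation.ext fun _ => rfl

theorem padicBase_ncVal_isDiscreteVal : IsDiscreteVal (padicBase_ncVal q E) := by
  haveI : IsGalois ℚ_[q] (IntermediateField.normalClosure ℚ_[q] E (PadicAlgCl q)) :=
    IsGalois.normalClosure ℚ_[q] E (PadicAlgCl q)
  refine isDiscreteVal_of_finite (padicBase_ncVal q E) (padicBase_ncVal_isInvVal q E) ?_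
  rw [padicBase_ncVal_resVal_base]
  exact padicBase_isDiscreteVal q

theorem padicBase_ncVal_hasFiniteResidue : HasFiniteResidue (padicBase_ncVal q E) := by
  haveI : IsGalois ℚ_[q] (IntermediateField.normalClosure ℚ_[q] E (PadicAlgCl q)) :=
    IsGalois.normalClosure ℚ_[q] E (PadicAlgCl q)
  refine hasFiniteResidue_of_finite (padicBase_ncVal q E) (padicBase_ncVal_isInvVal q E) ?_ ?_
  · rw [padicBase_ncVal_resVal_base]
    exact padicBase_isDiscreteVal q
  · rw [padicBase_ncVal_resVal_base]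
    exact padicBase_hasFiniteResidue q

theorem padicBase_sub_isDiscreteVal : IsDiscreteVal (resVal E (padicVal q)) := by
  rw [← padicBase_ncVal_resVal q E]
  refine isDiscreteVal_res (padicBase_ncVal q E) (padicBase_ncVal_isDiscreteVal q E)
    ⟨(q : E), ?_, ?_⟩
  · exact_mod_cast (Fact.out : q.Prime).ne_zero
  · have h : padicBase_ncVal q E
        (algebraMap E (IntermediateField.normalClosure ℚ_[q] E (PadicAlgCl q)) (q : E)) =
          (q : ℝ≥0)⁻¹ := by
      rw [map_natCast, resVal_apply, map_natCast, padicVal_apply, ← padicBase_nnnorm_q q]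
      apply NNReal.eq
      rw [coe_nnnorm, coe_nnnorm, ← PadicAlgCl.norm_extends q (q : ℚ_[q])]
      congr 1
    rw [h]
    exact (padicBase_inv_lt_one q).ne

theorem padicBase_sub_hasFiniteResidue : HasFiniteResidue (resVal E (padicVal q)) := by
  rw [← padicBase_ncVal_resVal q E]
  exact hasFiniteResidue_res (padicBase_ncVal q E) (padicBase_ncVal_hasFiniteResidue q E)

end Finite

theorem padicVal_isLocalVal (E : IntermediateField ℚ_[q] (PadicAlgCl q))
    [FiniteDimensional ℚ_[q] E] : IsLocalVal (resVal E (padicVal q)) :=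
  ⟨padicBase_sub_isDiscreteVal q E, padicBase_sub_hasFiniteResidue q E,
    newtonHensel_of_isInvVal (padicVal q) (padicVal_isInvVal q E)⟩

/-- The residue characteristic: `resCard` of a finite subextension is a power of `q`. -/
theorem padicVal_resCard (E : IntermediateField ℚ_[q] (PadicAlgCl q))
    [FiniteDimensional ℚ_[q] E] : ∃ f : ℕ, 0 < f ∧ resCard (resVal E (padicVal q)) = q ^ f := by
  obtain ⟨ℓ, k, hℓ, hk, hcard, hlt⟩ := exists_prime_resCard (padicBase_sub_hasFiniteResidue q E)
  refine ⟨k, hk, ?_⟩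
  rw [hcard]
  congr 1
  -- `ℓ = q` since `‖ℓ‖ < 1`
  rw [resVal_apply, map_natCast, padicVal_apply] at hlt
  have h1 : ‖(ℓ : PadicAlgCl q)‖ < 1 := by exact_mod_cast hlt
  have h2 : ‖(ℓ : ℚ_[q])‖ < 1 := by
    rw [← PadicAlgCl.norm_extends q (ℓ : ℚ_[q])]
    have : ((ℓ : ℚ_[q]) : PadicAlgCl q) = (ℓ : PadicAlgCl q) :=
      map_natCast (algebraMap ℚ_[q] (PadicAlgCl q)) ℓ
    rw [this]
    exact h1
  rw [Padic.norm_natCast_lt_one_iff] at h2
  exact ((Nat.prime_dvd_prime_iff_eq (Fact.out : q.Prime) hℓ).mp h2).symm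

end Fermat.Agent.F4.Loc
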