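import Fermat.Agent.F4.Loc.Setup
import Fermat.Agent.F4.Loc.Unr1.Gal2

/-!
# F4 / Loc / Unram : unramified extensions `E(ζ_m)`  (UNR1 PROVED by helper90, proofs in
`F4/Loc/Unr1/*.lean`; UNR2 (norms) = helper32, `F4/Loc/Unram2.lean`)

`Ω` algebraically closed and algebraic over `E` (characteristic `0`), `w` a valuation of `Ω`
invariant under `Ω ≃ₐ[E] Ω`, `E` local, `Q = resCard` the residue cardinality, `m` prime to `Q`,
`ζ ∈ Ω` a primitive `m`-th root of unity, `F = E⟮ζ⟯`.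

UNR1 (structure):
* `val_sub_one_rootOfUnity` : `w (ζ^i - ζ^j) = 1` for `ζ^i ≠ ζ^j` (reduction is injective on `μ_m`);
* `unram_frob` : every `σ ∈ Ω ≃ₐ[E] Ω` acts on `ζ` by `ζ ↦ ζ ^ (Q ^ i)` for some `i`
  (`σ` induces an automorphism of the residue field of `Ω` over `k_E = 𝔽_Q`);
* `unram_finrank` : `[E⟮ζ⟯ : E] = orderOf (Q mod m)`;
* `unram_cyclic` : `Gal(E⟮ζ⟯/E)` is generated by the Frobenius `ζ ↦ ζ ^ Q`;
* `unram_exists_degree` : `m = Q ^ n - 1` gives degree `n`.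
UNR2 (arithmetic) has MOVED to `F4/Loc/Unram2.lean` (helper32): `unram_val`, `unram_norm_unit`.
-/

set_option autoImplicit false
set_option linter.unusedSectionVars false

open Polynomial IntermediateField

namespace Fermat.Agent.F4.Loc

variable {E Ω : Type*} [Field E] [Field Ω] [Algebra E Ω] [CharZero E] [IsAlgClosed Ω]
  [Algebra.IsAlgebraic E Ω] {Γ₀ : Type*} [LinearOrderedCommGroupWithZero Γ₀]

section UNR1

theorem val_sub_one_rootOfUnity (w : Valuation Ω Γ₀) (hE : IsLocalVal (resVal E w))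
    {m : ℕ} (hm : Nat.Coprime m (resCard (resVal E w))) {ζ : Ω} (hζ : IsPrimitiveRoot ζ m)
    (i j : ℕ) (hij : ζ ^ i ≠ ζ ^ j) : w (ζ ^ i - ζ ^ j) = 1 :=
  unr1_val_sub_pow w hE.finRes hm hζ i j hij

theorem unram_frob (w : Valuation Ω Γ₀) (hinv : IsInvVal E w) (hE : IsLocalVal (resVal E w))
    {m : ℕ} (hm : Nat.Coprime m (resCard (resVal E w))) {ζ : Ω} (hζ : IsPrimitiveRoot ζ m)
    (σ : Ω ≃ₐ[E] Ω) : ∃ i : ℕ, σ ζ = ζ ^ (resCard (resVal E w) ^ i) :=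
  unr1_frob w hinv hE.finRes hm hζ σ

theorem unram_finrank (w : Valuation Ω Γ₀) (hinv : IsInvVal E w) (hE : IsLocalVal (resVal E w))
    {m : ℕ} (hm : Nat.Coprime m (resCard (resVal E w))) {ζ : Ω} (hζ : IsPrimitiveRoot ζ m) :
    Module.finrank E E⟮ζ⟯ = orderOf (ZMod.unitOfCoprime (resCard (resVal E w)) hm.symm) :=
  unr1_finrank w hinv hE.finRes hm hζ

theorem unram_isGalois {m : ℕ} (hm : 0 < m) {ζ : Ω} (hζ : IsPrimitiveRoot ζ m) :
    IsGalois E E⟮ζ⟯ :=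
  unr1_isGalois hm hζ

/-- The Frobenius of `E⟮ζ⟯/E` exists and generates the Galois group. -/
theorem unram_cyclic (w : Valuation Ω Γ₀) (hinv : IsInvVal E w) (hE : IsLocalVal (resVal E w))
    {m : ℕ} (hm : Nat.Coprime m (resCard (resVal E w))) {ζ : Ω} (hζ : IsPrimitiveRoot ζ m) :
    ∃ φ : E⟮ζ⟯ ≃ₐ[E] E⟮ζ⟯,
      ((φ (AdjoinSimple.gen E ζ) : E⟮ζ⟯) : Ω) = ζ ^ resCard (resVal E w) ∧
      ∀ σ : E⟮ζ⟯ ≃ₐ[E] E⟮ζ⟯, σ ∈ Subgroup.zpowers φ :=
  unr1_cyclic w hinv hE.finRes hm hζ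

theorem unram_exists_degree (w : Valuation Ω Γ₀) (hinv : IsInvVal E w)
    (hE : IsLocalVal (resVal E w)) (n : ℕ) (hn : 0 < n) :
    ∃ (m : ℕ) (ζ : Ω), Nat.Coprime m (resCard (resVal E w)) ∧ IsPrimitiveRoot ζ m ∧
      Module.finrank E E⟮ζ⟯ = n :=
  unr1_exists_degree w hinv hE.finRes n hn

end UNR1

end Fermat.Agent.F4.Loc
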