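import Fermat.Agent.F4.Loc.Setup
import Fermat.Prelude.Def_GaloisRep_CompletionBridge

/-!
# F4 / Loc / Krasner : `ℚ_q · ι(ℚ̄) = PadicAlgCl q`  (seat KRAS, helper77)

* `krasner` : (Krasner's lemma) if `β` is closer to `α` than every other conjugate of `α` over
  `E`, then `α ∈ E(β)`.  Proof: for `σ` fixing `E(β)`,
  `‖σ α - α‖ ≤ max ‖σ (α - β)‖ ‖β - α‖ = ‖β - α‖`, hence `σ α = α`.
* `exists_algebraic_generator` : every element of `PadicAlgCl q` lies in `ℚ_q(ι y)` for some
  algebraic number `y`.  Proof: approximate the minimal polynomial `f` of `α` by `g ∈ ℚ[X]`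
  (`ℚ` is dense in `ℚ_q`), monic of the same degree; by continuity of roots some root `β` of `g`
  is close to `α`; roots of `g` are in `ι(ℚ̄)`; Krasner (Mathlib `IsKrasner`) gives `α ∈ ℚ_q(β)`.
* `exists_numberField_level` : every finite subextension is contained in `ℚ_q · ι(F)`, `F` a
  number field, normal over `ℚ`.
-/

set_option autoImplicit false
set_option linter.unusedSectionVars false
set_option linter.style.haveILetI false

open Polynomial IntermediateField

namespace Fermat.Agent.F4.Loc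

variable (q : ℕ) [Fact q.Prime]

/-- Automorphisms of `PadicAlgCl q` over `ℚ_q` are isometries. -/
lemma kras_norm_algEquiv (σ : PadicAlgCl q ≃ₐ[ℚ_[q]] PadicAlgCl q) (y : PadicAlgCl q) :
    ‖σ y‖ = ‖y‖ :=
  (spectralNorm_eq_of_equiv σ y).symm

/-- **Krasner's lemma** over a subfield `E ⊇ ℚ_q` of `PadicAlgCl q`. -/
theorem krasner (E : IntermediateField ℚ_[q] (PadicAlgCl q)) (α β : PadicAlgCl q)
    (h : ∀ σ : PadicAlgCl q ≃ₐ[ℚ_[q]] PadicAlgCl q, (∀ x ∈ E, σ x = x) → σ α ≠ α →
      ‖β - α‖ < ‖σ α - α‖) :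
    α ∈ IntermediateField.adjoin ℚ_[q] ((E : Set (PadicAlgCl q)) ∪ {β}) := by
  haveI : IsGalois ℚ_[q] (PadicAlgCl q) := inferInstance
  rw [← InfiniteGalois.fixedField_fixingSubgroup
    (IntermediateField.adjoin ℚ_[q] ((E : Set (PadicAlgCl q)) ∪ {β})),
    IntermediateField.mem_fixedField_iff]
  intro σ hσ
  rw [IntermediateField.mem_fixingSubgroup_iff] at hσ
  have hE : ∀ x ∈ E, σ x = x := fun x hx =>
    hσ x (IntermediateField.subset_adjoin _ _ (Or.inl hx))
  have hβ : σ β = β := hσ β (IntermediateField.subset_adjoin _ _ (Or.inr rfl))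
  by_contra hne
  have h1 := h σ hE hne
  have h2 : ‖σ α - α‖ ≤ ‖β - α‖ := by
    have e : σ α - α = σ (α - β) + (β - α) := by rw [map_sub, hβ]; ring
    rw [e]
    refine (IsUltrametricDist.norm_add_le_max _ _).trans ?_
    rw [kras_norm_algEquiv, ← norm_neg (α - β), neg_sub, max_self]
  exact absurd h1 (not_lt.mpr h2)

/-- Every element of `PadicAlgCl q` lies in `ℚ_q(ι y)` for an algebraic number `y`. -/
theorem exists_algebraic_generator (x : PadicAlgCl q) :
    ∃ y : AlgebraicClosure ℚ, x ∈ ℚ_[q]⟮padicEmbedding q y⟯ := by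
  classical
  haveI : IsScalarTower ℚ ℚ_[q] (PadicAlgCl q) :=
    IsScalarTower.of_algebraMap_eq' (Subsingleton.elim _ _)
  have hint : IsIntegral ℚ_[q] x := Algebra.IsIntegral.isIntegral x
  have fmon : (minpoly ℚ_[q] x).Monic := minpoly.monic hint
  have fa0 : (minpoly ℚ_[q] x).aeval x = 0 := minpoly.aeval _ _
  have fnatdeg0 : (minpoly ℚ_[q] x).natDegree ≠ 0 := (minpoly.natDegree_pos hint).ne'
  -- `δ` = the distance of `x` to its other conjugates
  let S : Finset (PadicAlgCl q) :=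
    {z ∈ ((minpoly ℚ_[q] x).rootSet (PadicAlgCl q)).toFinset | z ≠ x}
  let δ : ℝ := if hS : S.Nonempty then Finset.min' (S.image fun z => ‖x - z‖)
      (Finset.image_nonempty.mpr hS) else 1
  have norm_sub_le : ∀ a' : PadicAlgCl q, IsConjRoot ℚ_[q] x a' → x ≠ a' → δ ≤ ‖x - a'‖ := by
    intro a' conj ne
    have ha'S : a' ∈ S := by
      simp only [Finset.mem_filter, Set.mem_toFinset, S]
      rw [← isConjRoot_iff_mem_minpoly_rootSet hint]
      exact ⟨conj, ne.symm⟩
    have hS : S.Nonempty := ⟨a', ha'S⟩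
    simp only [hS, ↓reduceDIte, δ]
    exact Finset.min'_le (S.image fun z => ‖x - z‖) (‖x - a'‖) (Finset.mem_image_of_mem _ ha'S)
  have δpos : δ > 0 := by
    by_cases hS : S.Nonempty <;> simp only [hS, ↓reduceDIte, δ]
    · simp only [gt_iff_lt, Finset.lt_min'_iff, Finset.mem_image, forall_exists_index, and_imp,
        forall_apply_eq_imp_iff₂]
      rintro a' ha'
      simp only [Finset.mem_filter, Set.mem_toFinset, S] at ha'
      rw [norm_pos_iff, sub_ne_zero]
      exact ha'.2.symm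
    · linarith
  have hε : (δ / (max ‖x‖ 1)) ^ (minpoly ℚ_[q] x).natDegree /
      ((minpoly ℚ_[q] x).natDegree + 1) > 0 := by positivity
  have hd : DenseRange (algebraMap ℚ ℚ_[q]) := Padic.denseRange_ratCast q
  obtain ⟨g, gmon, gdeg, gcoeff⟩ :=
    exists_monic_and_natDegree_eq_and_norm_map_algebraMap_coeff_sub_lt hd fmon hε
  obtain ⟨b, hb, hab⟩ := exists_aroots_norm_sub_lt_of_norm_coeff_sub_lt
      (K := ℚ_[q]) (L := PadicAlgCl q)
      hε fa0 fmon (gmon.map _) (gdeg ▸ (g.natDegree_map _)) gcoeff (IsAlgClosed.splits _)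
  have hab : ‖x - b‖ < δ := by
    rw [← Real.rpow_natCast, ← mul_comm_div, div_self, one_mul,
        ← Real.rpow_mul (div_pos δpos (by positivity)).le, mul_inv_cancel₀] at hab
    · simpa [mul_assoc, div_mul_cancel₀ _ (by positivity : (max ‖x‖ 1) > 0).ne'] using hab
    · simp [fnatdeg0]
    · positivity
  -- `b` is a root of `g`, hence comes from `ℚ̄`
  have hg0 : g ≠ 0 := gmon.ne_zero
  have hbroot : b ∈ g.rootSet (PadicAlgCl q) := by
    rw [Polynomial.mem_rootSet]
    refine ⟨hg0, ?_⟩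
    rw [Polynomial.mem_aroots] at hb
    have := hb.2
    rwa [Polynomial.aeval_map_algebraMap] at this
  rw [← Polynomial.Splits.image_rootSet (IsAlgClosed.splits (g.map (algebraMap ℚ
    (AlgebraicClosure ℚ)))) (padicEmbedding q)] at hbroot
  obtain ⟨y, -, rfl⟩ := hbroot
  refine ⟨y, ?_⟩
  have hbint : IsIntegral ℚ_[q] (padicEmbedding q y) := Algebra.IsIntegral.isIntegral _
  exact IsKrasner.krasner (K := ℚ_[q]) (L := PadicAlgCl q) (minpoly.irreducible hint).separable
    (IsAlgClosed.splits _) hbint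
    (fun a' h1 h2 => lt_of_lt_of_le hab (norm_sub_le a' h1 h2))

/-- Every finite subextension of `PadicAlgCl q / ℚ_q` is contained in `ℚ_q · ι(F)` for a
number field `F ⊆ ℚ̄`, finite and normal over `ℚ`. -/
theorem exists_numberField_level (E : IntermediateField ℚ_[q] (PadicAlgCl q))
    [FiniteDimensional ℚ_[q] E] :
    ∃ F : IntermediateField ℚ (AlgebraicClosure ℚ), FiniteDimensional ℚ F ∧
      (∀ (σ : AlgebraicClosure ℚ ≃ₐ[ℚ] AlgebraicClosure ℚ) (x : AlgebraicClosure ℚ),
        x ∈ F → σ x ∈ F) ∧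
      E ≤ IntermediateField.adjoin ℚ_[q] (padicEmbedding q '' (F : Set (AlgebraicClosure ℚ))) := by
  haveI : Algebra.IsAlgebraic ℚ (AlgebraicClosure ℚ) := AlgebraicClosure.isAlgebraic ℚ
  -- a primitive element of `E`
  obtain ⟨α, hα⟩ := Field.exists_primitive_element ℚ_[q] E
  have hE : E = ℚ_[q]⟮(α : PadicAlgCl q)⟯ := by
    have h1 : (ℚ_[q]⟮α⟯ : IntermediateField ℚ_[q] E).map E.val = (⊤ : IntermediateField ℚ_[q] E).map
        E.val := by rw [hα]
    rw [IntermediateField.adjoin_map, Set.image_singleton, ← AlgHom.fieldRange_eq_map,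
      IntermediateField.fieldRange_val] at h1
    exact h1.symm
  obtain ⟨y, hy⟩ := exists_algebraic_generator q (α : PadicAlgCl q)
  have hyint : IsIntegral ℚ y := Algebra.IsIntegral.isIntegral y
  refine ⟨IntermediateField.adjoin ℚ ((minpoly ℚ y).rootSet (AlgebraicClosure ℚ)), ?_, ?_, ?_⟩
  · exact IntermediateField.finiteDimensional_adjoin fun z _ => Algebra.IsIntegral.isIntegral z
  · intro σ z hz
    have h1 : σ z ∈ (IntermediateField.adjoin ℚ
        ((minpoly ℚ y).rootSet (AlgebraicClosure ℚ))).map (σ : AlgebraicClosure ℚ →ₐ[ℚ]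
          AlgebraicClosure ℚ) := ⟨z, hz, rfl⟩
    rw [IntermediateField.adjoin_map] at h1
    refine IntermediateField.adjoin.mono ℚ _ _ ?_ h1
    rintro _ ⟨w, hw, rfl⟩
    rw [Polynomial.mem_rootSet] at hw ⊢
    refine ⟨hw.1, ?_⟩
    show (minpoly ℚ y).aeval (σ w) = 0
    rw [Polynomial.aeval_algEquiv, AlgHom.comp_apply, hw.2]
    exact map_zero _
  · rw [hE, IntermediateField.adjoin_simple_le_iff]
    have hle : ℚ_[q]⟮padicEmbedding q y⟯ ≤ IntermediateField.adjoin ℚ_[q]
        (padicEmbedding q '' ((IntermediateField.adjoin ℚ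
          ((minpoly ℚ y).rootSet (AlgebraicClosure ℚ)) :
            IntermediateField ℚ (AlgebraicClosure ℚ)) : Set (AlgebraicClosure ℚ))) := by
      rw [IntermediateField.adjoin_simple_le_iff]
      refine IntermediateField.subset_adjoin _ _ ⟨y, ?_, rfl⟩
      refine IntermediateField.subset_adjoin _ _ ?_
      rw [Polynomial.mem_rootSet]
      exact ⟨minpoly.ne_zero hyint, minpoly.aeval _ _⟩
    exact hle hy

end Fermat.Agent.F4.Loc
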