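import Fermat.Agent.F4.Loc.Setup

/-!
# F4 / Loc / KummerFin : `E^× / (E^×)^p` is finite for a local valued field  (seat KFIN)

Proof.  `E^× = π^ℤ × U`; `U ⊇ U_N = {x | v (x - 1) ≤ v π ^ N}` of finite index (finite residue
field, induction on `N`); for `N` large (`v π ^ N < v p ^ 2`) every element of `U_N` is a `p`-th
power by Newton–Hensel applied to `X^p - u` at `a = 1`.

Remark.  The bound in `finite_units_mod_close` is a value `v y`, `y ≠ 0` (for an arbitrary
`γ ≠ 0` in a value group of higher rank the statement would be false).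
-/

set_option autoImplicit false

open Polynomial

namespace Fermat.Agent.F4.Loc

variable {E : Type*} [Field E] {Γ₀ : Type*} [LinearOrderedCommGroupWithZero Γ₀]

/-- Natural numbers have valuation at most `1`. -/
lemma val_natCast_le_one (v : Valuation E Γ₀) (n : ℕ) : v (n : E) ≤ 1 := by
  induction n with
  | zero => simp
  | succ n ih =>
    rw [Nat.cast_succ]
    exact (v.map_add _ _).trans (max_le ih (le_of_eq v.map_one))

/-- Elements close to `1` are `p`-th powers. -/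
theorem exists_pow_eq_of_close [CharZero E] (v : Valuation E Γ₀) (hv : IsLocalVal v) (p : ℕ)
    (hp : p.Prime) (u : E) (hu : v (u - 1) < v (p : E) ^ 2) : ∃ x : E, x ^ p = u := by
  have hp1 : v (p : E) ≤ 1 := val_natCast_le_one v p
  have hu1 : v (u - 1) < 1 := lt_of_lt_of_le hu (pow_le_one₀ zero_le hp1)
  have hvu : v u ≤ 1 := by
    have h : u = (u - 1) + 1 := by ring
    rw [h]
    exact (v.map_add _ _).trans (max_le hu1.le (le_of_eq v.map_one))
  have hcoeff : ∀ i, v ((X ^ p - C u : E[X]).coeff i) ≤ 1 := by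
    intro i
    rw [coeff_sub, coeff_X_pow, coeff_C]
    by_cases hi : i = p
    · have hi0 : i ≠ 0 := by rw [hi]; exact hp.ne_zero
      rw [if_pos hi, if_neg hi0, sub_zero]
      exact le_of_eq v.map_one
    · rw [if_neg hi, zero_sub, Valuation.map_neg]
      by_cases hi0 : i = 0
      · rw [if_pos hi0]; exact hvu
      · rw [if_neg hi0, map_zero]; exact zero_le
  have hev : (X ^ p - C u : E[X]).eval 1 = 1 - u := by simp
  have hdev : (derivative (X ^ p - C u : E[X])).eval 1 = (p : E) := by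
    rw [derivative_sub, derivative_C, sub_zero, derivative_X_pow]
    simp
  obtain ⟨b, hb, -⟩ := hv.hensel (X ^ p - C u) hcoeff 1 (le_of_eq v.map_one) (by
    rw [hev, hdev, Valuation.map_sub_swap]
    exact hu)
  refine ⟨b, ?_⟩
  have : b ^ p - u = 0 := by simpa using hb
  exact sub_eq_zero.1 this

section Close

variable (v : Valuation E Γ₀)

/-- A nonzero element of valuation `< 1` has valuation `≤ v π`. -/
lemma IsUnif.val_le_of_lt_one {π : E} (hπ : IsUnif v π) {x : E} (hx : v x < 1) : v x ≤ v π := by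
  by_cases hx0 : x = 0
  · rw [hx0, map_zero]; exact zero_le
  obtain ⟨n, hn⟩ := hπ.2.2 x hx0
  rw [hn] at hx ⊢
  have hn0 : 0 < n := (zpow_lt_one_iff_right_of_lt_one₀ hπ.val_pos hπ.2.1).1 hx
  calc v π ^ n ≤ v π ^ (1 : ℤ) := zpow_le_zpow_right_of_le_one₀ hπ.val_pos hπ.2.1.le hn0
    _ = v π := zpow_one _

/-- If `v (x - r) < v x` then `v r = v x`. -/
lemma val_eq_of_sub_lt {x r : E} (h : v (x - r) < v x) : v r = v x := by
  have h1 : v (x - (x - r)) = v x := Valuation.map_sub_eq_of_lt_left v h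
  rwa [sub_sub_cancel] at h1

/-- Units modulo `1 + π^(N+1)` have finitely many classes. -/
lemma finite_units_mod_unif (hv : IsLocalVal v) {π : E} (hπ : IsUnif v π) (N : ℕ) :
    ∃ R : Finset E, ∀ x : E, v x = 1 → ∃ r ∈ R, v r = 1 ∧ v (x / r - 1) ≤ v π ^ (N + 1) := by
  classical
  obtain ⟨R₀, hR₀⟩ := hv.finRes
  induction N with
  | zero =>
    refine ⟨R₀, fun x hx => ?_⟩
    obtain ⟨r, hr, hxr⟩ := hR₀ x hx.le
    have hvr : v r = 1 := by
      rw [← hx] at hxr
      rw [val_eq_of_sub_lt v hxr, hx]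
    have hr0 : r ≠ 0 := fun h => by simp [h] at hvr
    refine ⟨r, hr, hvr, ?_⟩
    have h1 : x / r - 1 = (x - r) / r := by field_simp
    rw [h1, map_div₀, hvr, div_one, zero_add, pow_one]
    exact hπ.val_le_of_lt_one v hxr
  | succ N ih =>
    obtain ⟨R, hR⟩ := ih
    refine ⟨(R ×ˢ R₀).image fun rs => rs.1 * (1 + π ^ (N + 1) * rs.2), fun x hx => ?_⟩
    obtain ⟨r, hr, hvr, hxr⟩ := hR x hx
    have hr0 : r ≠ 0 := fun h => by simp [h] at hvr
    have hπ0 : π ^ (N + 1) ≠ 0 := pow_ne_zero _ hπ.1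
    have hvπ : v (π ^ (N + 1)) ≠ 0 := (v.ne_zero_iff).2 hπ0
    -- `t = (x / r - 1) / π^(N+1)` is integral
    have ht : v ((x / r - 1) / π ^ (N + 1)) ≤ 1 := by
      rw [map_div₀, map_pow]
      exact div_le_one_of_le₀ hxr zero_le
    obtain ⟨s, hs, hts⟩ := hR₀ _ ht
    have hvs : v s ≤ 1 := by
      have h : s = (x / r - 1) / π ^ (N + 1) - ((x / r - 1) / π ^ (N + 1) - s) := by ring
      rw [h]
      exact (v.map_sub _ _).trans (max_le ht hts.le)
    have hπs : v (π ^ (N + 1) * s) < 1 := by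
      rw [map_mul, map_pow]
      calc v π ^ (N + 1) * v s ≤ v π ^ (N + 1) * 1 := by gcongr
        _ = v π ^ (N + 1) := mul_one _
        _ < 1 := pow_lt_one₀ zero_le hπ.2.1 (Nat.succ_ne_zero N)
    have hv1 : v (1 + π ^ (N + 1) * s) = 1 := by
      have := Valuation.map_add_eq_of_lt_left v (x := 1) (y := π ^ (N + 1) * s)
        (by rw [v.map_one]; exact hπs)
      rw [this, v.map_one]
    have h10 : 1 + π ^ (N + 1) * s ≠ 0 := fun h => by simp [h] at hv1
    refine ⟨r * (1 + π ^ (N + 1) * s), Finset.mem_image.2 ⟨(r, s), Finset.mem_product.2 ⟨hr, hs⟩,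
      rfl⟩, by rw [map_mul, hvr, hv1, one_mul], ?_⟩
    have h2 : x / (r * (1 + π ^ (N + 1) * s)) - 1
        = π ^ (N + 1) * ((x / r - 1) / π ^ (N + 1) - s) / (1 + π ^ (N + 1) * s) := by
      field_simp
      ring
    rw [h2, map_div₀, hv1, div_one, map_mul, map_pow, pow_succ (v π) (N + 1)]
    gcongr
    exact hπ.val_le_of_lt_one v hts

/-- The subgroup of units congruent to `1` modulo `y` has finite index in the units, `y ≠ 0`. -/
theorem finite_units_mod_close (hv : IsLocalVal v) (y : E) (hy : y ≠ 0) :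
    ∃ R : Finset E, ∀ x : E, v x = 1 → ∃ r ∈ R, r ≠ 0 ∧ v (x / r - 1) < v y := by
  obtain ⟨π, hπ⟩ := hv.disc.exists_unif
  obtain ⟨n, hn⟩ := hπ.2.2 y hy
  obtain ⟨R, hR⟩ := finite_units_mod_unif v hv hπ n.toNat
  refine ⟨R, fun x hx => ?_⟩
  obtain ⟨r, hr, hvr, hxr⟩ := hR x hx
  refine ⟨r, hr, fun h => by simp [h] at hvr, lt_of_le_of_lt hxr ?_⟩
  rw [hn, ← zpow_natCast]
  refine zpow_lt_zpow_right_of_lt_one₀ hπ.val_pos hπ.2.1 ?_
  have := Int.self_le_toNat n
  push_cast
  omega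

end Close

/-- **Finiteness of `E^×/(E^×)^p`**. -/
theorem finite_units_mod_pow [CharZero E] (v : Valuation E Γ₀) (hv : IsLocalVal v) (p : ℕ)
    (hp : p.Prime) : Finite (Eˣ ⧸ (powMonoidHom p : Eˣ →* Eˣ).range) := by
  classical
  obtain ⟨π, hπ⟩ := hv.disc.exists_unif
  have hp0 : ((p : E) ^ 2) ≠ 0 := pow_ne_zero _ (Nat.cast_ne_zero.2 hp.ne_zero)
  obtain ⟨R, hR⟩ := finite_units_mod_close v hv _ hp0
  let πu : Eˣ := Units.mk0 π hπ.1
  let f : Fin p × ↥(R.filter (· ≠ 0)) → Eˣ ⧸ (powMonoidHom p : Eˣ →* Eˣ).range :=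
    fun br => QuotientGroup.mk (πu ^ (br.1 : ℕ) * Units.mk0 br.2.1 (Finset.mem_filter.1 br.2.2).2)
  refine Finite.of_surjective f fun X => ?_
  induction X using QuotientGroup.induction_on with
  | H x =>
    obtain ⟨n, hn⟩ := hπ.2.2 (x : E) x.ne_zero
    have hpz : (0 : ℤ) < p := by exact_mod_cast hp.pos
    -- `x / π^n` is a unit
    have hπn : π ^ n ≠ 0 := zpow_ne_zero _ hπ.1
    have hx1 : v ((x : E) / π ^ n) = 1 := by
      rw [map_div₀, map_zpow₀, hn]
      exact div_self (zpow_ne_zero _ (v.ne_zero_iff.2 hπ.1))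
    obtain ⟨r, hr, hr0, hxr⟩ := hR _ hx1
    obtain ⟨c, hc⟩ := exists_pow_eq_of_close v hv p hp ((x : E) / π ^ n / r) (by
      rw [← map_pow]; exact hxr)
    have hc0 : c ≠ 0 := by
      intro h
      rw [h, zero_pow hp.ne_zero] at hc
      exact (div_ne_zero (div_ne_zero x.ne_zero hπn) hr0) hc.symm
    have hb : (n % (p : ℤ)).toNat < p := by
      have h1 := Int.emod_nonneg n hpz.ne'
      have h2 := Int.emod_lt_of_pos n hpz
      omega
    refine ⟨(⟨(n % (p : ℤ)).toNat, hb⟩, ⟨r, Finset.mem_filter.2 ⟨hr, hr0⟩⟩), ?_⟩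
    show (QuotientGroup.mk (πu ^ (n % (p : ℤ)).toNat * Units.mk0 r hr0) :
      Eˣ ⧸ (powMonoidHom p : Eˣ →* Eˣ).range) = QuotientGroup.mk x
    rw [QuotientGroup.eq]
    refine ⟨πu ^ (n / (p : ℤ)) * Units.mk0 c hc0, ?_⟩
    apply Units.ext
    have hnat : ((n % (p : ℤ)).toNat : ℤ) = n % (p : ℤ) :=
      Int.toNat_of_nonneg (Int.emod_nonneg n hpz.ne')
    have hsplit : π ^ n = π ^ ((n % (p : ℤ)).toNat) * (π ^ (n / (p : ℤ))) ^ p := by
      rw [← zpow_natCast π (n % (p : ℤ)).toNat, hnat, ← zpow_natCast (π ^ (n / (p : ℤ))) p,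
        ← zpow_mul, ← zpow_add₀ hπ.1]
      congr 1
      have := Int.emod_add_mul_ediv n p
      linarith
    have hx : (x : E) = π ^ n * r * c ^ p := by
      rw [hc]
      field_simp
    simp only [powMonoidHom_apply, Units.val_mul, Units.val_pow_eq_pow_val, Units.val_mk0,
      Units.val_inv_eq_inv_val, mul_pow, πu, Units.val_zpow_eq_zpow_val]
    rw [hx, hsplit]
    have hπb : π ^ ((n % (p : ℤ)).toNat) ≠ 0 := pow_ne_zero _ hπ.1
    field_simp

end Fermat.Agent.F4.Loc
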