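import Fermat.Agent.F4.Loc.Setup
import Fermat.Agent.F4.Loc.NormIdx.Main

/-!
# F4 / Loc / NormIndex : the local norm index theorem in `Setup` form (seat NI: helper91)

`L/E` finite Galois, `w` a valuation of `L` invariant under `Gal(L/E)`, the restriction of `w`
to `E` local (discrete, finite residue field, Newton–Hensel).

* `norm_index_of_isLocalVal` : if `[L : E]` is prime, `[Eˣ : N Lˣ] = [L : E]`
  (also for `[L : E]` = residue characteristic);
* `norm_range_ne_top_of_isLocalVal` : in particular the norm group is proper;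
* `exists_norm_of_val_sub_one_le` : the norm group is open (any finite Galois `L/E`):
  for some `n`, every `a` with `w (a - 1) ≤ w π ^ n` is a norm.
-/

set_option autoImplicit false

open Polynomial Finset

namespace Fermat.Agent.F4.Loc

open Fermat.Agent.F4Loc

section build

variable {E L : Type*} [Field E] [Field L] [Algebra E L]
  {Γ₀ : Type*} [LinearOrderedCommGroupWithZero Γ₀]

lemma ni_pow_le_one {v : Valuation E Γ₀} {π : E} (hπ : v π < 1) (n : ℕ) : v π ^ n ≤ 1 :=
  pow_le_one' hπ.le n

lemma ni_zpow_le_one {v : Valuation E Γ₀} {π : E} (hπ : v π < 1) {n : ℤ}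
    (hn : 0 ≤ n) : v π ^ n ≤ 1 := by
  obtain ⟨k, rfl⟩ := Int.eq_ofNat_of_zero_le hn
  rw [zpow_natCast]
  exact ni_pow_le_one hπ k

lemma ni_one_lt_zpow {v : Valuation E Γ₀} {π : E} (hπ0 : π ≠ 0) (hπ : v π < 1) {n : ℤ}
    (hn : n < 0) : 1 < v π ^ n := by
  have hv0 : v π ≠ 0 := (v.ne_zero_iff).2 hπ0
  obtain ⟨k, hk⟩ := Int.exists_eq_neg_ofNat hn.le
  have hk0 : k ≠ 0 := by rintro rfl; simp at hk; omega
  rw [hk, zpow_neg, zpow_natCast]
  rw [one_lt_inv₀ (pow_pos (zero_lt_iff.2 hv0) k)]
  exact pow_lt_one₀ zero_le hπ hk0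

/-- in a discretely valued field, `v x < 1` implies `v x ≤ v π`. -/
lemma ni_le_unif_of_lt_one {v : Valuation E Γ₀} {π : E} (h : IsUnif v π) {x : E}
    (hx : v x < 1) : v x ≤ v π := by
  obtain ⟨hπ0, hπ, hgen⟩ := h
  by_cases hx0 : x = 0
  · rw [hx0, map_zero]; exact zero_le
  obtain ⟨n, hn⟩ := hgen x hx0
  have hn1 : 1 ≤ n := by
    by_contra hlt
    push Not at hlt
    have hn0 : n ≤ 0 := by omega
    rcases hn0.lt_or_eq with h | h
    · have := ni_one_lt_zpow hπ0 hπ h
      rw [← hn] at this
      exact absurd hx (not_lt.2 this.le)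
    · rw [h, zpow_zero] at hn
      rw [hn] at hx
      exact lt_irrefl _ hx
  obtain ⟨k, hk⟩ := Int.eq_ofNat_of_zero_le (by omega : 0 ≤ n - 1)
  have e : n = (k : ℤ) + 1 := by omega
  rw [hn, e, zpow_add_one₀ ((v.ne_zero_iff).2 hπ0), zpow_natCast]
  exact mul_le_of_le_one_left' (ni_pow_le_one hπ k)

variable (w : Valuation L Γ₀)

/-- The `NIBase` attached to an invariant valuation with discrete restriction and finite
residue field (no Hensel). -/
noncomputable def niBase (hinv : IsInvVal E w) (π : E) (hπ : IsUnif (resVal E w) π)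
    (hfin : HasFiniteResidue (resVal E w)) : NIBase E L where
  O := w.valuationSubring
  π := π
  hπO := by
    rw [Valuation.mem_valuationSubring_iff]
    exact hπ.2.1.le
  hπnu := by
    rw [Valuation.mem_valuationSubring_iff, map_inv₀, not_le]
    have h0 : 0 < w (algebraMap E L π) := hπ.val_pos
    rw [one_lt_inv₀ h0]
    exact hπ.2.1
  hO := by
    intro g x hx
    rw [Valuation.mem_valuationSubring_iff] at hx ⊢
    rw [hinv g x]
    exact hx
  rk1 := by
    intro a
    by_cases ha : a = 0
    · exact ⟨0, by rw [ha, mul_zero, map_zero]; exact zero_mem _⟩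
    obtain ⟨n, hn⟩ := hπ.2.2 a ha
    refine ⟨n.natAbs, ?_⟩
    rw [Valuation.mem_valuationSubring_iff]
    show resVal E w (π ^ n.natAbs * a) ≤ 1
    rw [map_mul, map_pow, hn, ← zpow_natCast, ← zpow_add₀ ((Valuation.ne_zero_iff _).2 hπ.1)]
    exact ni_zpow_le_one hπ.2.1 (by omega)
  disc := by
    refine ⟨{1}, fun a ha => ⟨1, Finset.mem_singleton_self 1, ?_⟩⟩
    obtain ⟨n, hn⟩ := hπ.2.2 a ha
    have hπn : π ^ n ≠ 0 := zpow_ne_zero _ hπ.1
    have hu : resVal E w (a / π ^ n) = 1 := by
      rw [map_div₀, map_zpow₀, hn]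
      exact div_self (zpow_ne_zero _ ((Valuation.ne_zero_iff _).2 hπ.1))
    refine ⟨n, a / π ^ n, ?_, ?_, ?_⟩
    · rw [one_mul, mul_div_cancel₀ _ hπn]
    · rw [Valuation.mem_valuationSubring_iff]
      exact hu.le
    · rw [Valuation.mem_valuationSubring_iff, map_inv₀]
      have : w (algebraMap E L (a / π ^ n)) = 1 := hu
      rw [this, inv_one]
  fin := by
    obtain ⟨R, hR⟩ := hfin
    refine ⟨R, fun a ha => ?_⟩
    rw [Valuation.mem_valuationSubring_iff] at ha
    obtain ⟨r, hr, hlt⟩ := hR a ha
    refine ⟨r, hr, ?_⟩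
    rw [Valuation.mem_valuationSubring_iff]
    show resVal E w ((a - r) / π) ≤ 1
    rw [map_div₀]
    exact div_le_one_of_le₀ (ni_le_unif_of_lt_one hπ hlt) zero_le

/-- The `NISetup` attached to an invariant valuation with local restriction. -/
noncomputable def niSetup (hinv : IsInvVal E w) (π : E) (hπ : IsUnif (resVal E w) π)
    (hfin : HasFiniteResidue (resVal E w)) (hhens : NewtonHensel (resVal E w)) :
    NISetup E L where
  toNIBase := niBase w hinv π hπ hfin
  hens := by
    intro d c hc hc1 hc2
    have hπ0 : π ≠ 0 := hπ.1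
    have hvπ : resVal E w π < 1 := hπ.2.1
    have hc' : ∀ i, resVal E w (c i) ≤ 1 := fun i =>
      (Valuation.mem_valuationSubring_iff _ _).mp (hc i)
    have hc2' : ∀ i, 2 ≤ i → resVal E w (c i) ≤ resVal E w π := by
      intro i hi
      have := (Valuation.mem_valuationSubring_iff _ _).mp (hc2 i hi)
      have h2 : resVal E w (c i / π) ≤ 1 := this
      rw [map_div₀] at h2
      exact (div_le_one₀ (zero_lt_iff.2 ((Valuation.ne_zero_iff _).2 hπ0))).mp h2
    set f : E[X] := ∑ i ∈ range (d + 2), C (c i) * X ^ i with hf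
    have hfeval : ∀ x : E, f.eval x = ∑ i ∈ range (d + 2), c i * x ^ i := by
      intro x
      rw [hf, eval_finsetSum]
      exact Finset.sum_congr rfl fun i _ => by rw [eval_mul, eval_C, eval_pow, eval_X]
    have hfderiv : ∀ x : E, f.derivative.eval x =
        ∑ i ∈ range (d + 2), c i * (i : E) * x ^ (i - 1) := by
      intro x
      rw [hf, derivative_sum, eval_finsetSum]
      refine Finset.sum_congr rfl fun i _ => ?_
      rw [derivative_C_mul_X_pow, eval_mul, eval_C, eval_pow, eval_X]
    have hfcoeff : ∀ i, resVal E w (f.coeff i) ≤ 1 := by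
      intro i
      rw [hf, finsetSum_coeff]
      refine Valuation.map_sum_le _ fun j _ => ?_
      rw [coeff_C_mul_X_pow]
      split_ifs
      · exact hc' j
      · rw [map_zero]; exact zero_le
    set a : E := -c 0 with ha
    have hva : resVal E w a ≤ 1 := by rw [ha, Valuation.map_neg]; exact hc' 0
    have hnat : ∀ n : ℕ, resVal E w (n : E) ≤ 1 := by
      intro n
      induction n with
      | zero => simp
      | succ n ih =>
        rw [Nat.cast_succ]
        exact le_trans (Valuation.map_add _ _ _) (max_le ih (by rw [map_one]))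
    have h0 : resVal E w (f.eval a) < 1 := by
      rw [hfeval, Finset.sum_range_succ', Finset.sum_range_succ']
      have e : c (0 + 1) * a ^ (0 + 1) + c 0 * a ^ 0 = 0 := by
        rw [zero_add, hc1, ha]; ring
      rw [add_assoc, e, add_zero]
      refine lt_of_le_of_lt (Valuation.map_sum_le _ fun i _ => ?_) hvπ
      rw [map_mul, map_pow]
      exact le_trans (mul_le_of_le_one_right' (pow_le_one' hva _)) (hc2' _ (by omega))
    have h1 : resVal E w (f.derivative.eval a) = 1 := by
      rw [hfderiv, Finset.sum_range_succ', Finset.sum_range_succ']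
      have e : c (0 + 1) * ((0 + 1 : ℕ) : E) * a ^ (0 + 1 - 1) + c 0 * ((0 : ℕ) : E) * a ^ (0 - 1)
          = 1 := by
        rw [zero_add, hc1]; simp
      rw [add_assoc, e, add_comm]
      refine Valuation.map_one_add_of_lt _ (lt_of_le_of_lt (Valuation.map_sum_le _ fun i _ => ?_)
        hvπ)
      rw [map_mul, map_mul, map_pow]
      refine le_trans (mul_le_of_le_one_right' (pow_le_one' hva _)) ?_
      exact le_trans (mul_le_of_le_one_right' (hnat _)) (hc2' _ (by omega))
    have hlt : resVal E w (f.eval a) < resVal E w (f.derivative.eval a) ^ 2 := by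
      rw [h1, one_pow]; exact h0
    obtain ⟨b, hb0, hb⟩ := hhens f hfcoeff a hva hlt
    refine ⟨b, ?_, ?_⟩
    · show algebraMap E L b ∈ w.valuationSubring
      rw [Valuation.mem_valuationSubring_iff]
      show resVal E w b ≤ 1
      rw [h1, mul_one] at hb
      have e : b = (b - a) + a := by ring
      rw [e]
      exact le_trans (Valuation.map_add _ _ _) (max_le (le_trans hb h0.le) hva)
    · rw [← hfeval]
      exact hb0

end build

section main

variable {Γ₀ : Type*} [LinearOrderedCommGroupWithZero Γ₀]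

/-- **Local norm index theorem**: `L/E` Galois of prime degree, `w` an invariant valuation of
`L` whose restriction to `E` is local.  Then `[Eˣ : N Lˣ] = [L : E]`. -/
theorem norm_index_of_isLocalVal {E L : Type} [Field E] [Field L] [Algebra E L]
    [FiniteDimensional E L] [IsGalois E L] (w : Valuation L Γ₀) (hinv : IsInvVal E w)
    (hloc : IsLocalVal (resVal E w)) (hp : (Module.finrank E L).Prime) :
    (Units.map (Algebra.norm E : L →* E)).range.index = Module.finrank E L := by
  obtain ⟨π, hπ⟩ := hloc.disc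
  exact (niSetup w hinv π hπ hloc.finRes hloc.hensel).norm_index hp

/-- The norm group of a Galois extension of prime degree of a local field is proper. -/
theorem norm_range_ne_top_of_isLocalVal {E L : Type} [Field E] [Field L] [Algebra E L]
    [FiniteDimensional E L] [IsGalois E L] (w : Valuation L Γ₀) (hinv : IsInvVal E w)
    (hloc : IsLocalVal (resVal E w)) (hp : (Module.finrank E L).Prime) :
    (Units.map (Algebra.norm E : L →* E)).range ≠ ⊤ := by
  intro h
  have := norm_index_of_isLocalVal w hinv hloc hp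
  rw [h, Subgroup.index_top] at this
  exact hp.one_lt.ne this

/-- There is a non-norm. -/
theorem exists_not_norm_of_isLocalVal {E L : Type} [Field E] [Field L] [Algebra E L]
    [FiniteDimensional E L] [IsGalois E L] (w : Valuation L Γ₀) (hinv : IsInvVal E w)
    (hloc : IsLocalVal (resVal E w)) (hp : (Module.finrank E L).Prime) :
    ∃ a : E, a ≠ 0 ∧ ∀ y : L, Algebra.norm E y ≠ a := by
  have h := norm_range_ne_top_of_isLocalVal w hinv hloc hp
  rw [Ne, Subgroup.eq_top_iff', not_forall] at h
  obtain ⟨a, ha⟩ := h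
  refine ⟨a, a.ne_zero, fun y hy => ha ?_⟩
  have hy0 : y ≠ 0 := by
    rintro rfl
    rw [Algebra.norm_zero] at hy
    exact a.ne_zero hy.symm
  exact ⟨Units.mk0 y hy0, Units.ext hy⟩

/-- **Openness of the norm group**: `L/E` finite Galois, `w` invariant with local restriction,
`π` a uniformizer.  For some `n`, every `a ∈ E` with `w (a - 1) ≤ w π ^ n` is a norm. -/
theorem exists_norm_of_val_sub_one_le {E L : Type*} [Field E] [Field L] [Algebra E L]
    [FiniteDimensional E L] [IsGalois E L] (w : Valuation L Γ₀) (hinv : IsInvVal E w)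
    (hloc : IsLocalVal (resVal E w)) (π : E) (hπ : IsUnif (resVal E w) π) :
    ∃ n : ℕ, ∀ a : E, resVal E w (a - 1) ≤ resVal E w π ^ n →
      ∃ y : L, Algebra.norm E y = a := by
  obtain ⟨n, hn⟩ :=
    (niSetup w hinv π hπ hloc.finRes hloc.hensel).exists_norm_of_close_to_one
  refine ⟨n, fun a ha => hn a ?_⟩
  rw [NIBase.mem_I, NIBase.mem_OK]
  show algebraMap E L ((a - 1) / π ^ n) ∈ w.valuationSubring
  rw [Valuation.mem_valuationSubring_iff]
  show resVal E w ((a - 1) / π ^ n) ≤ 1
  rw [map_div₀, map_pow]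
  exact div_le_one_of_le₀ ha zero_le

end main

end Fermat.Agent.F4.Loc
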