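import Fermat.Agent.F4.Loc.FT

/-!
# F4 / Loc / ABS : `H²(Γ/H, (Ω^H)ˣ)[p]` has order at most `p`  (seat ABS, helper89)

`Γ` a local Galois group acting on `Ω = PadicAlgCl q`, `H ⊴ Γ` open with `Γ/H` of order
`n = p^a`.  Main result `abs_dependent_of_pGroup`: given the bound ORD (at most `n` classes of
`H`-inflated 2-cocycles modulo smooth coboundaries), any two `H`-inflated 2-cocycles whose `p`-th
powers are smooth coboundaries are dependent modulo smooth coboundaries.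

Route: `(χ, σ)` unramified of degree `n` (FTC), `π` a uniformizer of `E = Ω^Γ`,
`c_π = cycCocycle χ π`.
1. `res_H c_π` is the cyclic cocycle of the induced character `χ' : H → ℤ/k`, and `π` is a norm
   for it (`absorb` + independence of the norm of the generator), so `res_H c_π = ∂ t`;
2. `infl_res_exact`: `c' = c_π * ∂ s` is `H`-inflated, `s` smooth;
3. `c'^m` is a smooth coboundary iff `n ∣ m` (`val_eq`, F3);
4. by ORD and counting, every `H`-inflated cocycle is `~ c'^j`;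
5. arithmetic.
-/

set_option autoImplicit false
set_option linter.unusedSectionVars false

open scoped NNReal
open groupCohomology

namespace Fermat.Agent.F4.Loc

/-! ### generalities on cochains -/

section Gen

variable {Γ M : Type*} [Group Γ] [CommGroup M] [MulDistribMulAction Γ M]

theorem abs_mulD1_one : mulD1 (1 : Γ → M) = 1 := by
  funext ⟨g, h⟩
  simp [mulD1_apply]

theorem abs_mulD1_inv (s : Γ → M) : mulD1 s⁻¹ = (mulD1 s)⁻¹ := by
  have h := mulD1_mul s s⁻¹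
  rw [mul_inv_cancel, abs_mulD1_one] at h
  exact eq_inv_of_mul_eq_one_right h.symm

theorem abs_mulD1_pow (s : Γ → M) (j : ℕ) : mulD1 (s ^ j) = mulD1 s ^ j := by
  induction j with
  | zero => simp [abs_mulD1_one]
  | succ j ih => rw [pow_succ, pow_succ, mulD1_mul, ih]

theorem abs_isMulCocycle₂_one : IsMulCocycle₂ (1 : Γ × Γ → M) := by
  intro g h j
  simp

theorem abs_isMulCocycle₂_pow {c : Γ × Γ → M} (hc : IsMulCocycle₂ c) (j : ℕ) :
    IsMulCocycle₂ (c ^ j) := by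
  induction j with
  | zero => rw [pow_zero]; exact abs_isMulCocycle₂_one
  | succ j ih => rw [pow_succ]; exact isMulCocycle₂_mul ih hc

theorem abs_isInfl2_one (H : Subgroup Γ) : IsInfl2 H (1 : Γ × Γ → M) :=
  ⟨fun _ _ _ _ _ _ => rfl, fun _ _ _ _ => by simp⟩

theorem abs_isInfl2_pow {H : Subgroup Γ} {c : Γ × Γ → M} (hc : IsInfl2 H c) (j : ℕ) :
    IsInfl2 H (c ^ j) := by
  induction j with
  | zero => rw [pow_zero]; exact abs_isInfl2_one H
  | succ j ih => rw [pow_succ]; exact ih.mul hc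

theorem abs_cycCocycle_pow {n : ℕ} (χ : Γ →* Multiplicative (ZMod n)) (a : M) (j : ℕ) :
    cycCocycle χ (a ^ j) = cycCocycle χ a ^ j := by
  funext ⟨g, h⟩
  simp only [cycCocycle, Pi.pow_apply]
  rw [← pow_mul, ← pow_mul, mul_comm]

theorem abs_cycNorm_of_fixed (n : ℕ) (σ : Γ) (a : M) (ha : ∀ g : Γ, g • a = a) :
    cycNorm n σ a = a ^ n := by
  unfold cycNorm
  rw [Finset.prod_congr rfl (fun i _ => ha (σ ^ i)), Finset.prod_const, Finset.card_range]

end Gen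

/-! ### smooth coboundaries form a group -/

section Smooth

variable {q : ℕ} [Fact q.Prime]
variable {Γ : Type} [Group Γ] [MulSemiringAction Γ (PadicAlgCl q)]
  [MulDistribMulAction Γ (PadicAlgCl q)ˣ]

theorem abs_smoothC1_one : SmoothC1 q (1 : Γ → (PadicAlgCl q)ˣ) :=
  ⟨⊤, inferInstance, isOpenSub_top, fun _ _ _ => rfl⟩

theorem abs_smoothC1_mul {s s' : Γ → (PadicAlgCl q)ˣ} (hs : SmoothC1 q s) (hs' : SmoothC1 q s') :
    SmoothC1 q (s * s') := by
  obtain ⟨W, hWn, hWo, hW⟩ := hs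
  obtain ⟨W', hWn', hWo', hW'⟩ := hs'
  refine ⟨W ⊓ W', Subgroup.normal_inf_normal W W', hWo.inf hWo', fun γ w hw => ?_⟩
  simp only [Pi.mul_apply]
  rw [hW γ w hw.1, hW' γ w hw.2]

theorem abs_smoothC1_inv {s : Γ → (PadicAlgCl q)ˣ} (hs : SmoothC1 q s) : SmoothC1 q s⁻¹ := by
  obtain ⟨W, hWn, hWo, hW⟩ := hs
  refine ⟨W, hWn, hWo, fun γ w hw => ?_⟩
  simp only [Pi.inv_apply]
  rw [hW γ w hw]

theorem abs_smoothC1_pow {s : Γ → (PadicAlgCl q)ˣ} (hs : SmoothC1 q s) (j : ℕ) :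
    SmoothC1 q (s ^ j) := by
  obtain ⟨W, hWn, hWo, hW⟩ := hs
  refine ⟨W, hWn, hWo, fun γ w hw => ?_⟩
  simp only [Pi.pow_apply]
  rw [hW γ w hw]

theorem abs_isSmCob2_one : IsSmCob2 (1 : Γ × Γ → (PadicAlgCl q)ˣ) :=
  ⟨1, abs_smoothC1_one, abs_mulD1_one.symm⟩

theorem abs_isSmCob2_mul {c c' : Γ × Γ → (PadicAlgCl q)ˣ} (hc : IsSmCob2 c) (hc' : IsSmCob2 c') :
    IsSmCob2 (c * c') := by
  obtain ⟨s, hs, rfl⟩ := hc
  obtain ⟨s', hs', rfl⟩ := hc'
  exact ⟨s * s', abs_smoothC1_mul hs hs', (mulD1_mul s s').symm⟩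

theorem abs_isSmCob2_inv {c : Γ × Γ → (PadicAlgCl q)ˣ} (hc : IsSmCob2 c) : IsSmCob2 c⁻¹ := by
  obtain ⟨s, hs, rfl⟩ := hc
  exact ⟨s⁻¹, abs_smoothC1_inv hs, (abs_mulD1_inv s).symm⟩

theorem abs_isSmCob2_pow {c : Γ × Γ → (PadicAlgCl q)ˣ} (hc : IsSmCob2 c) (j : ℕ) :
    IsSmCob2 (c ^ j) := by
  obtain ⟨s, hs, rfl⟩ := hc
  exact ⟨s ^ j, abs_smoothC1_pow hs j, (abs_mulD1_pow s j).symm⟩

theorem abs_isSmCob2_div {c c' : Γ × Γ → (PadicAlgCl q)ˣ} (hc : IsSmCob2 c) (hc' : IsSmCob2 c') :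
    IsSmCob2 (c / c') := by
  rw [div_eq_mul_inv]
  exact abs_isSmCob2_mul hc (abs_isSmCob2_inv hc')

end Smooth

/-! ### cyclic cocycles and norms (the facts of seat F3, in the form used here) -/

section F3

variable {q : ℕ} [Fact q.Prime]
variable {Γ : Type} [Group Γ] [MulSemiringAction Γ (PadicAlgCl q)]
  [MulDistribMulAction Γ (PadicAlgCl q)ˣ]

/-- If the cyclic cocycle of `a` is a smooth coboundary, `a` is a norm. -/
theorem abs_norm_of_isSmCob2 (hΓ : IsLocalGal q Γ) {n : ℕ} [NeZero n]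
    (χ : Γ →* Multiplicative (ZMod n)) (hker : IsOpenSub q χ.ker)
    (σ : Γ) (hσ : χ σ = Multiplicative.ofAdd 1)
    (a : (PadicAlgCl q)ˣ) (ha : IsFixedBy (⊤ : Subgroup Γ) a)
    (h : IsSmCob2 (cycCocycle χ a)) :
    ∃ m : (PadicAlgCl q)ˣ, IsFixedBy χ.ker m ∧ a = cycNorm n σ m := by
  obtain ⟨s, ⟨W, hWn, hWo, hW⟩, hcs⟩ := h
  have := hWn
  have : (W ⊓ χ.ker).Normal := Subgroup.normal_inf_normal W χ.ker
  have ha' : ∀ g : Γ, g • a = a := fun g => ha g (Subgroup.mem_top g)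
  have h1 : H1Triv χ.ker (W ⊓ χ.ker) (PadicAlgCl q)ˣ :=
    h1Triv_of_open hΓ χ.ker (W ⊓ χ.ker) (hWo.inf hker) inf_le_right
  obtain ⟨s', hs', hcs'⟩ := infl_injective χ.ker (W ⊓ χ.ker) inf_le_right h1 (cycCocycle χ a)
    (cycCocycle_isInfl2 (χ := χ) a ha') s (fun g v hv => hW g v hv.1) hcs
  exact norm_of_cycCocycle_eq_mulD1 (χ := χ) σ hσ a ha' s' hs' hcs'

/-- The cyclic cocycle of a norm is a smooth coboundary. -/
theorem abs_isSmCob2_of_norm {n : ℕ} [NeZero n]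
    (χ : Γ →* Multiplicative (ZMod n)) (hker : IsOpenSub q χ.ker)
    (σ : Γ) (hσ : χ σ = Multiplicative.ofAdd 1)
    (m : (PadicAlgCl q)ˣ) (hm : IsFixedBy χ.ker m) :
    IsSmCob2 (cycCocycle χ (cycNorm n σ m)) := by
  obtain ⟨s, hs, h⟩ := cycCocycle_eq_mulD1_of_norm (χ := χ) σ hσ m hm
  exact ⟨s, ⟨χ.ker, inferInstance, hker, hs.1⟩, h⟩

/-- The valuation of a norm. -/
theorem abs_val_cycNorm (hΓ : IsLocalGal q Γ) (n : ℕ) (σ : Γ) (m : (PadicAlgCl q)ˣ) :
    padicVal q ((cycNorm n σ m : (PadicAlgCl q)ˣ) : PadicAlgCl q) =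
      padicVal q (m : PadicAlgCl q) ^ n := by
  unfold cycNorm
  rw [Units.coe_prod, map_prod,
    Finset.prod_congr rfl (fun i _ => by rw [hΓ.1, hΓ.val_smul]), Finset.prod_const,
    Finset.card_range]

theorem abs_isFixedBy_coe (hΓ : IsLocalGal q Γ) {H : Subgroup Γ} {y : (PadicAlgCl q)ˣ}
    (hy : IsFixedBy H y) : IsFixedBy H (y : PadicAlgCl q) := by
  intro h hh
  rw [← hΓ.1, hy h hh]

theorem abs_isFixedBy_mk0 (hΓ : IsLocalGal q Γ) {H : Subgroup Γ} {π : PadicAlgCl q} (hπ0 : π ≠ 0)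
    (hπ : IsFixedBy H π) : IsFixedBy H (Units.mk0 π hπ0) := by
  intro h hh
  apply Units.ext
  rw [hΓ.1]
  exact hπ h hh

/-- If a power `π ^ j` of a uniformizer of `E` is a norm from the unramified extension of degree
`n`, then `n ∣ j`. -/
theorem abs_dvd_of_unif_pow_norm (hΓ : IsLocalGal q Γ) {n : ℕ}
    (χ : Γ →* Multiplicative (ZMod n)) (σ : Γ) (hχ : IsUnramChar q χ σ)
    (π : PadicAlgCl q) (hπ0 : π ≠ 0) (hπ1 : padicVal q π < 1)
    (hπ : ∀ x : PadicAlgCl q, x ≠ 0 → IsFixedBy (⊤ : Subgroup Γ) x →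
        ∃ k : ℤ, padicVal q x = padicVal q π ^ k)
    (j : ℕ) (m : (PadicAlgCl q)ˣ) (hm : IsFixedBy χ.ker m)
    (h : (Units.mk0 π hπ0) ^ j = cycNorm n σ m) : n ∣ j := by
  obtain ⟨y, hy, hval⟩ := hχ.val_eq m hm
  obtain ⟨k, hk⟩ := hπ y (Units.ne_zero y) (abs_isFixedBy_coe hΓ hy)
  have h1 : padicVal q π ^ j = padicVal q π ^ (k * n) := by
    have h2 := abs_val_cycNorm hΓ n σ m
    rw [← h, hval, hk] at h2
    rw [Units.val_pow_eq_pow_val, Units.val_mk0, map_pow] at h2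
    rw [h2, zpow_mul, zpow_natCast]
  have h0 : 0 < padicVal q π := zero_lt_iff.2 ((padicVal q).ne_zero_iff.2 hπ0)
  have h3 : (j : ℤ) = k * n := by
    have h4 : padicVal q π ^ (j : ℤ) = padicVal q π ^ (k * n) := by
      rw [zpow_natCast]; exact h1
    exact zpow_right_injective₀ h0 (ne_of_lt hπ1) h4
  exact Int.natCast_dvd_natCast.1 ⟨k, by rw [h3, mul_comm]⟩

end F3

/-! ### the induced character on a subgroup -/

section Res

variable {Γ M : Type*} [Group Γ] [CommGroup M] [MulDistribMulAction Γ M]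

/-- The norm does not depend on the generator. -/
theorem abs_cycNorm_eq_of_orderOf {k : ℕ} [NeZero k] {χ : Γ →* Multiplicative (ZMod k)}
    {σ τ : Γ} (hσ : χ σ = Multiplicative.ofAdd 1) (hτ : orderOf (χ τ) = k)
    {m : M} (hm : ∀ h ∈ χ.ker, h • m = m) : cycNorm k τ m = cycNorm k σ m := by
  classical
  unfold cycNorm
  have h1 : ∀ i ∈ Finset.range k, τ ^ i • m = σ ^ cycExp χ (τ ^ i) • m :=
    fun i _ => cyc_smul_eq hσ hm (τ ^ i)
  rw [Finset.prod_congr rfl h1]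
  have hinj : Set.InjOn (fun i => cycExp χ (τ ^ i)) (Finset.range k : Set ℕ) := by
    intro i hi j hj hij
    have h2 : χ τ ^ i = χ τ ^ j := by
      have h3 : Multiplicative.toAdd (χ (τ ^ i)) = Multiplicative.toAdd (χ (τ ^ j)) :=
        ZMod.val_injective k hij
      rw [← map_pow, ← map_pow]
      exact Multiplicative.toAdd.injective h3
    have h3 := pow_eq_pow_iff_modEq.1 h2
    rw [hτ] at h3
    exact Nat.ModEq.eq_of_lt_of_lt h3 (Finset.mem_range.1 hi) (Finset.mem_range.1 hj)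
  have himg : (Finset.range k).image (fun i => cycExp χ (τ ^ i)) = Finset.range k := by
    apply Finset.eq_of_subset_of_card_le
    · intro x hx
      obtain ⟨i, _, rfl⟩ := Finset.mem_image.1 hx
      exact Finset.mem_range.2 (cycExp_lt χ _)
    · rw [Finset.card_image_of_injOn hinj]
  rw [← Finset.prod_image (f := fun j => σ ^ j • m) hinj, himg]

/-- An element of order `k` of `ℤ/k` is a generator. -/
theorem abs_exists_zpow_eq {k : ℕ} [NeZero k] (x : Multiplicative (ZMod k)) (hx : orderOf x = k)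
    (y : Multiplicative (ZMod k)) : ∃ v : ℤ, x ^ v = y := by
  have h1 : Subgroup.zpowers x = ⊤ := by
    apply Subgroup.eq_top_of_card_eq
    rw [Nat.card_zpowers, hx, Nat.card_eq_fintype_card, Fintype.card_multiplicative, ZMod.card]
  have h2 : y ∈ Subgroup.zpowers x := by rw [h1]; exact Subgroup.mem_top y
  exact Subgroup.mem_zpowers_iff.1 h2

/-- The character induced on a subgroup `H` whose image under `χ` has exponent `k`:
division by `n / k`. -/
theorem abs_exists_resChar {n : ℕ} [NeZero n] (χ : Γ →* Multiplicative (ZMod n))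
    (H : Subgroup Γ) (k : ℕ) [NeZero k] (hkn : k ∣ n) (hk : ∀ h ∈ H, χ h ^ k = 1) :
    ∃ χ' : ↥H →* Multiplicative (ZMod k),
      (∀ h h' : H, carry (Multiplicative.toAdd (χ' h)) (Multiplicative.toAdd (χ' h')) =
        carry (Multiplicative.toAdd (χ (h : Γ))) (Multiplicative.toAdd (χ (h' : Γ)))) ∧
      (∀ h : H, χ' h = 1 ↔ χ (h : Γ) = 1) := by
  have hk0 : 0 < k := Nat.pos_of_ne_zero (NeZero.ne k)
  obtain ⟨d, rfl⟩ := hkn
  have hd0 : 0 < d := by
    rcases Nat.eq_zero_or_pos d with h | h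
    · exact absurd (by rw [h, mul_zero]) (NeZero.ne (k * d))
    · exact h
  -- the exponent
  have hdvd : ∀ h : H, d ∣ (Multiplicative.toAdd (χ (h : Γ))).val := by
    intro h
    have h1 := hk h h.2
    have h2 : ((k : ℕ) : ZMod (k * d)) * Multiplicative.toAdd (χ (h : Γ)) = 0 := by
      have h3 := congrArg Multiplicative.toAdd h1
      rw [toAdd_pow, toAdd_one, nsmul_eq_mul] at h3
      exact h3
    have h4 : ((k * (Multiplicative.toAdd (χ (h : Γ))).val : ℕ) : ZMod (k * d)) = 0 := by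
      rw [Nat.cast_mul, ZMod.natCast_zmod_val]
      exact h2
    have h5 : k * d ∣ k * (Multiplicative.toAdd (χ (h : Γ))).val :=
      (ZMod.natCast_eq_zero_iff _ _).1 h4
    exact Nat.dvd_of_mul_dvd_mul_left hk0 h5
  set e : H → ℕ := fun h => (Multiplicative.toAdd (χ (h : Γ))).val / d with he
  have hde : ∀ h : H, d * e h = (Multiplicative.toAdd (χ (h : Γ))).val :=
    fun h => Nat.mul_div_cancel' (hdvd h)
  have hek : ∀ h : H, e h < k := by
    intro h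
    have h1 : (Multiplicative.toAdd (χ (h : Γ))).val < k * d := ZMod.val_lt _
    rw [← hde h, mul_comm k d] at h1
    exact Nat.lt_of_mul_lt_mul_left h1
  have hcarry : ∀ h h' : H, (e h + e h') / k =
      carry (Multiplicative.toAdd (χ (h : Γ))) (Multiplicative.toAdd (χ (h' : Γ))) := by
    intro h h'
    unfold carry
    rw [← hde h, ← hde h', ← mul_add, mul_comm k d, Nat.mul_div_mul_left _ _ hd0]
  have hmul : ∀ h h' : H, e (h * h') + k * ((e h + e h') / k) = e h + e h' := by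
    intro h h'
    have h1 := carry_val_add (Multiplicative.toAdd (χ (h : Γ))) (Multiplicative.toAdd (χ (h' : Γ)))
    rw [← toAdd_mul, ← map_mul, ← hcarry h h', ← hde h, ← hde h'] at h1
    have h2 : (Multiplicative.toAdd (χ ((h : Γ) * (h' : Γ)))).val = d * e (h * h') := by
      rw [hde]; rfl
    rw [h2] at h1
    have h3 : d * (e (h * h') + k * ((e h + e h') / k)) = d * (e h + e h') := by
      rw [mul_add, mul_add, ← h1]; ring
    exact Nat.eq_of_mul_eq_mul_left hd0 h3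
  refine ⟨MonoidHom.mk' (fun h => Multiplicative.ofAdd ((e h : ℕ) : ZMod k)) ?_, ?_, ?_⟩
  · intro h h'
    rw [← ofAdd_add, ← Nat.cast_add, ← hmul h h', Nat.cast_add, Nat.cast_mul, ZMod.natCast_self,
      zero_mul, add_zero]
  · intro h h'
    show carry ((e h : ℕ) : ZMod k) ((e h' : ℕ) : ZMod k) = _
    unfold carry
    rw [ZMod.val_natCast_of_lt (hek h), ZMod.val_natCast_of_lt (hek h')]
    exact hcarry h h'
  · intro h
    show Multiplicative.ofAdd ((e h : ℕ) : ZMod k) = 1 ↔ _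
    rw [← ofAdd_zero, Multiplicative.ofAdd.apply_eq_iff_eq]
    constructor
    · intro h1
      have h2 : e h = 0 := by
        have := congrArg ZMod.val h1
        rwa [ZMod.val_natCast_of_lt (hek h), ZMod.val_zero] at this
      have h3 := hde h
      rw [h2, mul_zero] at h3
      have h4 : Multiplicative.toAdd (χ (h : Γ)) = 0 := (ZMod.val_eq_zero _).1 h3.symm
      exact Multiplicative.toAdd.injective h4
    · intro h1
      have h2 : e h = 0 := by
        simp only [he, h1, toAdd_one, ZMod.val_zero, Nat.zero_div]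
      rw [h2, Nat.cast_zero]

end Res

/-! ### steps 1 and 2: an `H`-inflated representative of the unramified cyclic cocycle -/

section Step12

variable {q : ℕ} [Fact q.Prime]
variable {Γ : Type} [Group Γ] [MulSemiringAction Γ (PadicAlgCl q)]
  [MulDistribMulAction Γ (PadicAlgCl q)ˣ]

/-- The cyclic cocycle of `a ∈ E^×` for an unramified character of degree `n` is cohomologous
(through a smooth cochain) to an `H`-inflated cocycle, for `H ⊴ Γ` open of index `n`. -/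
theorem abs_exists_infl (hΓ : IsLocalGal q Γ) {n : ℕ} [NeZero n]
    (χ : Γ →* Multiplicative (ZMod n)) (σ : Γ) (hχ : IsUnramChar q χ σ)
    (H : Subgroup Γ) [H.Normal] (hH : IsOpenSub q H) (hidx : H.index = n)
    (a : (PadicAlgCl q)ˣ) (ha : IsFixedBy (⊤ : Subgroup Γ) a) :
    ∃ s : Γ → (PadicAlgCl q)ˣ, SmoothC1 q s ∧ IsInfl2 H (cycCocycle χ a * mulD1 s) := by
  obtain ⟨τ, k, hτH, hk0, hgen, hord, habs⟩ := hχ.absorb H inferInstance hH hidx
  obtain ⟨m, hm, hma⟩ := habs a ha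
  have : NeZero k := ⟨hk0.ne'⟩
  have hkn : k ∣ n := by
    rw [← hord]
    apply orderOf_dvd_of_pow_eq_one
    apply Multiplicative.toAdd.injective
    rw [toAdd_pow, toAdd_one, nsmul_eq_mul, ZMod.natCast_self, zero_mul]
  have hk : ∀ h ∈ H, χ h ^ k = 1 := by
    intro h hh
    obtain ⟨i, hi⟩ := hgen h hh
    rw [hi, ← pow_mul, mul_comm, pow_mul, ← hord, pow_orderOf_eq_one, one_pow]
  obtain ⟨χ', hcar, hker'⟩ := abs_exists_resChar χ H k hkn hk
  set τH : H := ⟨τ, hτH⟩ with hτHdef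
  have hordH : orderOf (χ' τH) = k := by
    refine Eq.trans (orderOf_eq_orderOf_iff.2 fun j => ?_) hord
    rw [← map_pow, ← map_pow, hker' (τH ^ j)]
    rfl
  obtain ⟨v, hv⟩ := abs_exists_zpow_eq (χ' τH) hordH (Multiplicative.ofAdd 1)
  have hσH : χ' (τH ^ v) = Multiplicative.ofAdd 1 := by rw [map_zpow]; exact hv
  have hmH : ∀ h ∈ χ'.ker, h • m = m := by
    intro h hh
    have h1 : χ (h : Γ) = 1 := (hker' h).1 (MonoidHom.mem_ker.1 hh)
    exact hm (h : Γ) ⟨h.2, MonoidHom.mem_ker.2 h1⟩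
  have hnorm : cycNorm k (τH ^ v) m = a := by
    rw [← abs_cycNorm_eq_of_orderOf hσH hordH hmH, ← hma]
    unfold cycNorm
    exact Finset.prod_congr rfl fun i _ => rfl
  obtain ⟨t, ht, hct⟩ := cycCocycle_eq_mulD1_of_norm (χ := χ') (τH ^ v) hσH m hmH
  rw [hnorm] at hct
  have hVn : (H ⊓ χ.ker).Normal := Subgroup.normal_inf_normal H χ.ker
  have hVo : IsOpenSub q (H ⊓ χ.ker) := hH.inf hχ.ker_open
  have ha' : ∀ g : Γ, g • a = a := fun g => ha g (Subgroup.mem_top g)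
  have h1 : H1Triv H (H ⊓ χ.ker) (PadicAlgCl q)ˣ :=
    h1Triv_of_open hΓ H (H ⊓ χ.ker) hVo inf_le_left
  obtain ⟨s, hs, hinf⟩ := infl_res_exact H (H ⊓ χ.ker) inf_le_left h1 (cycCocycle χ a)
    (cycCocycle_isMulCocycle₂ (χ := χ) a ha')
    (fun g g' v v' hv hv' => (cycCocycle_isInfl2 (χ := χ) a ha').1 g g' v v' hv.2 hv'.2) t
    (fun h v hv => ht.1 h v (by
      rw [MonoidHom.mem_ker, hker' v]
      exact MonoidHom.mem_ker.1 hv.2))
    (fun h h' => by
      have h2 := congrFun hct (h, h')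
      rw [mulD1_apply, cycCocycle_apply, hcar] at h2
      exact h2)
  exact ⟨s, ⟨H ⊓ χ.ker, hVn, hVo, hs⟩, hinf⟩

end Step12

/-! ### the main theorem -/

section Main

theorem abs_arith {p : ℕ} (hp : p.Prime) (a j₁ j₂ : ℕ) (h₁ : p ^ a ∣ p * j₁)
    (h₂ : p ^ a ∣ p * j₂) :
    ∃ x y : ℕ, (¬ p ∣ x ∨ ¬ p ∣ y) ∧ p ^ a ∣ j₁ * x + j₂ * y := by
  cases a with
  | zero => exact ⟨1, 0, Or.inl (Nat.Prime.not_dvd_one hp), by simp⟩
  | succ a' =>
    have e₁ : p ^ a' ∣ j₁ := by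
      rw [pow_succ'] at h₁
      exact Nat.dvd_of_mul_dvd_mul_left hp.pos h₁
    have e₂ : p ^ a' ∣ j₂ := by
      rw [pow_succ'] at h₂
      exact Nat.dvd_of_mul_dvd_mul_left hp.pos h₂
    obtain ⟨u₁, rfl⟩ := e₁
    obtain ⟨u₂, rfl⟩ := e₂
    by_cases hu : p ∣ u₁
    · obtain ⟨w, rfl⟩ := hu
      exact ⟨1, 0, Or.inl (Nat.Prime.not_dvd_one hp), ⟨w, by ring⟩⟩
    · refine ⟨u₂, (p - 1) * u₁, Or.inr ?_, ?_⟩
      · intro h
        rcases (Nat.Prime.dvd_mul hp).1 h with h | h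
        · have h3 := hp.two_le
          have h4 := Nat.le_of_dvd (by omega) h
          omega
        · exact hu h
      · refine ⟨u₁ * u₂, ?_⟩
        have h3 : p - 1 + 1 = p := Nat.sub_add_cancel hp.one_le
        calc p ^ a' * u₁ * u₂ + p ^ a' * u₂ * ((p - 1) * u₁)
            = p ^ a' * (p - 1 + 1) * (u₁ * u₂) := by ring
          _ = p ^ (a' + 1) * (u₁ * u₂) := by rw [h3, pow_succ]

variable {q : ℕ} [Fact q.Prime]
variable {Γ : Type} [Group Γ] [MulSemiringAction Γ (PadicAlgCl q)]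
  [MulDistribMulAction Γ (PadicAlgCl q)ˣ]

/-- **ABS**, with the bound ORD as a hypothesis: `H²(Γ/H, (Ω^H)^×)[p]` has order at most `p` when
`Γ/H` is a `p`-group. -/
theorem abs_dependent_of_pGroup (hΓ : IsLocalGal q Γ) {p : ℕ} [Fact p.Prime] (a : ℕ)
    (H : Subgroup Γ) [H.Normal] (hH : IsOpenSub q H) (hidx : H.index = p ^ a)
    (hORD : ∃ R : Finset (Γ × Γ → (PadicAlgCl q)ˣ), R.card ≤ p ^ a ∧
      ∀ c : Γ × Γ → (PadicAlgCl q)ˣ, IsMulCocycle₂ c → IsInfl2 H c →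
        ∃ r ∈ R, IsSmCob2 (c / r))
    (c₁ c₂ : Γ × Γ → (PadicAlgCl q)ˣ) (h₁ : IsMulCocycle₂ c₁) (h₂ : IsMulCocycle₂ c₂)
    (hi₁ : IsInfl2 H c₁) (hi₂ : IsInfl2 H c₂)
    (hp₁ : IsSmCob2 (c₁ ^ p)) (hp₂ : IsSmCob2 (c₂ ^ p)) :
    ∃ x y : ℕ, (¬ p ∣ x ∨ ¬ p ∣ y) ∧ IsSmCob2 (c₁ ^ x * c₂ ^ y) := by
  classical
  have hpp : p.Prime := Fact.out
  have : NeZero (p ^ a) := ⟨pow_ne_zero _ hpp.ne_zero⟩
  obtain ⟨χ, σ, hχ⟩ := exists_unram_char hΓ (p ^ a)
  obtain ⟨π, hπ0, hπfix, hπ1, hπ⟩ := hΓ.exists_unif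
  have hπu : IsFixedBy (⊤ : Subgroup Γ) (Units.mk0 π hπ0) := abs_isFixedBy_mk0 hΓ hπ0 hπfix
  have hπu' : ∀ g : Γ, g • Units.mk0 π hπ0 = Units.mk0 π hπ0 :=
    fun g => hπu g (Subgroup.mem_top g)
  obtain ⟨s, hs, hinf⟩ := abs_exists_infl hΓ χ σ hχ H hH hidx (Units.mk0 π hπ0) hπu
  set c' : Γ × Γ → (PadicAlgCl q)ˣ := cycCocycle χ (Units.mk0 π hπ0) * mulD1 s with hc'def
  have hc' : IsMulCocycle₂ c' :=
    isMulCocycle₂_mul (cycCocycle_isMulCocycle₂ (χ := χ) _ hπu') (isMulCocycle₂_mulD1 s)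
  have hpow : ∀ m : ℕ, c' ^ m = cycCocycle χ (Units.mk0 π hπ0 ^ m) * mulD1 (s ^ m) := by
    intro m
    rw [hc'def, mul_pow, abs_cycCocycle_pow, abs_mulD1_pow]
  have hfixpow : ∀ m : ℕ, IsFixedBy (⊤ : Subgroup Γ) (Units.mk0 π hπ0 ^ m) := by
    intro m g hg
    rw [smul_pow', hπu g hg]
  -- `c'^m` is a smooth coboundary iff `n ∣ m`
  have key1 : ∀ m : ℕ, IsSmCob2 (c' ^ m) → p ^ a ∣ m := by
    intro m hm
    have e2 : IsSmCob2 (cycCocycle χ (Units.mk0 π hπ0 ^ m)) := by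
      have e3 : cycCocycle χ (Units.mk0 π hπ0 ^ m) = c' ^ m / mulD1 (s ^ m) := by
        rw [hpow m, mul_div_cancel_right]
      rw [e3]
      exact abs_isSmCob2_div hm ⟨s ^ m, abs_smoothC1_pow hs m, rfl⟩
    obtain ⟨m', hm', hnorm⟩ := abs_norm_of_isSmCob2 hΓ χ hχ.ker_open σ hχ.frob _ (hfixpow m) e2
    exact abs_dvd_of_unif_pow_norm hΓ χ σ hχ π hπ0 hπ1 hπ m m' hm' hnorm
  have key2 : ∀ m : ℕ, p ^ a ∣ m → IsSmCob2 (c' ^ m) := by
    rintro m ⟨t, rfl⟩
    have e1 : Units.mk0 π hπ0 ^ (p ^ a * t) = cycNorm (p ^ a) σ (Units.mk0 π hπ0 ^ t) := by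
      rw [abs_cycNorm_of_fixed (p ^ a) σ _ (fun g => hfixpow t g (Subgroup.mem_top g)),
        ← pow_mul, mul_comm]
    rw [hpow, e1]
    exact abs_isSmCob2_mul
      (abs_isSmCob2_of_norm χ hχ.ker_open σ hχ.frob _ (fun g _ => hfixpow t g (Subgroup.mem_top g)))
      ⟨_, abs_smoothC1_pow hs _, rfl⟩
  -- counting
  obtain ⟨R, hRcard, hR⟩ := hORD
  have hcl : ∀ j : ℕ, ∃ r ∈ R, IsSmCob2 (c' ^ j / r) :=
    fun j => hR (c' ^ j) (abs_isMulCocycle₂_pow hc' j) (abs_isInfl2_pow hinf j)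
  choose f hfR hf using hcl
  have hinj0 : ∀ i j : ℕ, i ≤ j → j < p ^ a → f i = f j → i = j := by
    intro i j hij hj hfij
    have e1 : c' ^ (j - i) = (c' ^ j / f j) / (c' ^ i / f i) := by
      rw [hfij, div_div_div_cancel_right, eq_div_iff_mul_eq', ← pow_add, Nat.sub_add_cancel hij]
    have e2 : p ^ a ∣ j - i := by
      apply key1
      rw [e1]
      exact abs_isSmCob2_div (hf j) (hf i)
    have e3 : j - i = 0 := Nat.eq_zero_of_dvd_of_lt e2 (by omega)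
    omega
  have hinj : Set.InjOn f (Finset.range (p ^ a) : Set ℕ) := by
    intro i hi j hj hij
    rcases le_total i j with h | h
    · exact hinj0 i j h (Finset.mem_range.1 hj) hij
    · exact (hinj0 j i h (Finset.mem_range.1 hi) hij.symm).symm
  have himg : (Finset.range (p ^ a)).image f = R := by
    apply Finset.eq_of_subset_of_card_le
    · intro x hx
      obtain ⟨i, _, rfl⟩ := Finset.mem_image.1 hx
      exact hfR i
    · rw [Finset.card_image_of_injOn hinj, Finset.card_range]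
      exact hRcard
  have hall : ∀ c : Γ × Γ → (PadicAlgCl q)ˣ, IsMulCocycle₂ c → IsInfl2 H c →
      ∃ j : ℕ, IsSmCob2 (c / c' ^ j) := by
    intro c hc hci
    obtain ⟨r, hr, hcr⟩ := hR c hc hci
    rw [← himg] at hr
    obtain ⟨j, _, rfl⟩ := Finset.mem_image.1 hr
    refine ⟨j, ?_⟩
    have e1 : c / c' ^ j = (c / f j) / (c' ^ j / f j) := by rw [div_div_div_cancel_right]
    rw [e1]
    exact abs_isSmCob2_div hcr (hf j)
  obtain ⟨j₁, hj₁⟩ := hall c₁ h₁ hi₁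
  obtain ⟨j₂, hj₂⟩ := hall c₂ h₂ hi₂
  have htors : ∀ (c : Γ × Γ → (PadicAlgCl q)ˣ) (j : ℕ), IsSmCob2 (c / c' ^ j) →
      IsSmCob2 (c ^ p) → p ^ a ∣ p * j := by
    intro c j hj hcp
    apply key1
    have e1 : c' ^ (p * j) = c ^ p / (c / c' ^ j) ^ p := by
      rw [div_pow, div_div_cancel, ← pow_mul, mul_comm]
    rw [e1]
    exact abs_isSmCob2_div hcp (abs_isSmCob2_pow hj p)
  obtain ⟨x, y, hxy, hdvd⟩ := abs_arith hpp a j₁ j₂ (htors c₁ j₁ hj₁ hp₁) (htors c₂ j₂ hj₂ hp₂)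
  refine ⟨x, y, hxy, ?_⟩
  have e1 : c₁ ^ x * c₂ ^ y =
      (c₁ / c' ^ j₁) ^ x * (c₂ / c' ^ j₂) ^ y * c' ^ (j₁ * x + j₂ * y) := by
    rw [div_pow, div_pow, pow_add, ← pow_mul, ← pow_mul]
    exact (by intros; abel :
      ∀ A B C D : Additive (Γ × Γ → (PadicAlgCl q)ˣ), A + B = (A - C) + (B - D) + (C + D)) _ _ _ _
  rw [e1]
  exact abs_isSmCob2_mul (abs_isSmCob2_mul (abs_isSmCob2_pow hj₁ x) (abs_isSmCob2_pow hj₂ y))
    (key2 _ hdvd)

end Main

end Fermat.Agent.F4.Loc
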