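import Fermat.Agent.F4.Loc.FT

/-!
# F4 / Loc / ORD : at most `p^a` classes of inflated 2-cocycles (seat ORD of the LOC layer)

`ord_card_infl_classes_le` : for `H ⊴ Γ` open with `Γ/H` of order `p^a`, the `H`-inflated
2-cocycles fall into at most `p^a` classes modulo smooth coboundaries.  Induction on `a`
(`ord_base`, `ord_step`), using `infl_res_exact`, `exists_cycCocycle_mul_mulD1`,
`cycCocycle_eq_mulD1_of_norm` and the FT inputs `h1Triv_of_open`, `exists_not_norm`,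
`norm_index_le`.
-/

set_option autoImplicit false
set_option linter.unusedSectionVars false
set_option linter.style.haveILetI false

open scoped NNReal
open groupCohomology

namespace Fermat.Agent.F4.Loc


section GroupTheory

variable {G : Type*} [Group G]

/-- a finite group of order `p^(a+1)` has a normal subgroup of index `p` -/
lemma ord_exists_normal_index_prime {p : ℕ} [Fact p.Prime] (a : ℕ) [Finite G]
    (hcard : Nat.card G = p ^ (a + 1)) : ∃ K : Subgroup G, K.Normal ∧ K.index = p := by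
  have hp : p.Prime := Fact.out
  obtain ⟨K, hK⟩ := Sylow.exists_subgroup_card_pow_prime p (n := a) (G := G)
    (by rw [hcard]; exact pow_dvd_pow p (Nat.le_succ a))
  have hidx : K.index = p := by
    have h1 := K.card_mul_index
    rw [hK, hcard, pow_succ] at h1
    exact Nat.eq_of_mul_eq_mul_left (pow_pos hp.pos a) h1
  refine ⟨K, ?_, hidx⟩
  apply Subgroup.normal_of_index_eq_minFac_card
  rw [hidx, hcard, hp.pow_minFac (Nat.succ_ne_zero a)]

/-- a normal subgroup of index `p^(a+1)` is contained in a normal subgroup of index `p` -/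
lemma ord_exists_normal_ge {p : ℕ} [Fact p.Prime] (a : ℕ) (H : Subgroup G) [H.Normal]
    (hidx : H.index = p ^ (a + 1)) : ∃ K : Subgroup G, K.Normal ∧ H ≤ K ∧ K.index = p := by
  have hp : p.Prime := Fact.out
  haveI : H.FiniteIndex := ⟨by rw [hidx]; exact pow_ne_zero _ hp.ne_zero⟩
  haveI : Finite (G ⧸ H) := Subgroup.finite_quotient_of_finiteIndex
  have hcard : Nat.card (G ⧸ H) = p ^ (a + 1) := by rw [← Subgroup.index_eq_card, hidx]
  obtain ⟨K, hKn, hK⟩ := ord_exists_normal_index_prime a hcard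
  refine ⟨K.comap (QuotientGroup.mk' H), hKn.comap _, ?_, ?_⟩
  · intro h hh
    rw [Subgroup.mem_comap]
    have : (QuotientGroup.mk' H) h = 1 := by
      rw [QuotientGroup.mk'_apply, QuotientGroup.eq_one_iff]; exact hh
    rw [this]; exact K.one_mem
  · rw [Subgroup.index_comap_of_surjective _ (QuotientGroup.mk'_surjective H), hK]

/-- a normal subgroup of prime index is the kernel of a surjective character to `ℤ/p` -/
lemma ord_exists_char {p : ℕ} [Fact p.Prime] (K : Subgroup G) [K.Normal] (hidx : K.index = p) :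
    ∃ χ : G →* Multiplicative (ZMod p), Function.Surjective χ ∧ χ.ker = K := by
  have hp : p.Prime := Fact.out
  have hcard : Nat.card (G ⧸ K) = p := by rw [← Subgroup.index_eq_card, hidx]
  have hcard' : Nat.card (Multiplicative (ZMod p)) = p := by
    rw [Nat.card_eq_fintype_card]
    exact (Fintype.card_multiplicative _).trans (ZMod.card p)
  let e : (G ⧸ K) ≃* Multiplicative (ZMod p) := mulEquivOfPrimeCardEq hcard hcard'
  refine ⟨e.toMonoidHom.comp (QuotientGroup.mk' K), ?_, ?_⟩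
  · exact e.surjective.comp (QuotientGroup.mk'_surjective K)
  · ext g
    rw [MonoidHom.mem_ker, MonoidHom.comp_apply]
    show e (QuotientGroup.mk' K g) = 1 ↔ g ∈ K
    rw [MulEquiv.map_eq_one_iff, QuotientGroup.mk'_apply, QuotientGroup.eq_one_iff]

end GroupTheory


section Abstract

variable {Γ M : Type*} [Group Γ] [CommGroup M] [MulDistribMulAction Γ M]

lemma ord_mulD1_one : mulD1 (1 : Γ → M) = 1 := by
  funext ⟨g, h⟩
  simp [mulD1_apply]

lemma ord_mulD1_inv (s : Γ → M) : mulD1 s⁻¹ = (mulD1 s)⁻¹ := by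
  have h := mulD1_mul s s⁻¹
  rw [mul_inv_cancel, ord_mulD1_one] at h
  exact eq_inv_of_mul_eq_one_right h.symm

lemma ord_mulD1_div (s s' : Γ → M) : mulD1 (s / s') = mulD1 s / mulD1 s' := by
  rw [div_eq_mul_inv, mulD1_mul, ord_mulD1_inv, div_eq_mul_inv]

lemma ord_isMulCocycle₂_inv {c : Γ × Γ → M} (hc : IsMulCocycle₂ c) : IsMulCocycle₂ c⁻¹ := by
  intro g h j
  simp only [Pi.inv_apply, smul_inv']
  rw [← mul_inv_rev, ← mul_inv_rev, mul_comm (c (g, h)), hc g h j, mul_comm]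

lemma ord_isMulCocycle₂_div {c c' : Γ × Γ → M} (hc : IsMulCocycle₂ c) (hc' : IsMulCocycle₂ c') :
    IsMulCocycle₂ (c / c') := by
  rw [div_eq_mul_inv]
  exact isMulCocycle₂_mul hc (ord_isMulCocycle₂_inv hc')

lemma ord_isInfl2_inv {V : Subgroup Γ} {c : Γ × Γ → M} (hc : IsInfl2 V c) : IsInfl2 V c⁻¹ := by
  refine ⟨fun g g' v v' hv hv' => ?_, fun g g' h hh => ?_⟩
  · simp only [Pi.inv_apply, hc.1 g g' v v' hv hv']
  · simp only [Pi.inv_apply, smul_inv', hc.2 g g' h hh]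

lemma ord_isInfl2_div {V : Subgroup Γ} {c c' : Γ × Γ → M} (hc : IsInfl2 V c)
    (hc' : IsInfl2 V c') : IsInfl2 V (c / c') := by
  rw [div_eq_mul_inv]
  exact hc.mul (ord_isInfl2_inv hc')

lemma ord_isMulCocycle₂_res (K : Subgroup Γ) {c : Γ × Γ → M} (hc : IsMulCocycle₂ c) :
    IsMulCocycle₂ (resC2 K c) := by
  intro g h j
  exact hc g h j

lemma ord_isInfl2_res (K H : Subgroup Γ) {c : Γ × Γ → M} (hc : IsInfl2 H c) :
    IsInfl2 (H.subgroupOf K) (resC2 K c) := by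
  refine ⟨fun g g' v v' hv hv' => ?_, fun g g' h hh => ?_⟩
  · exact hc.1 g g' v v' (Subgroup.mem_subgroupOf.1 hv) (Subgroup.mem_subgroupOf.1 hv')
  · exact hc.2 g g' h (Subgroup.mem_subgroupOf.1 hh)

lemma ord_resC2_div (K : Subgroup Γ) (c c' : Γ × Γ → M) :
    resC2 K (c / c') = resC2 K c / resC2 K c' := rfl

lemma ord_cycCocycle_mul {n : ℕ} (χ : Γ →* Multiplicative (ZMod n)) (x y : M) :
    cycCocycle χ (x * y) = cycCocycle χ x * cycCocycle χ y := by
  funext ⟨g, h⟩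
  rw [Pi.mul_apply]
  unfold cycCocycle
  exact mul_pow _ _ _

/-- a cocycle inflated from the whole group is the coboundary of a constant cochain -/
lemma ord_const_of_isInfl2_top {c : Γ × Γ → M} (hc : IsInfl2 (⊤ : Subgroup Γ) c) :
    c = mulD1 (fun _ => c (1, 1)) := by
  funext ⟨g, h⟩
  have h1 : c (g, h) = c (1, 1) := by
    have := hc.1 1 1 g h (Subgroup.mem_top g) (Subgroup.mem_top h)
    rwa [one_mul, one_mul] at this
  have h2 : g • c (1, 1) = c (1, 1) := hc.2 1 1 g (Subgroup.mem_top g)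
  rw [mulD1_apply, h1, h2, div_self', one_mul]

end Abstract


variable {q : ℕ} [Fact q.Prime]

section Smooth

variable {Γ : Type} [Group Γ] [MulSemiringAction Γ (PadicAlgCl q)]
  [MulDistribMulAction Γ (PadicAlgCl q)ˣ]

lemma ord_isSmCob2_of_isConst1 {V : Subgroup Γ} (hVn : V.Normal) (hV : IsOpenSub q V)
    {s : Γ → (PadicAlgCl q)ˣ} (hs : IsConst1 V s) : IsSmCob2 (mulD1 s) :=
  ⟨s, ⟨V, hVn, hV, hs⟩, rfl⟩

lemma ord_isSmCob2_div {c c' : Γ × Γ → (PadicAlgCl q)ˣ} (hc : IsSmCob2 c) (hc' : IsSmCob2 c') :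
    IsSmCob2 (c / c') := by
  obtain ⟨s, ⟨W, hWn, hW, hs⟩, rfl⟩ := hc
  obtain ⟨s', ⟨W', hWn', hW', hs'⟩, rfl⟩ := hc'
  refine ⟨s / s', ⟨W ⊓ W', ?_, hW.inf hW', fun γ w hw => ?_⟩, (ord_mulD1_div s s').symm⟩
  · haveI := hWn; haveI := hWn'; infer_instance
  · simp only [Pi.div_apply, hs γ w hw.1, hs' γ w hw.2]

end Smooth



/-- the statement of ORD for a group `Γ`, a subgroup `H` and a bound `B` -/
def OrdStmt (q : ℕ) [Fact q.Prime] (Γ : Type) [Group Γ] [MulSemiringAction Γ (PadicAlgCl q)]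
    [MulDistribMulAction Γ (PadicAlgCl q)ˣ] (H : Subgroup Γ) (B : ℕ) : Prop :=
  ∃ R : Finset (Γ × Γ → (PadicAlgCl q)ˣ), R.card ≤ B ∧
    ∀ c : Γ × Γ → (PadicAlgCl q)ˣ, IsMulCocycle₂ c → IsInfl2 H c →
      ∃ r ∈ R, IsSmCob2 (c / r)

section Step

variable {Γ : Type} [Group Γ] [MulSemiringAction Γ (PadicAlgCl q)]
  [MulDistribMulAction Γ (PadicAlgCl q)ˣ]

/-- base case: `H = ⊤` -/
lemma ord_base (H : Subgroup Γ) (hidx : H.index = 1) : OrdStmt q Γ H 1 := by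
  classical
  have hH : H = ⊤ := Subgroup.index_eq_one.1 hidx
  subst hH
  refine ⟨{1}, by simp, fun c _ hinf => ⟨1, Finset.mem_singleton_self _, ?_⟩⟩
  rw [div_one, ord_const_of_isInfl2_top hinf]
  exact ord_isSmCob2_of_isConst1 inferInstance isOpenSub_top (fun _ _ _ => rfl)

/-- inductive step, given the statement for the subgroup `Γ₁` of index `p` -/
lemma ord_step (hΓ : IsLocalGal q Γ) {p : ℕ} [Fact p.Prime] (B : ℕ)
    (H : Subgroup Γ) [H.Normal] (hH : IsOpenSub q H)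
    (Γ₁ : Subgroup Γ) [Γ₁.Normal] (hHΓ₁ : H ≤ Γ₁) (hidx : Γ₁.index = p)
    (ih : OrdStmt q ↥Γ₁ (H.subgroupOf Γ₁) B) : OrdStmt q Γ H (B * p) := by
  classical
  have hp : p.Prime := Fact.out
  haveI : NeZero p := ⟨hp.ne_zero⟩
  have hΓ₁open : IsOpenSub q Γ₁ := hH.of_le hΓ hHΓ₁
  obtain ⟨χ, hχ, hker⟩ := ord_exists_char Γ₁ hidx
  obtain ⟨σ, hσ⟩ := hχ (Multiplicative.ofAdd 1)
  have hkeropen : IsOpenSub q χ.ker := hker ▸ hΓ₁open
  obtain ⟨a₀, ha₀, hna₀⟩ := exists_not_norm hΓ χ hχ hkeropen σ hσ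
  obtain ⟨R₁, hR₁card, hR₁⟩ := ih
  -- the lifts
  let P : (↥Γ₁ × ↥Γ₁ → (PadicAlgCl q)ˣ) → (Γ × Γ → (PadicAlgCl q)ˣ) → Prop :=
    fun r c => IsMulCocycle₂ c ∧ IsInfl2 H c ∧ IsSmCob2 (resC2 Γ₁ c / r)
  let lift : (↥Γ₁ × ↥Γ₁ → (PadicAlgCl q)ˣ) → (Γ × Γ → (PadicAlgCl q)ˣ) :=
    fun r => if h : ∃ c, P r c then h.choose else 1
  have hlift : ∀ r, (∃ c, P r c) → P r (lift r) := by
    intro r h
    simp only [lift, dif_pos h]
    exact h.choose_spec
  refine ⟨(R₁ ×ˢ Finset.range p).image (fun x => lift x.1 * cycCocycle χ (a₀ ^ x.2)), ?_, ?_⟩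
  · refine Finset.card_image_le.trans ?_
    rw [Finset.card_product, Finset.card_range]
    exact Nat.mul_le_mul_right p hR₁card
  intro c hc hinf
  obtain ⟨r, hrR, hr⟩ := hR₁ (resC2 Γ₁ c) (ord_isMulCocycle₂_res Γ₁ hc) (ord_isInfl2_res Γ₁ H hinf)
  obtain ⟨hcr, hinfr, hrr⟩ := hlift r ⟨c, hc, hinf, hr⟩
  set cr := lift r with hcrdef
  -- the difference
  set d : Γ × Γ → (PadicAlgCl q)ˣ := c / cr with hd
  have hdc : IsMulCocycle₂ d := ord_isMulCocycle₂_div hc hcr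
  have hdinf : IsInfl2 H d := ord_isInfl2_div hinf hinfr
  have hdres : IsSmCob2 (resC2 Γ₁ d) := by
    have : resC2 Γ₁ d = (resC2 Γ₁ c / r) / (resC2 Γ₁ cr / r) := by
      rw [hd, ord_resC2_div, div_div_div_cancel_right]
    rw [this]
    exact ord_isSmCob2_div hr hrr
  obtain ⟨t, ⟨W₁, hW₁n, hW₁, ht⟩, hdt⟩ := hdres
  -- the level
  obtain ⟨W', hW'n, hW', hW'le⟩ := (hΓ₁open.map_subtype hW₁).exists_normal_le hΓ
  set V : Subgroup Γ := W' ⊓ H with hV
  haveI hVn : V.Normal := by haveI := hW'n; infer_instance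
  have hVopen : IsOpenSub q V := hW'.inf hH
  have hVH : V ≤ H := inf_le_right
  have hVΓ₁ : V ≤ Γ₁ := hVH.trans hHΓ₁
  have htV : ∀ (h v : ↥Γ₁), (v : Γ) ∈ V → t (h * v) = t h := by
    intro h v hv
    obtain ⟨w, hw, hwv⟩ := hW'le hv.1
    have : w = v := Subtype.ext hwv
    exact ht h v (this ▸ hw)
  have hdV : IsConst2 V d := fun g g' v v' hv hv' => hdinf.1 g g' v v' (hVH hv) (hVH hv')
  have hct : ∀ h h' : ↥Γ₁, d (h, h') = (h : Γ) • t h' / t (h * h') * t h := by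
    intro h h'
    have := congrFun hdt (h, h')
    exact this
  obtain ⟨s, hsV, hsinf⟩ := infl_res_exact Γ₁ V hVΓ₁ (h1Triv_of_open hΓ Γ₁ V hVopen hVΓ₁)
    d hdc hdV t htV hct
  have hd'c : IsMulCocycle₂ (d * mulD1 s) := isMulCocycle₂_mul hdc (isMulCocycle₂_mulD1 s)
  have hsinf' : IsInfl2 χ.ker (d * mulD1 s) := by rw [hker]; exact hsinf
  obtain ⟨b, s', hb, hs', hds⟩ := exists_cycCocycle_mul_mulD1 χ σ hσ (d * mulD1 s) hd'c hsinf'
  obtain ⟨k, m, hk, hm, hbk⟩ := norm_index_le hΓ χ hχ hkeropen σ hσ a₀ ha₀ hna₀ b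
    (fun g _ => hb g)
  obtain ⟨s'', hs'', hcyc⟩ := cycCocycle_eq_mulD1_of_norm χ σ hσ m hm
  refine ⟨cr * cycCocycle χ (a₀ ^ k), ?_, ?_⟩
  · exact Finset.mem_image.2 ⟨(r, k), Finset.mem_product.2 ⟨hrR, Finset.mem_range.2 hk⟩, rfl⟩
  · have hconst : ∀ {u : Γ → (PadicAlgCl q)ˣ}, IsInfl1 χ.ker u → IsConst1 V u := by
      intro u hu g v hv
      exact hu.1 g v (hker ▸ hVΓ₁ hv)
    have hS : IsConst1 V (s'' * s' / s) := by
      intro g v hv
      simp only [Pi.div_apply, Pi.mul_apply, hconst hs'' g v hv, hconst hs' g v hv, hsV g v hv]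
    have key : c / (cr * cycCocycle χ (a₀ ^ k)) = mulD1 (s'' * s' / s) := by
      rw [ord_mulD1_div, mulD1_mul, ← hcyc]
      have e1 : d = cycCocycle χ b * mulD1 s' / mulD1 s := by
        rw [← hds, mul_div_cancel_right]
      have e2 : c = cr * d := by rw [hd, mul_div_cancel]
      rw [e2, e1, hbk, ord_cycCocycle_mul]
      rw [mul_div_mul_left_eq_div]
      rw [div_eq_iff_eq_mul]
      rw [div_mul_eq_mul_div]
      congr 1
      ac_rfl
    rw [key]
    exact ord_isSmCob2_of_isConst1 hVn hVopen hS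

end Step



theorem ord_main {p : ℕ} [Fact p.Prime] (a : ℕ) :
    ∀ (Γ : Type) [Group Γ] [MulSemiringAction Γ (PadicAlgCl q)]
      [MulDistribMulAction Γ (PadicAlgCl q)ˣ],
      IsLocalGal q Γ → ∀ (H : Subgroup Γ) [H.Normal], IsOpenSub q H → H.index = p ^ a →
        OrdStmt q Γ H (p ^ a) := by
  induction a with
  | zero =>
    intro Γ _ _ _ hΓ H _ hH hidx
    rw [pow_zero] at hidx ⊢
    exact ord_base H hidx
  | succ a ih =>
    intro Γ _ _ _ hΓ H _ hH hidx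
    obtain ⟨Γ₁, hΓ₁n, hHΓ₁, hΓ₁idx⟩ := ord_exists_normal_ge a H hidx
    haveI := hΓ₁n
    have hp : p.Prime := Fact.out
    have hΓ₁open : IsOpenSub q Γ₁ := hH.of_le hΓ hHΓ₁
    have hΓ₁ : IsLocalGal q ↥Γ₁ := hΓ.subgroup Γ₁ hΓ₁open
    have hsub_idx : (H.subgroupOf Γ₁).index = p ^ a := by
      have h1 := Subgroup.relIndex_mul_index hHΓ₁
      rw [hΓ₁idx, hidx, pow_succ] at h1
      exact Nat.eq_of_mul_eq_mul_right hp.pos h1
    have h2 := ih ↥Γ₁ hΓ₁ (H.subgroupOf Γ₁) hH.subgroupOf hsub_idx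
    rw [pow_succ]
    exact ord_step hΓ (p ^ a) H hH Γ₁ hHΓ₁ hΓ₁idx h2

variable {Γ : Type} [Group Γ] [MulSemiringAction Γ (PadicAlgCl q)]
  [MulDistribMulAction Γ (PadicAlgCl q)ˣ]

/-- **ORD.**  At most `p^a` classes of `H`-inflated 2-cocycles when `Γ/H` has order `p^a`. -/
theorem ord_card_infl_classes_le (hΓ : IsLocalGal q Γ) {p : ℕ} [Fact p.Prime] (a : ℕ)
    (H : Subgroup Γ) [H.Normal] (hH : IsOpenSub q H) (hidx : H.index = p ^ a) :
    ∃ R : Finset (Γ × Γ → (PadicAlgCl q)ˣ), R.card ≤ p ^ a ∧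
      ∀ c : Γ × Γ → (PadicAlgCl q)ˣ, IsMulCocycle₂ c → IsInfl2 H c →
        ∃ r ∈ R, IsSmCob2 (c / r) :=
  ord_main a Γ hΓ H hH hidx

end Fermat.Agent.F4.Loc
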