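import Fermat.Agent.F4.Loc.FT
import Fermat.Agent.F4.Loc.ORD
import Fermat.Agent.F4.Loc.ABS

/-!
# F4 / Loc / CO : the local Brauer group on cocycles  (STUBS — seats F3, ORD, ABS)

`Γ` a local Galois group acting on `Ω = PadicAlgCl q`; cochains with values in `Ωˣ`.
Inputs: `InfRes.lean`, `Cyclic.lean` (pure algebra) and `FT.lean` (FTA, FTB, FTC).

F3   `not_isSmCob2_cycCocycle` : if `a ∈ E^×` is not a norm from the cyclic layer of `χ`, the
     cyclic cocycle `c_{χ,a}` is not a smooth coboundary.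
     Proof: `c = ∂s`, `s` smooth ⇒ (`infl_injective`, `H = ker χ`, FTA) `c = ∂s'`, `s'` inflated
     ⇒ (`norm_of_cycCocycle_eq_mulD1`) `a` is a norm.
     `isSmCob2_cycCocycle_of_norm` : the converse.
ORD  `card_infl_classes_le` : for `H ⊴ Γ` open with `Γ/H` a `p`-group of order `p^a`, the
     `H`-inflated 2-cocycles fall into at most `p^a` classes modulo smooth coboundaries.
     Proof: induction on `a`; `Γ₁ ⊴ Γ` of index `p` containing `H`, `χ : Γ ↠ ℤ/p` with kernel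
     `Γ₁`; restriction to `Γ₁` has at most `p^(a-1)` classes (induction, `IsLocalGal.subgroup`);
     two cocycles with the same restriction class differ by a cocycle which is trivial on `Γ₁`,
     hence (`infl_res_exact` + `exists_cycCocycle_mul_mulD1`) by some `c_{χ,b}`, and there are
     at most `p` of those modulo coboundaries (`norm_index_le` + `cycCocycle_eq_mulD1_of_norm`).
ABS  `dependent_of_pGroup` : for such `H ⊴ Γ`, any two `H`-inflated 2-cocycles whose `p`-th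
     powers are smooth coboundaries are linearly dependent modulo smooth coboundaries.
     Proof: `n = p^a`, `(χ, σ)` unramified of degree `n` (FTC), `π` a uniformizer of `E`,
     `c_π = c_{χ,π}`.  (1) `c_π` restricted to `H` is `c_{χ',π}` for the induced character of
     `H`, a coboundary by `absorb`; (2) by `infl_res_exact`, `c_π ~ c'`, `c'` `H`-inflated;
     (3) the classes of `c'^j`, `0 ≤ j < n`, are distinct (`val_eq`: `π^j` is not a norm);
     (4) by ORD every `H`-inflated cocycle is `~ c'^j`; (5) `p`-torsion classes are multiples of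
     `c'^(n/p)`.
-/

set_option autoImplicit false

open scoped NNReal
open groupCohomology

namespace Fermat.Agent.F4.Loc

variable {q : ℕ} [Fact q.Prime]
variable {Γ : Type} [Group Γ] [MulSemiringAction Γ (PadicAlgCl q)]
  [MulDistribMulAction Γ (PadicAlgCl q)ˣ]

/-- **F3.**  The cyclic cocycle of a non-norm is not a smooth coboundary. -/
theorem not_isSmCob2_cycCocycle (hΓ : IsLocalGal q Γ) {n : ℕ} [NeZero n]
    (χ : Γ →* Multiplicative (ZMod n)) (hχ : Function.Surjective χ) (hker : IsOpenSub q χ.ker)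
    (σ : Γ) (hσ : χ σ = Multiplicative.ofAdd 1)
    (a : (PadicAlgCl q)ˣ) (ha : IsFixedBy (⊤ : Subgroup Γ) a)
    (hna : ∀ m : (PadicAlgCl q)ˣ, IsFixedBy χ.ker m → cycNorm n σ m ≠ a) :
    ¬ IsSmCob2 (cycCocycle χ a) := by
  rintro ⟨s, ⟨W, hWn, hWo, hWs⟩, hcs⟩
  have _ := hχ
  have ha' : ∀ g : Γ, g • a = a := fun g => ha g (Subgroup.mem_top g)
  have : W.Normal := hWn
  -- the level `V = W ⊓ ker χ`
  have hVo : IsOpenSub q (W ⊓ χ.ker) := hWo.inf hker
  have hVH : W ⊓ χ.ker ≤ χ.ker := inf_le_right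
  have h1 : H1Triv χ.ker (W ⊓ χ.ker) (PadicAlgCl q)ˣ :=
    h1Triv_of_open hΓ χ.ker (W ⊓ χ.ker) hVo hVH
  have hsV : IsConst1 (W ⊓ χ.ker) s := fun g v hv => hWs g v hv.1
  obtain ⟨s', hs', hcs'⟩ := infl_injective χ.ker (W ⊓ χ.ker) hVH h1 (cycCocycle χ a)
    (cycCocycle_isInfl2 (χ := χ) a ha') s hsV hcs
  obtain ⟨m, hm, ham⟩ := norm_of_cycCocycle_eq_mulD1 (χ := χ) σ hσ a ha' s' hs' hcs'
  exact hna m hm ham.symm

/-- The cyclic cocycle of a norm is a smooth coboundary. -/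
theorem isSmCob2_cycCocycle_of_norm (hΓ : IsLocalGal q Γ) {n : ℕ} [NeZero n]
    (χ : Γ →* Multiplicative (ZMod n)) (hχ : Function.Surjective χ) (hker : IsOpenSub q χ.ker)
    (σ : Γ) (hσ : χ σ = Multiplicative.ofAdd 1)
    (m : (PadicAlgCl q)ˣ) (hm : IsFixedBy χ.ker m) :
    IsSmCob2 (cycCocycle χ (cycNorm n σ m)) := by
  have _ := hΓ
  have _ := hχ
  obtain ⟨s, hs, hcs⟩ := cycCocycle_eq_mulD1_of_norm (χ := χ) σ hσ m hm
  exact ⟨s, ⟨χ.ker, inferInstance, hker, fun g w hw => hs.1 g w hw⟩, hcs⟩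

/-- Existence of a class of order `p`: for a surjective character `χ : Γ ↠ ℤ/p` with open
kernel there is a 2-cocycle, inflated from `ker χ`, which is not a smooth coboundary and whose
`p`-th power is one. -/
theorem exists_nontrivial_class (hΓ : IsLocalGal q Γ) {p : ℕ} [Fact p.Prime]
    (χ : Γ →* Multiplicative (ZMod p)) (hχ : Function.Surjective χ) (hker : IsOpenSub q χ.ker) :
    ∃ c : Γ × Γ → (PadicAlgCl q)ˣ, IsMulCocycle₂ c ∧ IsInfl2 χ.ker c ∧ ¬ IsSmCob2 c ∧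
      IsSmCob2 (c ^ p) := by
  have : NeZero p := ⟨(Fact.out : p.Prime).ne_zero⟩
  obtain ⟨σ, hσ⟩ := hχ (Multiplicative.ofAdd 1)
  obtain ⟨a, ha, hna⟩ := exists_not_norm hΓ χ hχ hker σ hσ
  have ha' : ∀ g : Γ, g • a = a := fun g => ha g (Subgroup.mem_top g)
  refine ⟨cycCocycle χ a, cycCocycle_isMulCocycle₂ (χ := χ) a ha',
    cycCocycle_isInfl2 (χ := χ) a ha', not_isSmCob2_cycCocycle hΓ χ hχ hker σ hσ a ha hna, ?_⟩
  -- `c ^ p` is the cyclic cocycle of `a ^ p = N(a)`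
  have hnorm : cycNorm p σ a = a ^ p := by
    unfold cycNorm
    simp [ha']
  have hpow : cycCocycle χ a ^ p = cycCocycle χ (cycNorm p σ a) := by
    funext ⟨g, h⟩
    rw [hnorm, Pi.pow_apply, cycCocycle_apply, cycCocycle_apply, ← pow_mul, ← pow_mul, mul_comm]
  rw [hpow]
  exact isSmCob2_cycCocycle_of_norm hΓ χ hχ hker σ hσ a (fun h _ => ha' h)

/-- **ORD.**  At most `p^a` classes of `H`-inflated 2-cocycles when `Γ/H` has order `p^a`. -/
theorem card_infl_classes_le (hΓ : IsLocalGal q Γ) {p : ℕ} [Fact p.Prime] (a : ℕ)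
    (H : Subgroup Γ) [H.Normal] (hH : IsOpenSub q H) (hidx : H.index = p ^ a) :
    ∃ R : Finset (Γ × Γ → (PadicAlgCl q)ˣ), R.card ≤ p ^ a ∧
      ∀ c : Γ × Γ → (PadicAlgCl q)ˣ, IsMulCocycle₂ c → IsInfl2 H c →
        ∃ r ∈ R, IsSmCob2 (c / r) :=
  ord_card_infl_classes_le hΓ a H hH hidx

/-- **ABS.**  `H²(Γ/H, (Ω^H)^×)[p]` has order at most `p` when `Γ/H` is a `p`-group: two
`p`-torsion classes are dependent. -/
theorem dependent_of_pGroup (hΓ : IsLocalGal q Γ) {p : ℕ} [Fact p.Prime] (a : ℕ)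
    (H : Subgroup Γ) [H.Normal] (hH : IsOpenSub q H) (hidx : H.index = p ^ a)
    (c₁ c₂ : Γ × Γ → (PadicAlgCl q)ˣ) (h₁ : IsMulCocycle₂ c₁) (h₂ : IsMulCocycle₂ c₂)
    (hi₁ : IsInfl2 H c₁) (hi₂ : IsInfl2 H c₂)
    (hp₁ : IsSmCob2 (c₁ ^ p)) (hp₂ : IsSmCob2 (c₂ ^ p)) :
    ∃ x y : ℕ, (¬ p ∣ x ∨ ¬ p ∣ y) ∧ IsSmCob2 (c₁ ^ x * c₂ ^ y) :=
  abs_dependent_of_pGroup hΓ a H hH hidx (card_infl_classes_le hΓ a H hH hidx) c₁ c₂ h₁ h₂
    hi₁ hi₂ hp₁ hp₂

end Fermat.Agent.F4.Loc
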