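import Fermat.Agent.F4.Loc.InfRes

/-!
# F4 / Loc / Cyclic : 2-cocycles inflated from a finite cyclic quotient
(seat CYC of the LOC layer, see NOTES/blueprint-F4-LOC.md; statements by helper3, proofs by helper71)

`Γ` a group, `χ : Γ →* Multiplicative (ZMod n)` a surjective character (`n ≥ 1`), `σ` with
`χ σ = ofAdd 1`, `M` a multiplicative `Γ`-module.  For `a ∈ M^Γ` the **cyclic cocycle** is
`cycCocycle χ a (g, h) = a ^ carry (χ g) (χ h)`, `carry x y = (x.val + y.val) / n ∈ {0, 1}`.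
The norm of `m ∈ M^{ker χ}` is `cycNorm n σ m = ∏_{i < n} σ^i • m`.

* `cycCocycle_isMulCocycle₂`, `cycCocycle_isInfl2`;
* `cycCocycle_eq_mulD1_of_norm`  : `a = N m` ⇒ `c_a = ∂ s`, `s` inflated;
* `norm_of_cycCocycle_eq_mulD1`  : `c_a = ∂ s`, `s` inflated ⇒ `a = N (s σ)`;
* `exists_cycCocycle_mul_mulD1`  : every inflated 2-cocycle is `c_a * ∂ s`, `s` inflated.

Proofs: with `s_i = s (σ^i)`, `c_a = ∂ s` says `s_0 = 1`, `s_{j+1} = s_1 * σ • s_j` (`j < n-1`),
`a = s_1 * σ • s_{n-1} = N s_1`.  Normal form: `s (σ^i) := e / ∏_{j<i} c (σ^j, σ)`, `e = c (1, 1)`,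
`a := ∏_{j<n} c (σ^j, σ)`.
-/

set_option autoImplicit false
set_option linter.unusedSectionVars false

open groupCohomology

namespace Fermat.Agent.F4.Loc

variable {Γ M : Type*} [Group Γ] [CommGroup M] [MulDistribMulAction Γ M]

/-- The carry of the addition of two residues mod `n`: `0` or `1`. -/
def carry {n : ℕ} (x y : ZMod n) : ℕ := (x.val + y.val) / n

/-- The cyclic 2-cocycle `(g, h) ↦ a ^ carry (χ g) (χ h)`. -/
def cycCocycle {n : ℕ} (χ : Γ →* Multiplicative (ZMod n)) (a : M) : Γ × Γ → M :=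
  fun p => a ^ carry (Multiplicative.toAdd (χ p.1)) (Multiplicative.toAdd (χ p.2))

/-- The norm `∏_{i < n} σ^i • m`. -/
def cycNorm (n : ℕ) (σ : Γ) (m : M) : M := ∏ i ∈ Finset.range n, (σ ^ i) • m

variable {n : ℕ} [NeZero n] (χ : Γ →* Multiplicative (ZMod n))

/-! ### the carry -/

theorem carry_val_add (x y : ZMod n) : (x + y).val + n * carry x y = x.val + y.val := by
  unfold carry
  rw [ZMod.val_add]
  exact Nat.mod_add_div _ _

theorem carry_assoc (x y z : ZMod n) :
    carry y z + carry x (y + z) = carry (x + y) z + carry x y := by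
  have hn : 0 < n := Nat.pos_of_ne_zero (NeZero.ne n)
  have h1 := carry_val_add y z
  have h2 := carry_val_add x (y + z)
  have h3 := carry_val_add (x + y) z
  have h4 := carry_val_add x y
  rw [← add_assoc] at h2
  have : n * (carry y z + carry x (y + z)) = n * (carry (x + y) z + carry x y) := by
    rw [mul_add, mul_add]
    omega
  exact Nat.eq_of_mul_eq_mul_left hn this

theorem carry_zero_zero : carry (0 : ZMod n) 0 = 0 := by
  have hn : 0 < n := Nat.pos_of_ne_zero (NeZero.ne n)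
  unfold carry
  rw [ZMod.val_zero, add_zero]
  exact Nat.div_eq_of_lt hn

/-! ### the exponent of an element -/

/-- the canonical exponent `0 ≤ i < n` with `χ g = χ σ ^ i`. -/
def cycExp (g : Γ) : ℕ := (Multiplicative.toAdd (χ g)).val

theorem cycExp_lt (g : Γ) : cycExp χ g < n := ZMod.val_lt _

theorem cycExp_mul (g h : Γ) :
    cycExp χ (g * h) + n * carry (Multiplicative.toAdd (χ g)) (Multiplicative.toAdd (χ h)) =
      cycExp χ g + cycExp χ h := by
  unfold cycExp
  rw [χ.map_mul, toAdd_mul]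
  exact carry_val_add _ _

theorem cycCocycle_apply (a : M) (g h : Γ) :
    cycCocycle χ a (g, h) =
      a ^ carry (Multiplicative.toAdd (χ g)) (Multiplicative.toAdd (χ h)) := rfl

theorem cycExp_of_mem_ker {u : Γ} (hu : u ∈ χ.ker) : cycExp χ u = 0 := by
  unfold cycExp
  rw [MonoidHom.mem_ker] at hu
  rw [hu]
  simp

theorem cyc_chi_mul_ker (g : Γ) {u : Γ} (hu : u ∈ χ.ker) : χ (g * u) = χ g := by
  rw [map_mul, MonoidHom.mem_ker.mp hu, mul_one]

variable {χ}

theorem cyc_chi_pow {σ : Γ} (hσ : χ σ = Multiplicative.ofAdd 1) (i : ℕ) :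
    Multiplicative.toAdd (χ (σ ^ i)) = (i : ZMod n) := by
  rw [map_pow, hσ, ← ofAdd_nsmul, toAdd_ofAdd, nsmul_eq_mul, mul_one]

theorem cycExp_pow {σ : Γ} (hσ : χ σ = Multiplicative.ofAdd 1) (i : ℕ) :
    cycExp χ (σ ^ i) = i % n := by
  unfold cycExp
  rw [cyc_chi_pow hσ, ZMod.val_natCast]

theorem cyc_pow_card_mem_ker {σ : Γ} (hσ : χ σ = Multiplicative.ofAdd 1) : σ ^ n ∈ χ.ker := by
  rw [MonoidHom.mem_ker]
  apply Multiplicative.toAdd.injective
  rw [cyc_chi_pow hσ]
  simp

/-- `g = σ ^ (cycExp g) * u` with `u ∈ ker χ`. -/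
theorem cyc_decomp {σ : Γ} (hσ : χ σ = Multiplicative.ofAdd 1) (g : Γ) :
    (σ ^ cycExp χ g)⁻¹ * g ∈ χ.ker := by
  rw [MonoidHom.mem_ker, map_mul, map_inv, inv_mul_eq_one]
  apply Multiplicative.toAdd.injective
  rw [cyc_chi_pow hσ]
  unfold cycExp
  rw [ZMod.natCast_zmod_val]

theorem cyc_chi_eq {σ : Γ} (hσ : χ σ = Multiplicative.ofAdd 1) (g : Γ) :
    χ (σ ^ cycExp χ g) = χ g := by
  have h := cyc_decomp hσ g
  rw [MonoidHom.mem_ker, map_mul, map_inv, inv_mul_eq_one] at h
  exact h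

/-- a translate of a `ker χ`-fixed element is `ker χ`-fixed. -/
theorem cyc_fixed_smul {x : M} (hx : ∀ h ∈ χ.ker, h • x = x) (g : Γ) :
    ∀ h ∈ χ.ker, h • g • x = g • x := by
  intro h hh
  have h1 : g⁻¹ * h * g ∈ χ.ker := by
    rw [MonoidHom.mem_ker, map_mul, map_mul, map_inv, MonoidHom.mem_ker.mp hh, mul_one,
      inv_mul_cancel]
  have h2 : h * g = g * (g⁻¹ * h * g) := by group
  rw [← mul_smul, h2, mul_smul, hx _ h1]

/-- on `ker χ`-fixed elements `g` acts as `σ ^ cycExp g`. -/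
theorem cyc_smul_eq {σ : Γ} (hσ : χ σ = Multiplicative.ofAdd 1) {x : M}
    (hx : ∀ h ∈ χ.ker, h • x = x) (g : Γ) : g • x = σ ^ cycExp χ g • x := by
  have h1 := cyc_decomp hσ g
  have h2 : g = σ ^ cycExp χ g * ((σ ^ cycExp χ g)⁻¹ * g) := by group
  conv_lhs => rw [h2, mul_smul, hx _ h1]

theorem cyc_pow_add_card_smul {σ : Γ} (hσ : χ σ = Multiplicative.ofAdd 1) {x : M}
    (hx : ∀ h ∈ χ.ker, h • x = x) (k : ℕ) : σ ^ (k + n) • x = σ ^ k • x := by
  rw [pow_add, mul_smul, hx _ (cyc_pow_card_mem_ker hσ)]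

/-! ### products over a period -/

/-- `∏_{k < r + n c} F k = (∏_{k < r} F k) * (∏_{k < n} F k) ^ c` for `n`-periodic `F`. -/
theorem cyc_prod_periodic (F : ℕ → M) (hF : ∀ k, F (k + n) = F k) (r c : ℕ) :
    ∏ k ∈ Finset.range (r + n * c), F k =
      (∏ k ∈ Finset.range r, F k) * (∏ k ∈ Finset.range n, F k) ^ c := by
  have hshift : ∀ r : ℕ, ∏ k ∈ Finset.range n, F (r + k) = ∏ k ∈ Finset.range n, F k := by
    intro r
    induction r with
    | zero => simp
    | succ r ih =>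
      have h1 : ∏ k ∈ Finset.range (n + 1), F (r + k) =
          (∏ k ∈ Finset.range n, F (r + k)) * F (r + n) := Finset.prod_range_succ _ _
      have h2 : ∏ k ∈ Finset.range (n + 1), F (r + k) =
          (∏ k ∈ Finset.range n, F (r + (k + 1))) * F (r + 0) := Finset.prod_range_succ' _ _
      have h3 : ∏ k ∈ Finset.range n, F (r + 1 + k) = ∏ k ∈ Finset.range n, F (r + (k + 1)) :=
        Finset.prod_congr rfl fun k _ => by rw [add_assoc, add_comm 1 k]
      rw [h3, ← ih]
      rw [h1, hF, add_zero] at h2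
      exact (mul_right_cancel h2).symm
  induction c with
  | zero => simp
  | succ c ih =>
    rw [mul_add, mul_one, ← add_assoc, Finset.prod_range_add, ih, hshift, pow_succ, mul_assoc]

/-! ### two identities in a commutative group -/

theorem cyc_aux_add {A : Type*} [AddCommGroup A] (x b c E r a e : A)
    (h : x + b + c = E + (r + a)) : x = a + (E - b - (e - r) + (e - c)) := by
  have h1 : x = E + (r + a) - b - c := by rw [← h]; abel
  rw [h1]
  abel

theorem cyc_aux_mul (x b c E r a e : M) (h : x * b * c = E * (r * a)) :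
    x = a * (E / b / (e / r) * (e / c)) :=
  cyc_aux_add (A := Additive M) x b c E r a e h

theorem cyc_aux_add2 {A : Type*} [AddCommGroup A] (X X' B C E Q φ ψ : A)
    (ih : X + B + C = E + Q) (h1 : φ + X = ψ + X') : X' + (B + ψ) + C = E + (Q + φ) := by
  have h2 : X' = φ + X - ψ := by rw [h1]; abel
  have h3 : X = E + Q - B - C := by rw [← ih]; abel
  rw [h2, h3]
  abel

theorem cyc_aux_mul2 (X X' B C E Q φ ψ : M)
    (ih : X * B * C = E * Q) (h1 : φ * X = ψ * X') : X' * (B * ψ) * C = E * (Q * φ) :=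
  cyc_aux_add2 (A := Additive M) X X' B C E Q φ ψ ih h1

/-! ### the cyclic cocycle -/

variable (χ)

theorem cycCocycle_isMulCocycle₂ (a : M) (ha : ∀ g : Γ, g • a = a) :
    IsMulCocycle₂ (cycCocycle χ a) := by
  intro g h j
  rw [cycCocycle_apply, cycCocycle_apply, cycCocycle_apply, cycCocycle_apply, smul_pow', ha,
    ← pow_add, ← pow_add, χ.map_mul, χ.map_mul, toAdd_mul, toAdd_mul]
  congr 1
  exact (carry_assoc _ _ _).symm

theorem cycCocycle_isInfl2 (a : M) (ha : ∀ g : Γ, g • a = a) :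
    IsInfl2 χ.ker (cycCocycle χ a) := by
  refine ⟨?_, ?_⟩
  · intro g g' v v' hv hv'
    rw [cycCocycle_apply, cycCocycle_apply, cyc_chi_mul_ker χ g hv, cyc_chi_mul_ker χ g' hv']
  · intro g g' h _
    rw [cycCocycle_apply, smul_pow', ha]

/-- The cyclic cocycle of a norm is the coboundary of an inflated cochain. -/
theorem cycCocycle_eq_mulD1_of_norm (σ : Γ) (hσ : χ σ = Multiplicative.ofAdd 1)
    (m : M) (hm : ∀ h ∈ χ.ker, h • m = m) :
    ∃ s : Γ → M, IsInfl1 χ.ker s ∧ cycCocycle χ (cycNorm n σ m) = mulD1 s := by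
  set F : ℕ → M := fun k => σ ^ k • m with hFdef
  have hF : ∀ k, F (k + n) = F k := fun k => cyc_pow_add_card_smul hσ hm k
  have hFfix : ∀ k, ∀ h ∈ χ.ker, h • F k = F k := fun k => cyc_fixed_smul hm (σ ^ k)
  refine ⟨fun g => ∏ k ∈ Finset.range (cycExp χ g), F k, ⟨?_, ?_⟩, ?_⟩
  · intro g v hv
    show ∏ k ∈ Finset.range (cycExp χ (g * v)), F k = ∏ k ∈ Finset.range (cycExp χ g), F k
    unfold cycExp
    rw [cyc_chi_mul_ker χ g hv]
  · intro g h hh
    show h • ∏ k ∈ Finset.range (cycExp χ g), F k = ∏ k ∈ Finset.range (cycExp χ g), F k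
    rw [Finset.smul_prod']
    exact Finset.prod_congr rfl fun k _ => hFfix k h hh
  · funext ⟨g, h⟩
    rw [cycCocycle_apply, mulD1_apply]
    show cycNorm n σ m ^ _ = g • (∏ k ∈ Finset.range (cycExp χ h), F k) /
      (∏ k ∈ Finset.range (cycExp χ (g * h)), F k) * ∏ k ∈ Finset.range (cycExp χ g), F k
    have h1 : g • (∏ k ∈ Finset.range (cycExp χ h), F k) =
        ∏ k ∈ Finset.range (cycExp χ h), F (cycExp χ g + k) := by
      rw [Finset.smul_prod']
      refine Finset.prod_congr rfl fun k _ => ?_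
      rw [cyc_smul_eq hσ (hFfix k) g]
      show σ ^ cycExp χ g • σ ^ k • m = σ ^ (cycExp χ g + k) • m
      rw [pow_add, mul_smul]
    have h2 : (∏ k ∈ Finset.range (cycExp χ g), F k) *
        ∏ k ∈ Finset.range (cycExp χ h), F (cycExp χ g + k) =
        ∏ k ∈ Finset.range (cycExp χ g + cycExp χ h), F k := (Finset.prod_range_add _ _ _).symm
    have h3 := cyc_prod_periodic F hF (cycExp χ (g * h))
      (carry (Multiplicative.toAdd (χ g)) (Multiplicative.toAdd (χ h)))
    rw [cycExp_mul, ← h2] at h3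
    have h4 : g • (∏ k ∈ Finset.range (cycExp χ h), F k) /
        (∏ k ∈ Finset.range (cycExp χ (g * h)), F k) * ∏ k ∈ Finset.range (cycExp χ g), F k =
        ((∏ k ∈ Finset.range (cycExp χ g), F k) *
          g • (∏ k ∈ Finset.range (cycExp χ h), F k)) /
          ∏ k ∈ Finset.range (cycExp χ (g * h)), F k := by
      rw [div_mul_eq_mul_div, mul_comm]
    rw [h4, h1, h3, mul_div_cancel_left]
    rfl

/-- If the cyclic cocycle of `a` is the coboundary of an inflated cochain, `a` is a norm. -/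
theorem norm_of_cycCocycle_eq_mulD1 (σ : Γ) (hσ : χ σ = Multiplicative.ofAdd 1)
    (a : M) (ha : ∀ g : Γ, g • a = a) (s : Γ → M) (hs : IsInfl1 χ.ker s)
    (h : cycCocycle χ a = mulD1 s) :
    ∃ m : M, (∀ h ∈ χ.ker, h • m = m) ∧ a = cycNorm n σ m := by
  have hn : 0 < n := Nat.pos_of_ne_zero (NeZero.ne n)
  rcases Nat.lt_or_ge 1 n with h1n | h1n
  swap
  · -- `n = 1`
    have hn1 : n = 1 := by omega
    subst hn1
    refine ⟨a, fun h _ => ha h, ?_⟩
    simp [cycNorm]
  -- `n ≥ 2`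
  have heq : ∀ g g' : Γ, a ^ carry (Multiplicative.toAdd (χ g)) (Multiplicative.toAdd (χ g')) =
      g • s g' / s (g * g') * s g := fun g g' => by
    rw [← cycCocycle_apply, h, mulD1_apply]
  have hs1 : s 1 = 1 := by
    have := heq 1 1
    rw [map_one, toAdd_one, carry_zero_zero, pow_zero, one_smul, mul_one, div_self'] at this
    rw [one_mul] at this
    exact this.symm
  have hmfix : ∀ h ∈ χ.ker, h • s σ = s σ := fun h hh => hs.2 σ h hh
  set F : ℕ → M := fun k => σ ^ k • s σ with hFdef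
  have hcarry : ∀ i : ℕ, carry (Multiplicative.toAdd (χ (σ ^ i))) (Multiplicative.toAdd (χ σ)) +
      i / n = (i + 1) / n := by
    intro i
    unfold carry
    rw [cyc_chi_pow hσ, hσ, toAdd_ofAdd, ZMod.val_natCast]
    have : Fact (1 < n) := ⟨h1n⟩
    rw [ZMod.val_one]
    have h1 : (i % n + 1) / n + i / n = (i % n + 1 + n * (i / n)) / n := by
      rw [Nat.add_mul_div_left _ _ hn]
    rw [h1]
    congr 1
    have := Nat.mod_add_div i n
    omega
  have hT : ∀ i : ℕ, s (σ ^ i) * a ^ (i / n) = ∏ k ∈ Finset.range i, F k := by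
    intro i
    induction i with
    | zero => simp [hs1]
    | succ i ih =>
      have h2 := heq (σ ^ i) σ
      rw [← pow_succ] at h2
      rw [Finset.prod_range_succ, ← ih, ← hcarry i, pow_add a, h2]
      show s (σ ^ (i + 1)) * ((σ ^ i • s σ / s (σ ^ (i + 1)) * s (σ ^ i)) * a ^ (i / n)) =
        s (σ ^ i) * a ^ (i / n) * (σ ^ i • s σ)
      have h3 : s (σ ^ (i + 1)) * ((σ ^ i • s σ / s (σ ^ (i + 1)) * s (σ ^ i)) * a ^ (i / n)) =
          (s (σ ^ (i + 1)) / s (σ ^ (i + 1))) * (s (σ ^ i) * a ^ (i / n) * (σ ^ i • s σ)) := by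
        simp only [div_eq_mul_inv]
        ac_rfl
      rw [h3, div_self', one_mul]
  refine ⟨s σ, hmfix, ?_⟩
  have h4 := hT n
  rw [Nat.div_self hn, pow_one] at h4
  have h5 : s (σ ^ n) = 1 := by
    have := hs.1 1 (σ ^ n) (cyc_pow_card_mem_ker hσ)
    rw [one_mul] at this
    rw [this, hs1]
  rw [h5, one_mul] at h4
  exact h4

/-- **Normal form**: every 2-cocycle inflated from the cyclic quotient is a cyclic cocycle times
the coboundary of an inflated cochain. -/
theorem exists_cycCocycle_mul_mulD1 (σ : Γ) (hσ : χ σ = Multiplicative.ofAdd 1)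
    (c : Γ × Γ → M) (hc : IsMulCocycle₂ c) (hinf : IsInfl2 χ.ker c) :
    ∃ (a : M) (s : Γ → M), (∀ g : Γ, g • a = a) ∧ IsInfl1 χ.ker s ∧
      c = cycCocycle χ a * mulD1 s := by
  have hn : 0 < n := Nat.pos_of_ne_zero (NeZero.ne n)
  set e : M := c (1, 1) with he
  have hc1 : ∀ g : Γ, c (g, 1) = g • e := by
    intro g
    have := hc g 1 1
    rw [mul_one, mul_one] at this
    exact mul_right_cancel this
  set f : ℕ → M := fun k => c (σ ^ k, σ) with hf
  have hfper : ∀ k, f (k + n) = f k := by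
    intro k
    show c (σ ^ (k + n), σ) = c (σ ^ k, σ)
    have := hinf.1 (σ ^ k) σ (σ ^ n) 1 (cyc_pow_card_mem_ker hσ) (one_mem _)
    rw [mul_one, ← pow_add] at this
    exact this
  have hffix : ∀ k, ∀ h ∈ χ.ker, h • f k = f k := fun k h hh => hinf.2 _ _ h hh
  have hefix : ∀ h ∈ χ.ker, h • e = e := fun h hh => hinf.2 _ _ h hh
  set P : ℕ → M := fun i => ∏ k ∈ Finset.range i, f k with hP
  have hPfix : ∀ i, ∀ h ∈ χ.ker, h • P i = P i := by
    intro i h hh
    show h • ∏ k ∈ Finset.range i, f k = ∏ k ∈ Finset.range i, f k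
    rw [Finset.smul_prod']
    exact Finset.prod_congr rfl fun k _ => hffix k h hh
  have hPsucc : ∀ i, P (i + 1) = P i * f i := fun i => Finset.prod_range_succ _ _
  -- the key formula
  have star : ∀ i j : ℕ, c (σ ^ i, σ ^ j) * σ ^ i • P j * P i = σ ^ i • e * P (i + j) := by
    intro i j
    induction j with
    | zero =>
      have hP0 : P 0 = 1 := Finset.prod_range_zero _
      rw [pow_zero, hc1, hP0, smul_one, mul_one, add_zero]
    | succ j ih =>
      have h1 := hc (σ ^ i) (σ ^ j) σ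
      rw [← pow_add, ← pow_succ] at h1
      rw [hPsucc j, smul_mul', ← add_assoc, hPsucc (i + j)]
      exact cyc_aux_mul2 _ _ _ _ _ _ _ _ ih h1
  have hPper : ∀ r cr : ℕ, P (r + n * cr) = P r * P n ^ cr := fun r cr =>
    cyc_prod_periodic f hfper r cr
  -- `a = P n` is fixed
  have hafix_ker : ∀ h ∈ χ.ker, h • P n = P n := hPfix n
  have hafix_σ : σ • P n = P n := by
    have h1 := star 1 n
    have h2 : c (σ ^ 1, σ ^ n) = σ ^ 1 • e := by
      have := hinf.1 (σ ^ 1) 1 1 (σ ^ n) (one_mem _) (cyc_pow_card_mem_ker hσ)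
      rw [mul_one, one_mul] at this
      rw [this, hc1]
    have h3 := hPper 1 1
    rw [mul_one, pow_one] at h3
    rw [h2, h3, pow_one] at h1
    -- σ • e * σ • P n * P 1 = σ • e * (P 1 * P n)
    have h4 : σ • e * (σ • P n * P 1) = σ • e * (P n * P 1) := by
      rw [← mul_assoc, h1, mul_comm (P 1)]
    exact mul_right_cancel (mul_left_cancel h4)
  have hafix_pow : ∀ k : ℕ, σ ^ k • P n = P n := by
    intro k
    induction k with
    | zero => simp
    | succ k ih => rw [pow_succ, mul_smul, hafix_σ, ih]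
  have hafix : ∀ g : Γ, g • P n = P n := fun g => by
    rw [cyc_smul_eq hσ hafix_ker g, hafix_pow]
  refine ⟨P n, fun g => e / P (cycExp χ g), hafix, ⟨?_, ?_⟩, ?_⟩
  · intro g v hv
    show e / P (cycExp χ (g * v)) = e / P (cycExp χ g)
    unfold cycExp
    rw [cyc_chi_mul_ker χ g hv]
  · intro g h hh
    show h • (e / P (cycExp χ g)) = e / P (cycExp χ g)
    rw [smul_div', hefix h hh, hPfix _ h hh]
  · funext ⟨g, h⟩
    rw [Pi.mul_apply, cycCocycle_apply, mulD1_apply]
    show c (g, h) = P n ^ carry (Multiplicative.toAdd (χ g)) (Multiplicative.toAdd (χ h)) *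
      (g • (e / P (cycExp χ h)) / (e / P (cycExp χ (g * h))) * (e / P (cycExp χ g)))
    have hsfix : ∀ h' ∈ χ.ker, h' • (e / P (cycExp χ h)) = e / P (cycExp χ h) := by
      intro h' hh'
      rw [smul_div', hefix h' hh', hPfix _ h' hh']
    have h1 : c (g, h) = c (σ ^ cycExp χ g, σ ^ cycExp χ h) := by
      have := hinf.1 (σ ^ cycExp χ g) (σ ^ cycExp χ h) _ _ (cyc_decomp hσ g) (cyc_decomp hσ h)
      rw [mul_inv_cancel_left, mul_inv_cancel_left] at this
      exact this
    have h2 := star (cycExp χ g) (cycExp χ h)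
    rw [← cycExp_mul χ g h, hPper, ← h1] at h2
    rw [cyc_smul_eq hσ hsfix g, smul_div']
    exact cyc_aux_mul _ _ _ _ _ _ _ h2

end Fermat.Agent.F4.Loc
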