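import Fermat.Agent.F4.Loc.LocalGal
import Fermat.Agent.F4.Loc.Base
import Fermat.Agent.F4.Loc.KummerFin

/-!
# F4 / Loc / CycloA : a local field contains finitely many `p`-power roots of unity (seat CYCLO-A)

`exists_bound_pPow_roots_aux` is the statement of `exists_bound_pPow_roots` (`Cyclo.lean`).
-/

set_option autoImplicit false

open scoped NNReal

namespace Fermat.Agent.F4.Loc

section Abstract

variable {E : Type*} [Field E] {Γ₀ : Type*} [LinearOrderedCommGroupWithZero Γ₀]
  (v : Valuation E Γ₀)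

/-- A root of unity has valuation one. -/
lemma cycloA_val_eq_one {η : E} {m : ℕ} (hm : m ≠ 0) (h : η ^ m = 1) : v η = 1 := by
  have h1 : v η ^ m = 1 := by rw [← map_pow, h, map_one]
  exact (pow_eq_one_iff_of_nonneg zero_le hm).1 h1

/-- Geometric sums of an integral element are integral. -/
lemma cycloA_val_geom_le {η : E} (hη : v η ≤ 1) (m : ℕ) :
    v (∑ i ∈ Finset.range m, η ^ i) ≤ 1 := by
  refine v.map_sum_le fun i _ => ?_
  rw [map_pow]
  exact pow_le_one₀ zero_le hη

/-- `v (η ^ m - 1) ≤ v (η - 1)` for integral `η`. -/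
lemma cycloA_val_pow_sub_one_le {η : E} (hη : v η ≤ 1) (m : ℕ) :
    v (η ^ m - 1) ≤ v (η - 1) := by
  have h : η ^ m - 1 = (∑ i ∈ Finset.range m, η ^ i) * (η - 1) := (geom_sum_mul η m).symm
  rw [h, map_mul]
  calc v (∑ i ∈ Finset.range m, η ^ i) * v (η - 1) ≤ 1 * v (η - 1) := by
        gcongr
        exact cycloA_val_geom_le v hη m
    _ = v (η - 1) := one_mul _

/-- A nontrivial `p`-th root of unity `η` has `v p ≤ v (η - 1)`. -/
lemma cycloA_val_p_le_of_pow_eq_one {p : ℕ} (hp : p ≠ 0) {η : E} (h : η ^ p = 1) (h1 : η ≠ 1) :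
    v (p : E) ≤ v (η - 1) := by
  have hη : v η ≤ 1 := (cycloA_val_eq_one v hp h).le
  have hsum : ∑ i ∈ Finset.range p, η ^ i = 0 := by
    have h2 : (∑ i ∈ Finset.range p, η ^ i) * (η - 1) = 0 := by rw [geom_sum_mul, h, sub_self]
    exact (mul_eq_zero.1 h2).resolve_right (sub_ne_zero.2 h1)
  have hp' : (p : E) = -∑ i ∈ Finset.range p, (η ^ i - 1) := by
    rw [Finset.sum_sub_distrib, hsum]
    simp
  rw [hp', Valuation.map_neg]
  refine v.map_sum_le fun i _ => ?_
  exact cycloA_val_pow_sub_one_le v hη i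

/-- A nontrivial `p`-power root of unity `η` has `v p ≤ v (η - 1)`. -/
lemma cycloA_val_p_le {p : ℕ} (hp : p.Prime) {η : E} (j : ℕ) (h : η ^ (p ^ j) = 1) (h1 : η ≠ 1) :
    v (p : E) ≤ v (η - 1) := by
  induction j generalizing η with
  | zero => exact absurd (by simpa using h) h1
  | succ j ih =>
    by_cases h2 : η ^ p = 1
    · exact cycloA_val_p_le_of_pow_eq_one v hp.ne_zero h2 h1
    · have h3 : (η ^ p) ^ (p ^ j) = 1 := by rw [← pow_mul, ← pow_succ', h]
      have hη : v η ≤ 1 := (cycloA_val_eq_one v (pow_ne_zero _ hp.ne_zero) h).le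
      exact (ih h3 h2).trans (cycloA_val_pow_sub_one_le v hη p)

/-- In a local field of characteristic zero the `p`-power roots of unity are finite in number. -/
lemma cycloA_finite [CharZero E] (hv : IsLocalVal v) {p : ℕ} (hp : p.Prime) :
    {z : E | ∃ j : ℕ, z ^ (p ^ j) = 1}.Finite := by
  classical
  have hp0 : (p : E) ≠ 0 := Nat.cast_ne_zero.2 hp.ne_zero
  obtain ⟨R, hR⟩ := finite_units_mod_close v hv (p : E) hp0
  have hval : ∀ z : E, (∃ j : ℕ, z ^ (p ^ j) = 1) → v z = 1 := by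
    rintro z ⟨j, hj⟩
    exact cycloA_val_eq_one v (pow_ne_zero _ hp.ne_zero) hj
  have hpv : v (p : E) ≤ 1 := val_natCast_le_one v p
  choose! r hrR hr0 hr using hR
  refine Set.Finite.of_injOn (f := r) (t := (R : Set E)) (fun z hz => hrR z (hval z hz))
    ?_ R.finite_toSet
  intro z hz z' hz' hzz'
  by_contra hne
  have hz1 := hr z (hval z hz)
  have hz1' := hr z' (hval z' hz')
  rw [← hzz'] at hz1'
  have hr0' : r z ≠ 0 := hr0 z (hval z hz)
  have hz0 : z ≠ 0 := fun h => by
    have := hval z hz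
    rw [h, map_zero] at this
    exact zero_ne_one this
  have hz0' : z' ≠ 0 := fun h => by
    have := hval z' hz'
    rw [h, map_zero] at this
    exact zero_ne_one this
  -- the quotient `z / z'` is a nontrivial `p`-power root of unity
  obtain ⟨j, hj⟩ := hz
  obtain ⟨j', hj'⟩ := hz'
  have hq : (z / z') ^ (p ^ (j + j')) = 1 := by
    rw [div_pow, pow_add, pow_mul, hj, one_pow, mul_comm, pow_mul, hj', one_pow, div_one]
  have hq1 : z / z' ≠ 1 := fun h => hne (by rwa [div_eq_one_iff_eq hz0'] at h)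
  have hle := cycloA_val_p_le v hp (j + j') hq hq1
  -- but `z / z'` is close to `1`
  have hkey : z / z' - 1 = ((z / r z - 1) - (z' / r z - 1)) / (z' / r z) := by
    field_simp
    ring
  have hv' : v (z' / r z) = 1 := by
    rw [map_div₀, hval z' ⟨j', hj'⟩]
    have h1 : v (z / r z) = 1 := by
      have h2 : v (z / r z - 1) < 1 := lt_of_lt_of_le hz1 hpv
      have h3 := Valuation.map_one_add_of_lt (v := v) h2
      rwa [add_sub_cancel] at h3
    rw [map_div₀, hval z ⟨j, hj⟩] at h1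
    rw [one_div] at h1 ⊢
    exact h1
  have hlt : v (z / z' - 1) < v (p : E) := by
    rw [hkey, map_div₀, hv', div_one]
    exact lt_of_le_of_lt (v.map_sub _ _) (max_lt hz1 hz1')
  exact absurd hle (not_le.2 hlt)

/-- A bound for the exponents of the `p`-power roots of unity of a local field. -/
lemma cycloA_bound [CharZero E] (hv : IsLocalVal v) {p : ℕ} (hp : p.Prime) :
    ∃ k : ℕ, ∀ z : E, (∃ j : ℕ, z ^ (p ^ j) = 1) → z ^ (p ^ k) = 1 := by
  classical
  have hfin := cycloA_finite v hv hp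
  choose! J hJ using fun (z : E) (hz : ∃ j : ℕ, z ^ (p ^ j) = 1) => hz
  refine ⟨hfin.toFinset.sup J, fun z hz => ?_⟩
  have hle : J z ≤ hfin.toFinset.sup J :=
    Finset.le_sup (f := J) ((Set.Finite.mem_toFinset hfin).2 hz)
  obtain ⟨d, hd⟩ := Nat.exists_eq_add_of_le hle
  rw [hd, pow_add, pow_mul, hJ z hz, one_pow]

end Abstract

variable {q : ℕ} [Fact q.Prime]
variable {Γ : Type} [Group Γ] [MulSemiringAction Γ (PadicAlgCl q)]
  [MulDistribMulAction Γ (PadicAlgCl q)ˣ]

/-- **CYCLO-A.**  The fixed field of a local Galois group contains only finitely many `p`-power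
roots of unity: they are all killed by one `p ^ k`. -/
theorem exists_bound_pPow_roots_aux (hΓ : IsLocalGal q Γ) (p : ℕ) [Fact p.Prime] :
    ∃ k : ℕ, ∀ ζ : PadicAlgCl q, (∃ j : ℕ, ζ ^ (p ^ j) = 1) → (∀ γ : Γ, γ • ζ = ζ) →
      ζ ^ (p ^ k) = 1 := by
  obtain ⟨-, E, e, hfin, he⟩ := hΓ
  obtain ⟨k, hk⟩ := cycloA_bound (resVal E (padicVal q)) (padicVal_isLocalVal q E)
    (Fact.out : p.Prime)
  refine ⟨k, fun ζ hζ hfix => ?_⟩
  have hmem : ζ ∈ E := by
    rw [← InfiniteGalois.fixedField_fixingSubgroup E, IntermediateField.mem_fixedField_iff]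
    intro σ hσ
    have h1 := hfix (e.symm ⟨σ, hσ⟩)
    rw [he, e.apply_symm_apply] at h1
    exact h1
  obtain ⟨j, hj⟩ := hζ
  have h2 := hk ⟨ζ, hmem⟩ ⟨j, Subtype.ext (by simpa using hj)⟩
  simpa using congrArg Subtype.val h2

end Fermat.Agent.F4.Loc
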