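import Fermat.Agent.F4.Loc.LocalGal
import Fermat.Agent.F4.Loc.CycloA

/-!
# F4 / Loc / CYCLO-B (helper90): a cyclotomic character of order `p` on a local Galois group

`cycloB_main` : from CYCLO-A for the open subgroups of `Γ` (hypothesis `hA`), there are `k` and a
surjective `χ : Γ →* ℤ/p` with open kernel, trivial on the stabiliser of `μ_{p^k}`.

Proof.  `η` a primitive `p`-th root of unity, `Γ₁` its stabiliser, `k₀` the bound of CYCLO-A for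
`Γ₁`, `k = k₀ + 1`, `ζ` a primitive `p^k`-th root of unity, `ψ : Γ → (ℤ/p^k)ˣ` the action on `ζ`.
For `γ ∈ Γ₁`: `ψ γ ≡ 1 mod p`, so `(ψ γ)^(p^k₀) = 1`.  If `p ∤ #im ψ` then `ψ γ = 1` for
`γ ∈ Γ₁`, i.e. `Γ₁` fixes `ζ`, against CYCLO-A.  So `p ∣ #im ψ`, and a finite abelian group of
order divisible by `p` surjects onto `ℤ/p`.
-/

set_option autoImplicit false
set_option linter.style.haveILetI false
set_option linter.unusedSectionVars false

namespace Fermat.Agent.F4.Loc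

/-- a finite abelian group of order divisible by `p` surjects onto `ℤ/p`. -/
theorem cycloB_exists_surj_zmod (G : Type*) [CommGroup G] [Finite G] (p : ℕ) [Fact p.Prime]
    (hp : p ∣ Nat.card G) : ∃ f : G →* Multiplicative (ZMod p), Function.Surjective f := by
  classical
  obtain ⟨ι, _, n, hn, ⟨e⟩⟩ := CommGroup.equiv_prod_multiplicative_zmod_of_finite G
  have hcard : Nat.card G = ∏ i, n i := by
    rw [Nat.card_congr e.toEquiv, Nat.card_pi]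
    refine Finset.prod_congr rfl fun i _ => ?_
    rw [Nat.card_congr Multiplicative.toAdd, Nat.card_zmod]
  rw [hcard] at hp
  obtain ⟨i, -, hi⟩ := (Prime.dvd_finsetProd_iff (Nat.Prime.prime Fact.out) _).mp hp
  let π : ((i : ι) → Multiplicative (ZMod (n i))) →* Multiplicative (ZMod (n i)) :=
    Pi.evalMonoidHom _ i
  let c : Multiplicative (ZMod (n i)) →* Multiplicative (ZMod p) :=
    AddMonoidHom.toMultiplicative (ZMod.castHom hi (ZMod p)).toAddMonoidHom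
  refine ⟨c.comp (π.comp e.toMonoidHom), ?_⟩
  intro y
  obtain ⟨x, hx⟩ := ZMod.ringHom_surjective (ZMod.castHom hi (ZMod p)) (Multiplicative.toAdd y)
  refine ⟨e.symm (Pi.mulSingle i (Multiplicative.ofAdd x)), ?_⟩
  simp only [MonoidHom.comp_apply, MulEquiv.coe_toMonoidHom, MulEquiv.apply_symm_apply, π, c,
    Pi.evalMonoidHom_apply, Pi.mulSingle_eq_same]
  exact congrArg Multiplicative.ofAdd hx

variable {q : ℕ} [Fact q.Prime]
variable {Γ : Type} [Group Γ] [MulSemiringAction Γ (PadicAlgCl q)]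
  [MulDistribMulAction Γ (PadicAlgCl q)ˣ]

/-- the action of a local Galois group as a hom to `LG q`. -/
theorem cycloB_exists_hom (hΓ : IsLocalGal q Γ) :
    ∃ ρ : Γ →* LG q, ∀ (γ : Γ) (x : PadicAlgCl q), γ • x = ρ γ x := by
  obtain ⟨-, E, e, -, he⟩ := hΓ
  exact ⟨(E.fixingSubgroup.subtype).comp e.toMonoidHom, fun γ x => he γ x⟩

/-- `a ≡ 1 mod p` implies `a ^ (p ^ k₀) = 1` in `ℤ / p ^ (k₀ + 1)`. -/
theorem cycloB_pow_eq_one {p k₀ a : ℕ} (ha : a ≡ 1 [MOD p]) :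
    ((a : ZMod (p ^ (k₀ + 1))) ^ (p ^ k₀)) = 1 := by
  have h1 : (p : ℤ) ∣ (1 : ℤ) - (a : ℤ) := by
    have := (Nat.modEq_iff_dvd).mp ha
    simpa using this
  have h2 : (p : ZMod (p ^ (k₀ + 1))) ∣ (a : ZMod (p ^ (k₀ + 1))) - 1 := by
    obtain ⟨t, ht⟩ := h1
    refine ⟨-(t : ZMod (p ^ (k₀ + 1))), ?_⟩
    have := congrArg (fun z : ℤ => (z : ZMod (p ^ (k₀ + 1)))) ht
    simp only [Int.cast_sub, Int.cast_one, Int.cast_natCast, Int.cast_mul] at this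
    rw [mul_neg, ← this]
    ring
  have h3 := dvd_sub_pow_of_dvd_sub h2 k₀
  have h4 : ((p : ZMod (p ^ (k₀ + 1))) ^ (k₀ + 1)) = 0 := by
    rw [← Nat.cast_pow]
    exact ZMod.natCast_self _
  rw [h4, zero_dvd_iff, one_pow, sub_eq_zero] at h3
  exact h3

/-- **CYCLO-B** from CYCLO-A for the open subgroups. -/
theorem cycloB_main (hΓ : IsLocalGal q Γ) (p : ℕ) [Fact p.Prime]
    (hA : ∀ H : Subgroup Γ, IsOpenSub q H → ∃ k : ℕ, ∀ ζ : PadicAlgCl q,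
      (∃ j : ℕ, ζ ^ (p ^ j) = 1) → (∀ γ ∈ H, γ • ζ = ζ) → ζ ^ (p ^ k) = 1) :
    ∃ (k : ℕ) (χ : Γ →* Multiplicative (ZMod p)), Function.Surjective χ ∧ IsOpenSub q χ.ker ∧
      ∀ γ : Γ, (∀ ζ : PadicAlgCl q, ζ ^ (p ^ k) = 1 → γ • ζ = ζ) → χ γ = 1 := by
  classical
  have hp : p.Prime := Fact.out
  obtain ⟨ρ, hρ⟩ := cycloB_exists_hom hΓ
  haveI : CharZero (PadicAlgCl q) :=
    charZero_of_injective_algebraMap (algebraMap ℚ_[q] (PadicAlgCl q)).injective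
  haveI hne : ∀ n : ℕ, NeZero ((p ^ n : ℕ) : PadicAlgCl q) := fun n =>
    ⟨by exact_mod_cast (pow_pos hp.pos n).ne'⟩
  obtain ⟨η, hη⟩ := HasEnoughRootsOfUnity.exists_primitiveRoot (PadicAlgCl q) (p ^ 1)
  rw [pow_one] at hη
  obtain ⟨k₀, hk₀⟩ := hA (lgbStab {η}) (lgb_isOpenSub_stab _)
  obtain ⟨ζ, hζ⟩ := HasEnoughRootsOfUnity.exists_primitiveRoot (PadicAlgCl q) (p ^ (k₀ + 1))
  haveI : NeZero (p ^ (k₀ + 1)) := ⟨(pow_pos hp.pos _).ne'⟩
  haveI : NeZero p := ⟨hp.pos.ne'⟩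
  have h1lt : 1 < p ^ (k₀ + 1) := Nat.one_lt_pow (Nat.succ_ne_zero _) hp.one_lt
  haveI : Fact (1 < p ^ (k₀ + 1)) := ⟨h1lt⟩
  let ψ : Γ →* (ZMod (p ^ (k₀ + 1)))ˣ := (hζ.autToPow ℚ_[q]).comp ρ
  have hψ : ∀ γ : Γ, ζ ^ ((ψ γ : ZMod (p ^ (k₀ + 1))).val) = γ • ζ := fun γ => by
    rw [hρ]
    exact hζ.autToPow_spec ℚ_[q] (ρ γ)
  have hfin : IsOfFinOrder ζ :=
    isOfFinOrder_iff_pow_eq_one.mpr ⟨p ^ (k₀ + 1), pow_pos hp.pos _, hζ.pow_eq_one⟩
  have hord : orderOf ζ = p ^ (k₀ + 1) := hζ.eq_orderOf.symm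
  have hfix : ∀ γ : Γ, ψ γ = 1 ↔ γ • ζ = ζ := by
    intro γ
    constructor
    · intro h
      rw [← hψ γ, h, Units.val_one, ZMod.val_one, pow_one]
    · intro h
      have h2 : ζ ^ ((ψ γ : ZMod (p ^ (k₀ + 1))).val) = ζ ^ 1 := by rw [hψ, h, pow_one]
      have h3 := hζ.pow_inj (ZMod.val_lt _) h1lt h2
      apply Units.ext
      rw [Units.val_one, ← ZMod.natCast_zmod_val (ψ γ : ZMod (p ^ (k₀ + 1))), h3, Nat.cast_one]
  -- elements of `Γ₁` act through units `≡ 1 mod p`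
  have hpow : ∀ γ ∈ lgbStab (Γ := Γ) {η}, (ψ γ) ^ (p ^ k₀) = 1 := by
    intro γ hγ
    have hγη : γ • η = η := hγ η (Finset.mem_singleton_self η)
    set a := (ψ γ : ZMod (p ^ (k₀ + 1))).val with ha
    have hξ : (ζ ^ (p ^ k₀)) ^ p = 1 := by
      rw [← pow_mul, ← pow_succ]
      exact hζ.pow_eq_one
    obtain ⟨j, -, hj⟩ := hη.eq_pow_of_pow_eq_one hξ
    have h1 : γ • (ζ ^ (p ^ k₀)) = ζ ^ (p ^ k₀) := by
      rw [← hj, smul_pow', hγη]
    have h2 : ζ ^ (a * p ^ k₀) = ζ ^ (1 * p ^ k₀) := by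
      rw [one_mul, pow_mul, hψ γ, ← smul_pow', h1]
    have h3 : a * p ^ k₀ ≡ 1 * p ^ k₀ [MOD p * p ^ k₀] := by
      have := hfin.pow_eq_pow_iff_modEq.mp h2
      rwa [hord, pow_succ'] at this
    have h4 : a ≡ 1 [MOD p] := Nat.ModEq.mul_right_cancel' (pow_pos hp.pos _).ne' h3
    have h5 := cycloB_pow_eq_one (k₀ := k₀) h4
    apply Units.ext
    rw [Units.val_pow_eq_pow_val, Units.val_one, ← h5, ha, ZMod.natCast_zmod_val]
  -- `p` divides the order of the image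
  have hdiv : p ∣ Nat.card ψ.range := by
    by_contra hnd
    have hcop : Nat.Coprime (p ^ k₀) (Nat.card ψ.range) :=
      Nat.Coprime.pow_left _ ((Nat.Prime.coprime_iff_not_dvd hp).mpr hnd)
    have hall : ∀ γ ∈ lgbStab (Γ := Γ) {η}, γ • ζ = ζ := by
      intro γ hγ
      rw [← hfix]
      have h1 : orderOf (ψ γ) ∣ p ^ k₀ := orderOf_dvd_of_pow_eq_one (hpow γ hγ)
      have h2 : orderOf (ψ γ) ∣ Nat.card ψ.range := by
        have := orderOf_dvd_natCard (⟨ψ γ, ⟨γ, rfl⟩⟩ : ψ.range)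
        rwa [← Subgroup.orderOf_coe] at this
      have h3 : orderOf (ψ γ) ∣ 1 := by
        have := Nat.dvd_gcd h1 h2
        rwa [hcop.gcd_eq_one] at this
      exact orderOf_eq_one_iff.mp (Nat.dvd_one.mp h3)
    have h6 := hk₀ ζ ⟨k₀ + 1, hζ.pow_eq_one⟩ hall
    have h7 := (hζ.pow_eq_one_iff_dvd _).mp h6
    have h8 := Nat.le_of_dvd (pow_pos hp.pos _) h7
    have h9 : p ^ k₀ < p ^ (k₀ + 1) := Nat.pow_lt_pow_right hp.one_lt (Nat.lt_succ_self _)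
    omega
  obtain ⟨f, hf⟩ := cycloB_exists_surj_zmod ψ.range p hdiv
  refine ⟨k₀ + 1, f.comp ψ.rangeRestrict, ?_, ?_, ?_⟩
  · exact hf.comp ψ.rangeRestrict_surjective
  · refine IsOpenSub.of_le hΓ (lgb_isOpenSub_stab {ζ}) fun γ hγ => ?_
    have hγζ : γ • ζ = ζ := hγ ζ (Finset.mem_singleton_self ζ)
    have h1 : ψ γ = 1 := (hfix γ).mpr hγζ
    rw [MonoidHom.mem_ker, MonoidHom.comp_apply]
    have h2 : ψ.rangeRestrict γ = 1 := Subtype.ext h1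
    rw [h2, map_one]
  · intro γ hγ
    have hγζ : γ • ζ = ζ := hγ ζ hζ.pow_eq_one
    have h1 : ψ γ = 1 := (hfix γ).mpr hγζ
    rw [MonoidHom.comp_apply]
    have h2 : ψ.rangeRestrict γ = 1 := Subtype.ext h1
    rw [h2, map_one]

/-- **CYCLO-B**, unconditional (CYCLO-A = `exists_bound_pPow_roots_aux`, helper77). -/
theorem exists_cyclo_char_aux (hΓ : IsLocalGal q Γ) (p : ℕ) [Fact p.Prime] :
    ∃ (k : ℕ) (χ : Γ →* Multiplicative (ZMod p)), Function.Surjective χ ∧ IsOpenSub q χ.ker ∧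
      ∀ γ : Γ, (∀ ζ : PadicAlgCl q, ζ ^ (p ^ k) = 1 → γ • ζ = ζ) → χ γ = 1 := by
  refine cycloB_main hΓ p fun H hH => ?_
  obtain ⟨k, hk⟩ := exists_bound_pPow_roots_aux (hΓ.subgroup H hH) p
  exact ⟨k, fun ζ hζ hfix => hk ζ hζ fun γ => hfix γ.1 γ.2⟩

end Fermat.Agent.F4.Loc
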