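import Fermat.Agent.F4.Loc.LocalGal
import Fermat.Agent.F4.Loc.CycloA
import Fermat.Agent.F4.Loc.CycloB

/-!
# F4 / Loc / Cyclo : a cyclotomic character of order `p` on a local Galois group  (CYCLO-A proved in `CycloA.lean`, helper77; CYCLO-B proved in `CycloB.lean`, helper90)

`Γ` a local Galois group (`IsLocalGal q Γ`: `Γ` acts on `Ω = PadicAlgCl q` as `Gal(Ω/E)`, `E/ℚ_q`
finite), `p` any prime (`p = q` allowed).

CYCLO-A  `exists_bound_pPow_roots` : `E` contains only finitely many `p`-power roots of unity.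
     Proof (uniform in `p = q`, `p ≠ q`): let `v` be the valuation of `E` (`IsLocalVal`, BASE/EF),
     `π` a uniformizer (`IsLocalGal.exists_unif`).  (1) a root of unity `η ≠ 1` of order `p`
     has `v (η - 1) ≥ v p` (`1 + η + ⋯ + η^(p-1) = 0` is `≡ p` modulo `η - 1`); (2) if `η ≠ 1` is a
     `p`-power root of unity, a `p`-power `η'` of it has order `p` and `v (η' - 1) ≤ v (η - 1)`;
     (3) choose `N` with `v π ^ N < v p`; the units of `E` modulo `1 + π^N 𝒪` are finite
     (`finite_units_mod_close`, KFIN), so infinitely many `p`-power roots of unity in `E` would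
     give two, `ζ ≠ ζ'`, with `v (ζ / ζ' - 1) ≤ v π ^ N < v p`, against (1), (2).
CYCLO-B  `exists_cyclo_char` : there are `k` and a surjective character `χ : Γ ↠ ℤ/p` which is
     trivial on the stabiliser of the `p^k`-th roots of unity.
     Proof: `Γ` acts on `μ_{p^k}(Ω)` (cyclic of order `p^k`) through `ψ_k : Γ → (ℤ/p^k)^×`.
     If `p ∤ #im ψ_k` then `im ψ_k` injects into `(ℤ/p)^×` (the kernel of
     `(ℤ/p^k)^× → (ℤ/p)^×` is a `p`-group), so the stabiliser `Γ₁` of `μ_p` fixes `μ_{p^k}`;
     `Γ₁` is a local Galois group (`IsLocalGal.subgroup`), so by CYCLO-A this fails for `k` large.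
     Hence `p ∣ #im ψ_k` for some `k`; a finite abelian group of order divisible by `p` surjects
     onto `ℤ/p`; compose.  `ker χ` contains the stabiliser of `μ_{p^k}`, which is open
     (finite set), hence is open (`IsOpenSub.of_le`).

Use (SMOOTH/DATUM): `p ∈ S`, so the stabiliser of `μ_{p^k}` is (the pull-back of) an `S`-level and
`χ` is smooth for the `S`-levels; `exists_nontrivial_class` (F3) then gives a nonzero class of
order `p` in `H²` of the formation.
-/

set_option autoImplicit false

open scoped NNReal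

namespace Fermat.Agent.F4.Loc

variable {q : ℕ} [Fact q.Prime]
variable {Γ : Type} [Group Γ] [MulSemiringAction Γ (PadicAlgCl q)]
  [MulDistribMulAction Γ (PadicAlgCl q)ˣ]

/-- **CYCLO-A.**  The fixed field of a local Galois group contains only finitely many `p`-power
roots of unity: they are all killed by one `p ^ k`. -/
theorem exists_bound_pPow_roots (hΓ : IsLocalGal q Γ) (p : ℕ) [Fact p.Prime] :
    ∃ k : ℕ, ∀ ζ : PadicAlgCl q, (∃ j : ℕ, ζ ^ (p ^ j) = 1) → (∀ γ : Γ, γ • ζ = ζ) →
      ζ ^ (p ^ k) = 1 :=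
  exists_bound_pPow_roots_aux hΓ p

/-- **CYCLO-B.**  A local Galois group has a surjective character onto `ℤ/p` with open kernel
which is trivial on the stabiliser of the `p^k`-th roots of unity, for some `k`. -/
theorem exists_cyclo_char (hΓ : IsLocalGal q Γ) (p : ℕ) [Fact p.Prime] :
    ∃ (k : ℕ) (χ : Γ →* Multiplicative (ZMod p)), Function.Surjective χ ∧ IsOpenSub q χ.ker ∧
      ∀ γ : Γ, (∀ ζ : PadicAlgCl q, ζ ^ (p ^ k) = 1 → γ • ζ = ζ) → χ γ = 1 :=
  exists_cyclo_char_aux hΓ p

end Fermat.Agent.F4.Loc
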