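import Fermat.Agent.F4.Loc.LocalGal

/-!
# F4 / Loc / FTA : Hilbert 90 in subgroup form (seat FTA, proofs by helper71)

`Γ` a local Galois group acting on `Ω = PadicAlgCl q`, `W ≤ H ≤ Γ`, `W` open and normal in `Γ`.
Every 1-cocycle `t : H → Ωˣ` which is right-`W`-invariant is a coboundary.

Proof (Lagrange resolvent).  `F_c (h) := t h * h • c` is right-`W`-invariant for `W`-fixed `c`;
`b_c := ∑_{x ∈ H/W} F_c (x)` satisfies `h • b_c = (t h)⁻¹ * b_c`.  By Dedekind's independence of the
characters `c ↦ h • c` (`h` running over representatives of `H/W`; they are distinct on the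
`W`-fixed elements because `W` is closed, `IsOpenSub.mem_of_fixes`) some `b_c` is nonzero, and
`t h = h • b_c⁻¹ / b_c⁻¹`.
-/

set_option autoImplicit false
set_option linter.unusedSectionVars false
set_option linter.style.haveILetI false

open scoped NNReal
open groupCohomology

namespace Fermat.Agent.F4.Loc

variable {q : ℕ} [Fact q.Prime]
variable {Γ : Type} [Group Γ] [MulSemiringAction Γ (PadicAlgCl q)]
  [MulDistribMulAction Γ (PadicAlgCl q)ˣ]

/-- the multiplicative monoid of `W`-fixed elements. -/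
def fixedSubmonoid (W : Subgroup Γ) : Submonoid (PadicAlgCl q) where
  carrier := {x | ∀ w ∈ W, w • x = x}
  mul_mem' := fun {a b} ha hb w hw => by
    rw [smul_mul', ha w hw, hb w hw]
  one_mem' := fun w _ => smul_one w

theorem mem_fixedSubmonoid (W : Subgroup Γ) (x : PadicAlgCl q) :
    x ∈ fixedSubmonoid (q := q) W ↔ ∀ w ∈ W, w • x = x := Iff.rfl

/-- the character `c ↦ γ • c` on the `W`-fixed elements. -/
noncomputable def fixedChar (W : Subgroup Γ) (γ : Γ) : fixedSubmonoid (q := q) W →* PadicAlgCl q where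
  toFun c := γ • (c : PadicAlgCl q)
  map_one' := smul_one γ
  map_mul' a b := smul_mul' γ (a : PadicAlgCl q) (b : PadicAlgCl q)

@[simp] theorem fixedChar_apply (W : Subgroup Γ) (γ : Γ) (c : fixedSubmonoid (q := q) W) :
    fixedChar W γ c = γ • (c : PadicAlgCl q) := rfl

/-- two elements inducing the same character on the `W`-fixed elements are congruent modulo `W`
(`W` open in a local Galois group). -/
theorem inv_mul_mem_of_fixedChar_eq (hΓ : IsLocalGal q Γ) {W : Subgroup Γ} (hW : IsOpenSub q W)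
    {γ γ' : Γ} (h : fixedChar (q := q) W γ = fixedChar W γ') : γ⁻¹ * γ' ∈ W := by
  apply hW.mem_of_fixes hΓ
  intro x hx
  have h1 := DFunLike.congr_fun h ⟨x, hx⟩
  simp only [fixedChar_apply] at h1
  rw [mul_smul, ← h1, inv_smul_smul]

/-- **FTA: Hilbert 90.**  Every 1-cocycle of `H` which is right-invariant under an open normal
subgroup `W ≤ H` of `Γ` is a coboundary. -/
theorem h1Triv_of_open_aux (hΓ : IsLocalGal q Γ) (H W : Subgroup Γ) [W.Normal]
    (hW : IsOpenSub q W) (hWH : W ≤ H) : H1Triv H W (PadicAlgCl q)ˣ := by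
  classical
  intro t ht htW
  have _ := hWH
  have hcoe : ∀ (γ : Γ) (u : (PadicAlgCl q)ˣ),
      ((γ • u : (PadicAlgCl q)ˣ) : PadicAlgCl q) = γ • (u : PadicAlgCl q) := hΓ.1
  -- the quotient `H / W` is finite
  haveI : W.FiniteIndex := hW.finiteIndex hΓ
  haveI : (W.subgroupOf H).FiniteIndex := inferInstance
  haveI : Fintype (↥H ⧸ W.subgroupOf H) := Subgroup.fintypeQuotientOfFiniteIndex
  -- the cocycle relation in `Ω`
  have hcoc : ∀ h g : H, ((t (h * g) : (PadicAlgCl q)ˣ) : PadicAlgCl q) =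
      (h : Γ) • ((t g : (PadicAlgCl q)ˣ) : PadicAlgCl q) * (t h : (PadicAlgCl q)ˣ) := by
    intro h g
    have := ht h g
    rw [this, Units.val_mul]
    congr 1
    exact hcoe (h : Γ) (t g)
  -- the characters attached to the cosets are distinct
  have hinj : Function.Injective
      (fun x : ↥H ⧸ W.subgroupOf H => fixedChar (q := q) W ((x.out : H) : Γ)) := by
    intro x y hxy
    have h1 := inv_mul_mem_of_fixedChar_eq hΓ hW hxy
    have h2 : (x.out)⁻¹ * y.out ∈ W.subgroupOf H := by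
      rw [Subgroup.mem_subgroupOf]
      simpa using h1
    have h3 := QuotientGroup.eq.mpr h2
    rwa [QuotientGroup.out_eq', QuotientGroup.out_eq'] at h3
  have hli : LinearIndependent (PadicAlgCl q)
      (fun x : ↥H ⧸ W.subgroupOf H =>
        ((fixedChar (q := q) W ((x.out : H) : Γ) : fixedSubmonoid (q := q) W →* PadicAlgCl q) :
          fixedSubmonoid (q := q) W → PadicAlgCl q)) :=
    (linearIndependent_monoidHom (fixedSubmonoid (q := q) W) (PadicAlgCl q)).comp _ hinj
  -- a `W`-fixed element with nonvanishing resolvent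
  have hex : ∃ c : fixedSubmonoid (q := q) W,
      ∑ x : ↥H ⧸ W.subgroupOf H,
        ((t x.out : (PadicAlgCl q)ˣ) : PadicAlgCl q) * ((x.out : H) : Γ) • (c : PadicAlgCl q) ≠ 0 := by
    by_contra hcon
    simp only [not_exists, not_not] at hcon
    have h1 : ∑ x : ↥H ⧸ W.subgroupOf H,
        ((t x.out : (PadicAlgCl q)ˣ) : PadicAlgCl q) •
          ((fixedChar (q := q) W ((x.out : H) : Γ) : fixedSubmonoid (q := q) W →* PadicAlgCl q) :
            fixedSubmonoid (q := q) W → PadicAlgCl q) = 0 := by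
      funext c
      rw [Finset.sum_apply]
      simpa using hcon c
    have h2 := Fintype.linearIndependent_iff.mp hli _ h1 (QuotientGroup.mk 1)
    exact (t (QuotientGroup.mk (1 : H) : ↥H ⧸ W.subgroupOf H).out).ne_zero h2
  obtain ⟨c, hc⟩ := hex
  -- the function `F` and its invariance
  set F : H → PadicAlgCl q := fun g =>
    ((t g : (PadicAlgCl q)ˣ) : PadicAlgCl q) * (g : Γ) • (c : PadicAlgCl q) with hF
  have hFW : ∀ (g v : H), v ∈ W.subgroupOf H → F (g * v) = F g := by
    intro g v hv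
    rw [Subgroup.mem_subgroupOf] at hv
    show ((t (g * v) : (PadicAlgCl q)ˣ) : PadicAlgCl q) * ((g * v : H) : Γ) • (c : PadicAlgCl q) =
      ((t g : (PadicAlgCl q)ˣ) : PadicAlgCl q) * (g : Γ) • (c : PadicAlgCl q)
    rw [htW g v hv, Subgroup.coe_mul, mul_smul, c.2 _ hv]
  have hFout : ∀ g : H, F ((QuotientGroup.mk g : ↥H ⧸ W.subgroupOf H).out) = F g := by
    intro g
    obtain ⟨v, hv⟩ := QuotientGroup.mk_out_eq_mul (W.subgroupOf H) g
    rw [hv, hFW g v v.2]
  set b : PadicAlgCl q := ∑ x : ↥H ⧸ W.subgroupOf H, F x.out with hb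
  have hb0 : b ≠ 0 := hc
  -- the transformation law of the resolvent
  have hsm : ∀ h g : H, (h : Γ) • F g * ((t h : (PadicAlgCl q)ˣ) : PadicAlgCl q) = F (h * g) := by
    intro h g
    show (h : Γ) • (((t g : (PadicAlgCl q)ˣ) : PadicAlgCl q) * (g : Γ) • (c : PadicAlgCl q)) *
      ((t h : (PadicAlgCl q)ˣ) : PadicAlgCl q) =
      ((t (h * g) : (PadicAlgCl q)ˣ) : PadicAlgCl q) * ((h * g : H) : Γ) • (c : PadicAlgCl q)
    rw [smul_mul', hcoc h g, Subgroup.coe_mul, mul_smul]
    ring
  have hlaw : ∀ h : H, (h : Γ) • b * ((t h : (PadicAlgCl q)ˣ) : PadicAlgCl q) = b := by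
    intro h
    rw [hb, Finset.smul_sum, Finset.sum_mul]
    have h1 : ∀ x : ↥H ⧸ W.subgroupOf H,
        (h : Γ) • F x.out * ((t h : (PadicAlgCl q)ˣ) : PadicAlgCl q) = F ((h • x).out) := by
      intro x
      rw [hsm h x.out]
      have h2 : (h • x : ↥H ⧸ W.subgroupOf H) = QuotientGroup.mk (h * x.out) := by
        conv_lhs => rw [← QuotientGroup.out_eq' x]
        rfl
      rw [h2, hFout]
    rw [Finset.sum_congr rfl fun x _ => h1 x]
    exact Fintype.sum_equiv (MulAction.toPerm h) _ _ fun x => rfl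
  -- the coboundary
  refine ⟨(Units.mk0 b hb0)⁻¹, fun h => ?_⟩
  apply Units.ext
  have h3 : (((h • (Units.mk0 b hb0)⁻¹ / (Units.mk0 b hb0)⁻¹ : (PadicAlgCl q)ˣ)) : PadicAlgCl q) =
      ((h : Γ) • b)⁻¹ / b⁻¹ := by
    rw [Units.val_div_eq_div_val]
    congr 1
    · have : (h • (Units.mk0 b hb0)⁻¹ : (PadicAlgCl q)ˣ) = ((h : Γ) • (Units.mk0 b hb0)⁻¹) := rfl
      rw [this, hcoe, Units.val_inv_eq_inv_val, Units.val_mk0, smul_inv'']
  rw [h3]
  have h4 := hlaw h
  have h5 : (h : Γ) • b ≠ 0 := by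
    intro h0
    rw [h0, zero_mul] at h4
    exact hb0 h4.symm
  rw [inv_div_inv]
  rw [div_eq_iff h5]
  rw [mul_comm]
  exact h4.symm

end Fermat.Agent.F4.Loc
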