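import Fermat.Agent.F4.Loc.LocalGal
import Fermat.Agent.F4.Loc.NormIndex

/-!
# F4 / Loc / FTB : the norm index of a cyclic layer of prime degree, in subgroup form
(seat FTB, proofs by helper74)

`Γ` a local Galois group acting on `Ω = PadicAlgCl q` as `Gal(Ω/E)`, `χ : Γ ↠ ℤ/ℓ` with open
kernel, `χ σ = 1`.  `L := E(T)` (`T` a finite set with stabiliser `ker χ`) is Galois over `E` of
degree `ℓ`, `Gal(L/E) = {σ^i|_L : i < ℓ}` and `N_{L/E} y = ∏_{i<ℓ} σ^i y = cycNorm ℓ σ y`
(`ftb_galois`, `ftb_setup`).  The norm index theorem `norm_index_of_isLocalVal` (helper91) for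
`L/E` with the valuation `padicVal` (`Base.lean`, helper77) gives

* `exists_not_norm_aux` : some element of `E^×` is not a norm;
* `norm_index_le_aux`   : modulo norms, every element of `E^×` is a power `a ^ k`, `k < ℓ`, of any
  given non-norm `a`.
-/

set_option autoImplicit false
set_option linter.unusedSectionVars false
set_option linter.style.haveILetI false

open scoped NNReal

namespace Fermat.Agent.F4.Loc

section Abstract

variable {K Ω : Type} [Field K] [Field Ω] [Algebra K Ω] [IsGalois K Ω]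
  {ℓ : ℕ} [Fact ℓ.Prime]

/-- the powers of `σ` restricted to `L` give all of `Gal(L/K)`. -/
theorem ftb_bijective (χ : (Ω ≃ₐ[K] Ω) →* Multiplicative (ZMod ℓ))
    (L : IntermediateField K Ω) [Normal K L] (hL : L.fixingSubgroup = χ.ker)
    (σ : Ω ≃ₐ[K] Ω) (hσ : χ σ = Multiplicative.ofAdd 1) :
    Function.Bijective (fun i : Fin ℓ => (AlgEquiv.restrictNormalHom L σ) ^ (i : ℕ)) := by
  have hℓ : ℓ.Prime := Fact.out
  haveI : NeZero ℓ := ⟨hℓ.ne_zero⟩
  have hker : (AlgEquiv.restrictNormalHom (F := K) (K₁ := Ω) L).ker = χ.ker := by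
    rw [← hL, IntermediateField.restrictNormalHom_ker]
  have hχpow : ∀ i : ℕ, χ (σ ^ i) = Multiplicative.ofAdd (i : ZMod ℓ) := by
    intro i
    rw [map_pow, hσ, ← ofAdd_nsmul, nsmul_eq_mul, mul_one]
  constructor
  · intro i j hij
    simp only at hij
    rw [← map_pow, ← map_pow] at hij
    have h1 : (σ ^ (i : ℕ))⁻¹ * σ ^ (j : ℕ) ∈ χ.ker := by
      rw [← hker, MonoidHom.mem_ker, map_mul, map_inv, hij, inv_mul_cancel]
    rw [MonoidHom.mem_ker, map_mul, map_inv, hχpow, hχpow, inv_mul_eq_one] at h1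
    have h2 : ((i : ℕ) : ZMod ℓ) = ((j : ℕ) : ZMod ℓ) := Multiplicative.ofAdd.injective h1
    have h3 := (ZMod.natCast_eq_natCast_iff' _ _ _).mp h2
    rw [Nat.mod_eq_of_lt i.2, Nat.mod_eq_of_lt j.2] at h3
    exact Fin.ext h3
  · intro τ
    obtain ⟨g, rfl⟩ := AlgEquiv.restrictNormalHom_surjective Ω τ
    set c : ZMod ℓ := Multiplicative.toAdd (χ g) with hc
    refine ⟨⟨c.val, ZMod.val_lt c⟩, ?_⟩
    simp only
    rw [← map_pow]
    have h1 : (σ ^ c.val)⁻¹ * g ∈ χ.ker := by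
      rw [MonoidHom.mem_ker, map_mul, map_inv, hχpow, ZMod.natCast_zmod_val, hc, ofAdd_toAdd,
        inv_mul_cancel]
    rw [← hker, MonoidHom.mem_ker, map_mul, map_inv, inv_mul_eq_one] at h1
    exact h1

theorem ftb_galois (χ : (Ω ≃ₐ[K] Ω) →* Multiplicative (ZMod ℓ))
    (L : IntermediateField K Ω) [FiniteDimensional K L] (hL : L.fixingSubgroup = χ.ker)
    (σ : Ω ≃ₐ[K] Ω) (hσ : χ σ = Multiplicative.ofAdd 1) :
    ∃ _ : IsGalois K L, Module.finrank K L = ℓ ∧
      ∀ y : L, algebraMap K Ω (Algebra.norm K y) = ∏ i ∈ Finset.range ℓ, (σ ^ i) (y : Ω) := by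
  have hnorm : L.fixingSubgroup.Normal := by
    rw [hL]
    infer_instance
  haveI hgal : IsGalois K L := (InfiniteGalois.normal_iff_isGalois L).mp hnorm
  have hbij := ftb_bijective χ L hL σ hσ
  refine ⟨hgal, ?_, ?_⟩
  · rw [← IsGalois.card_aut_eq_finrank, ← Nat.card_eq_of_bijective _ hbij, Nat.card_fin]
  · intro y
    have h1 := Algebra.norm_eq_prod_automorphisms K y
    have h2 : algebraMap K Ω (Algebra.norm K y) =
        algebraMap L Ω (algebraMap K L (Algebra.norm K y)) := rfl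
    rw [h2, h1, map_prod, ← Fintype.prod_bijective _ hbij
      (fun i : Fin ℓ => algebraMap L Ω ((AlgEquiv.restrictNormalHom L σ ^ (i : ℕ)) y))
      (fun τ => algebraMap L Ω (τ y)) (fun _ => rfl),
      Fin.prod_univ_eq_prod_range
        (fun i : ℕ => algebraMap L Ω ((AlgEquiv.restrictNormalHom L σ ^ i) y)) ℓ]
    refine Finset.prod_congr rfl fun i _ => ?_
    rw [← map_pow]
    exact AlgEquiv.restrictNormal_commutes (σ ^ i) L y

end Abstract

section Concrete

variable {q : ℕ} [Fact q.Prime]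
variable {Γ : Type} [Group Γ] [MulSemiringAction Γ (PadicAlgCl q)]
  [MulDistribMulAction Γ (PadicAlgCl q)ˣ]

/-- The finite cyclic layer `L / E` cut out by `χ`, with all the properties needed for the
norm index theorem. -/
theorem ftb_setup (hΓ : IsLocalGal q Γ) {ℓ : ℕ} [Fact ℓ.Prime]
    (χ : Γ →* Multiplicative (ZMod ℓ)) (hker : IsOpenSub q χ.ker)
    (σ : Γ) (hσ : χ σ = Multiplicative.ofAdd 1) :
    ∃ (E : IntermediateField ℚ_[q] (PadicAlgCl q)) (L : IntermediateField E (PadicAlgCl q))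
      (_ : FiniteDimensional E L) (_ : IsGalois E L),
      Module.finrank E L = ℓ ∧
      (∀ x : PadicAlgCl q, x ∈ Set.range (algebraMap E (PadicAlgCl q)) ↔
        IsFixedBy (⊤ : Subgroup Γ) x) ∧
      (∀ x : PadicAlgCl q, x ∈ L ↔ IsFixedBy χ.ker x) ∧
      (∀ y : L, algebraMap E (PadicAlgCl q) (Algebra.norm E y) =
        ∏ i ∈ Finset.range ℓ, (σ ^ i) • (y : PadicAlgCl q)) ∧
      IsInvVal E ((padicVal q).comap (algebraMap L (PadicAlgCl q))) ∧
      IsLocalVal (resVal E ((padicVal q).comap (algebraMap L (PadicAlgCl q)))) := by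
  obtain ⟨-, E, e, hfin, hact⟩ := hΓ
  set φ : Γ ≃* (PadicAlgCl q ≃ₐ[E] PadicAlgCl q) :=
    e.trans (IntermediateField.fixingSubgroupEquiv E) with hφdef
  have hφ : ∀ (γ : Γ) (x : PadicAlgCl q), φ γ x = γ • x := by
    intro γ x
    rw [hact]
    rfl
  have hφs : ∀ (g : PadicAlgCl q ≃ₐ[E] PadicAlgCl q) (x : PadicAlgCl q),
      (φ.symm g) • x = g x := by
    intro g x
    rw [← hφ, MulEquiv.apply_symm_apply]
  set χ' : (PadicAlgCl q ≃ₐ[E] PadicAlgCl q) →* Multiplicative (ZMod ℓ) :=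
    χ.comp φ.symm.toMonoidHom with hχ'
  obtain ⟨T, hT⟩ := hker
  set L : IntermediateField E (PadicAlgCl q) :=
    IntermediateField.adjoin E (T : Set (PadicAlgCl q)) with hLdef
  haveI : FiniteDimensional E L :=
    IntermediateField.finiteDimensional_adjoin (fun x _ => Algebra.IsIntegral.isIntegral x)
  have hL : L.fixingSubgroup = χ'.ker := by
    ext g
    rw [IntermediateField.mem_fixingSubgroup_iff, MonoidHom.mem_ker]
    have hg : χ' g = 1 ↔ ∀ x ∈ T, g x = x := by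
      have := hT (φ.symm g)
      rw [MonoidHom.mem_ker] at this
      rw [hχ', MonoidHom.comp_apply]
      refine this.trans ?_
      refine forall₂_congr fun x _ => ?_
      rw [hφs]
    rw [hg]
    constructor
    · intro h x hx
      exact h x (IntermediateField.subset_adjoin E _ hx)
    · intro h x hx
      have hle : L ≤ IntermediateField.fixedField (Subgroup.zpowers g) := by
        rw [hLdef, IntermediateField.adjoin_le_iff]
        intro t ht
        rw [SetLike.mem_coe, IntermediateField.mem_fixedField_iff]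
        intro f hf
        obtain ⟨n, rfl⟩ := Subgroup.mem_zpowers_iff.mp hf
        have hgt : g t = t := h t ht
        have : ∀ m : ℕ, (g ^ m) t = t := by
          intro m
          induction m with
          | zero => simp
          | succ m ih => rw [pow_succ, AlgEquiv.mul_apply, hgt, ih]
        have hinv : ∀ m : ℕ, (g ^ m)⁻¹ t = t := by
          intro m
          conv_lhs => rw [← this m]
          exact (g ^ m).symm_apply_apply t
        rcases Int.eq_nat_or_neg n with ⟨m, rfl | rfl⟩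
        · rw [zpow_natCast]; exact this m
        · rw [zpow_neg, zpow_natCast]; exact hinv m
      have := (IntermediateField.mem_fixedField_iff _ x).mp (hle hx) g
        (Subgroup.mem_zpowers g)
      exact this
  obtain ⟨hgal, hrank, hnorm⟩ := ftb_galois χ' L hL (φ σ) (by
    rw [hχ', MonoidHom.comp_apply]
    simpa using hσ)
  refine ⟨E, L, inferInstance, hgal, hrank, ?_, ?_, ?_, ?_, ?_⟩
  · intro x
    rw [InfiniteGalois.mem_range_algebraMap_iff_fixed]
    constructor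
    · intro h γ _
      rw [← hφ]
      exact h _
    · intro h g
      rw [← hφs]
      exact h _ (Subgroup.mem_top _)
  · intro x
    rw [← InfiniteGalois.fixedField_fixingSubgroup L, IntermediateField.mem_fixedField_iff, hL]
    constructor
    · intro h γ hγ
      rw [← hφ]
      refine h _ ?_
      rw [MonoidHom.mem_ker, hχ', MonoidHom.comp_apply]
      simpa using hγ
    · intro h g hg
      rw [← hφs]
      refine h _ ?_
      rw [MonoidHom.mem_ker, hχ', MonoidHom.comp_apply] at hg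
      exact hg
  · intro y
    rw [hnorm y]
    refine Finset.prod_congr rfl fun i _ => ?_
    rw [← map_pow, hφ]
  · intro τ x
    obtain ⟨g, rfl⟩ := AlgEquiv.restrictNormalHom_surjective (PadicAlgCl q) τ
    show padicVal q (algebraMap L (PadicAlgCl q) (AlgEquiv.restrictNormalHom L g x)) =
      padicVal q (algebraMap L (PadicAlgCl q) x)
    have h1 : algebraMap L (PadicAlgCl q) (AlgEquiv.restrictNormalHom L g x) =
        g (algebraMap L (PadicAlgCl q) x) := AlgEquiv.restrictNormal_commutes g L x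
    rw [h1]
    exact padicVal_isInvVal q E g _
  · exact padicVal_isLocalVal q E

end Concrete

section Final

variable {q : ℕ} [Fact q.Prime]
variable {Γ : Type} [Group Γ] [MulSemiringAction Γ (PadicAlgCl q)]
  [MulDistribMulAction Γ (PadicAlgCl q)ˣ]

theorem ftb_coe_cycNorm (hΓ : IsLocalGal q Γ) (ℓ : ℕ) (σ : Γ) (m : (PadicAlgCl q)ˣ) :
    ((cycNorm ℓ σ m : (PadicAlgCl q)ˣ) : PadicAlgCl q) =
      ∏ i ∈ Finset.range ℓ, (σ ^ i) • (m : PadicAlgCl q) := by
  unfold cycNorm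
  rw [Units.coe_prod]
  exact Finset.prod_congr rfl fun i _ => hΓ.1 _ _

theorem ftb_isFixedBy_coe (hΓ : IsLocalGal q Γ) (H : Subgroup Γ) (m : (PadicAlgCl q)ˣ) :
    IsFixedBy H m ↔ IsFixedBy H (m : PadicAlgCl q) := by
  constructor
  · intro h γ hγ
    rw [← hΓ.1, h γ hγ]
  · intro h γ hγ
    apply Units.ext
    rw [hΓ.1, h γ hγ]

/-- **FTB: existence of a non-norm** for a cyclic layer of prime degree. -/
theorem exists_not_norm_aux (hΓ : IsLocalGal q Γ) {ℓ : ℕ} [Fact ℓ.Prime]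
    (χ : Γ →* Multiplicative (ZMod ℓ)) (_hχ : Function.Surjective χ) (hker : IsOpenSub q χ.ker)
    (σ : Γ) (hσ : χ σ = Multiplicative.ofAdd 1) :
    ∃ a : (PadicAlgCl q)ˣ, IsFixedBy (⊤ : Subgroup Γ) a ∧
      ∀ m : (PadicAlgCl q)ˣ, IsFixedBy χ.ker m → cycNorm ℓ σ m ≠ a := by
  obtain ⟨E, L, hfd, hgal, hrank, hE, hLmem, hnorm, hinv, hloc⟩ := ftb_setup hΓ χ hker σ hσ
  have hp : (Module.finrank E L).Prime := hrank ▸ (Fact.out : ℓ.Prime)
  obtain ⟨a, ha0, hna⟩ := exists_not_norm_of_isLocalVal _ hinv hloc hp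
  have ha0' : algebraMap E (PadicAlgCl q) a ≠ 0 := by
    simpa using ha0
  refine ⟨Units.mk0 (algebraMap E (PadicAlgCl q) a) ha0', ?_, ?_⟩
  · rw [ftb_isFixedBy_coe hΓ, Units.val_mk0]
    exact (hE _).mp ⟨a, rfl⟩
  · intro m hm heq
    have hmL : (m : PadicAlgCl q) ∈ L := (hLmem _).mpr ((ftb_isFixedBy_coe hΓ _ _).mp hm)
    apply hna ⟨(m : PadicAlgCl q), hmL⟩
    apply (algebraMap E (PadicAlgCl q)).injective
    rw [hnorm]
    have := congrArg Units.val heq
    rw [ftb_coe_cycNorm hΓ, Units.val_mk0] at this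
    exact this

/-- **FTB: the norm index is at most `ℓ`**. -/
theorem norm_index_le_aux (hΓ : IsLocalGal q Γ) {ℓ : ℕ} [Fact ℓ.Prime]
    (χ : Γ →* Multiplicative (ZMod ℓ)) (_hχ : Function.Surjective χ) (hker : IsOpenSub q χ.ker)
    (σ : Γ) (hσ : χ σ = Multiplicative.ofAdd 1)
    (a : (PadicAlgCl q)ˣ) (ha : IsFixedBy (⊤ : Subgroup Γ) a)
    (hna : ∀ m : (PadicAlgCl q)ˣ, IsFixedBy χ.ker m → cycNorm ℓ σ m ≠ a)
    (b : (PadicAlgCl q)ˣ) (hb : IsFixedBy (⊤ : Subgroup Γ) b) :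
    ∃ (k : ℕ) (m : (PadicAlgCl q)ˣ), k < ℓ ∧ IsFixedBy χ.ker m ∧ b = a ^ k * cycNorm ℓ σ m := by
  have hℓ : ℓ.Prime := Fact.out
  obtain ⟨E, L, hfd, hgal, hrank, hE, hLmem, hnorm, hinv, hloc⟩ := ftb_setup hΓ χ hker σ hσ
  have hp : (Module.finrank E L).Prime := hrank ▸ hℓ
  have hidx := norm_index_of_isLocalVal _ hinv hloc hp
  rw [hrank] at hidx
  set R : Subgroup Eˣ := (Units.map (Algebra.norm E : L →* E)).range with hR
  -- `a` and `b` come from `E`
  obtain ⟨a₀, ha₀⟩ := (hE _).mpr ((ftb_isFixedBy_coe hΓ _ _).mp ha)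
  obtain ⟨b₀, hb₀⟩ := (hE _).mpr ((ftb_isFixedBy_coe hΓ _ _).mp hb)
  have ha₀0 : a₀ ≠ 0 := by
    rintro rfl
    rw [map_zero] at ha₀
    exact a.ne_zero ha₀.symm
  have hb₀0 : b₀ ≠ 0 := by
    rintro rfl
    rw [map_zero] at hb₀
    exact b.ne_zero hb₀.symm
  -- units of `L` give units of `Ω` fixed by `ker χ`, with `cycNorm` the norm
  have hunit : ∀ y : Lˣ, ∃ m : (PadicAlgCl q)ˣ, IsFixedBy χ.ker m ∧
      ((cycNorm ℓ σ m : (PadicAlgCl q)ˣ) : PadicAlgCl q) =
        algebraMap E (PadicAlgCl q) (Algebra.norm E (y : L)) := by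
    intro y
    refine ⟨Units.map (algebraMap L (PadicAlgCl q) : L →* PadicAlgCl q) y, ?_, ?_⟩
    · rw [ftb_isFixedBy_coe hΓ]
      exact (hLmem _).mp (y : L).2
    · rw [ftb_coe_cycNorm hΓ, hnorm]
      rfl
  have haR : Units.mk0 a₀ ha₀0 ∉ R := by
    rintro ⟨y, hy⟩
    obtain ⟨m, hm, hmn⟩ := hunit y
    refine hna m hm (Units.ext ?_)
    rw [hmn, ← ha₀]
    congr 1
    exact congrArg Units.val hy
  have hcard : Nat.card (Eˣ ⧸ R) = ℓ := by
    rw [← Subgroup.index_eq_card, hidx]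
  set g : Eˣ ⧸ R := QuotientGroup.mk (Units.mk0 a₀ ha₀0) with hg
  have hg1 : g ≠ 1 := by
    rw [hg, Ne, QuotientGroup.eq_one_iff]
    exact haR
  have htop := zpowers_eq_top_of_prime_card (G := Eˣ ⧸ R) hcard hg1
  have hmem : (QuotientGroup.mk (Units.mk0 b₀ hb₀0) : Eˣ ⧸ R) ∈ Subgroup.zpowers g := by
    rw [htop]
    trivial
  obtain ⟨k, hk⟩ := Subgroup.mem_zpowers_iff.mp hmem
  have hord : orderOf g = ℓ := by
    refine orderOf_eq_prime ?_ hg1
    rw [← hcard]
    exact pow_card_eq_one'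
  have hk' : g ^ (k % (ℓ : ℤ)).toNat = QuotientGroup.mk (Units.mk0 b₀ hb₀0) := by
    rw [← hk, ← zpow_natCast, Int.toNat_of_nonneg (Int.emod_nonneg _ (by exact_mod_cast hℓ.ne_zero)),
      ← hord, zpow_mod_orderOf]
  have hklt : (k % (ℓ : ℤ)).toNat < ℓ := by
    have h1 := Int.emod_lt_of_pos k (by exact_mod_cast hℓ.pos : (0 : ℤ) < ℓ)
    have h2 := Int.emod_nonneg k (by exact_mod_cast hℓ.ne_zero : (ℓ : ℤ) ≠ 0)
    have h3 := hℓ.pos
    omega
  set k' := (k % (ℓ : ℤ)).toNat with hk'def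
  rw [hg, ← QuotientGroup.mk_pow, QuotientGroup.eq] at hk'
  obtain ⟨y, hy⟩ := hk'
  obtain ⟨m, hm, hmn⟩ := hunit y
  refine ⟨k', m, hklt, hm, Units.ext ?_⟩
  rw [Units.val_mul, Units.val_pow_eq_pow_val, hmn, ← ha₀, ← hb₀, ← map_pow, ← map_mul]
  congr 1
  have h1 := congrArg Units.val hy
  rw [Units.coe_map, Units.val_mul, Units.val_inv_eq_inv_val,
    Units.val_pow_eq_pow_val, Units.val_mk0, Units.val_mk0] at h1
  rw [h1]
  field_simp

end Final

end Fermat.Agent.F4.Loc
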