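import Mathlib

/-!
# F4 / Loc / Setup : the abstract local setting (FIXED interface of the LOC layer)

All LOC leaf theorems are stated for abstract valued fields, so that they apply both to
the henselisation model (fixed fields of open subgroups of a decomposition group inside `Qbar`,
valuation `A.valuation`) and to the completion model (finite extensions of `ℚ_[q]` inside
`PadicAlgCl q`, valuation = norm).

* `IsDiscreteVal v`     : the value group of `v` is generated by `v π`, `v π < 1`;
* `HasFiniteResidue v`  : finitely many residue classes;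
* `NewtonHensel v`      : Newton's form of Hensel's lemma;
* `IsLocalVal v`        : the three together;
* `IsInvVal w` (for an `E`-algebra `L`) : `w` is invariant under `L ≃ₐ[E] L`.

The valuation of `E` is always `w.comap (algebraMap E L)` for a valuation `w` on the big field.
-/

set_option autoImplicit false

open Polynomial

namespace Fermat.Agent.F4.Loc

variable {E : Type*} [Field E] {Γ₀ : Type*} [LinearOrderedCommGroupWithZero Γ₀]

/-- `v` is discrete: there is a uniformizer `π` (`v π < 1`) whose value generates the value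
group. -/
def IsDiscreteVal (v : Valuation E Γ₀) : Prop :=
  ∃ π : E, π ≠ 0 ∧ v π < 1 ∧ ∀ x : E, x ≠ 0 → ∃ n : ℤ, v x = v π ^ n

/-- `π` is a uniformizer of `v`. -/
def IsUnif (v : Valuation E Γ₀) (π : E) : Prop :=
  π ≠ 0 ∧ v π < 1 ∧ ∀ x : E, x ≠ 0 → ∃ n : ℤ, v x = v π ^ n

/-- The residue field of `v` is finite: finitely many representatives of the residue classes. -/
def HasFiniteResidue (v : Valuation E Γ₀) : Prop :=
  ∃ R : Finset E, ∀ x : E, v x ≤ 1 → ∃ r ∈ R, v (x - r) < 1

/-- **Newton–Hensel**: an approximate root `a` of an integral polynomial `f` with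
`v (f a) < v (f' a) ^ 2` is close to a genuine root `b`, `v (b - a) · v (f' a) ≤ v (f a)`. -/
def NewtonHensel (v : Valuation E Γ₀) : Prop :=
  ∀ f : E[X], (∀ i, v (f.coeff i) ≤ 1) → ∀ a : E, v a ≤ 1 →
    v (f.eval a) < v (f.derivative.eval a) ^ 2 →
    ∃ b : E, f.eval b = 0 ∧ v (b - a) * v (f.derivative.eval a) ≤ v (f.eval a)

/-- A local valuation: discrete, finite residue field, henselian. -/
structure IsLocalVal (v : Valuation E Γ₀) : Prop where
  disc : IsDiscreteVal v
  finRes : HasFiniteResidue v
  hensel : NewtonHensel v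

/-- `w` is invariant under all `E`-automorphisms of `L`. -/
def IsInvVal (E : Type*) {L : Type*} [Field E] [Field L] [Algebra E L]
    (w : Valuation L Γ₀) : Prop :=
  ∀ (σ : L ≃ₐ[E] L) (x : L), w (σ x) = w x

lemma IsDiscreteVal.exists_unif {v : Valuation E Γ₀} (h : IsDiscreteVal v) :
    ∃ π, IsUnif v π := h

lemma IsUnif.isDiscreteVal {v : Valuation E Γ₀} {π : E} (h : IsUnif v π) :
    IsDiscreteVal v := ⟨π, h⟩

lemma IsUnif.val_pos {v : Valuation E Γ₀} {π : E} (h : IsUnif v π) : 0 < v π :=
  zero_lt_iff.2 ((v.ne_zero_iff).2 h.1)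

/-- The restricted valuation on the base field. -/
abbrev resVal (E : Type*) {L : Type*} [Field E] [Field L] [Algebra E L]
    (w : Valuation L Γ₀) : Valuation E Γ₀ :=
  w.comap (algebraMap E L)

@[simp] lemma resVal_apply {L : Type*} [Field L] [Algebra E L] (w : Valuation L Γ₀) (x : E) :
    resVal E w x = w (algebraMap E L x) := rfl

/-- The cardinality of the residue field of `v` (`0` if infinite). -/
noncomputable def resCard (v : Valuation E Γ₀) : ℕ :=
  Nat.card (IsLocalRing.ResidueField ↥v.valuationSubring)

/-- `x` is a unit for `v`. -/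
def IsValUnit (v : Valuation E Γ₀) (x : E) : Prop := v x = 1

end Fermat.Agent.F4.Loc
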