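import Fermat.Agent.F4.Loc.Setup
import Fermat.Agent.F4.Loc.HenselCore

/-!
# F4 / Loc / Hensel : Newton–Hensel from Galois invariance  (seat HENS: helper75)

`Ω` algebraically closed and algebraic over `E` (characteristic `0`), `w` a valuation of `Ω`
invariant under `Ω ≃ₐ[E] Ω`.  Then `E` is henselian for the restriction of `w`.

Proof.  WLOG `a = 0`, `f = c₀ + c₁ X + c₂ X² + …`, `w c₀ < (w c₁)²`, `w cᵢ ≤ 1`.
`g(Y) = f((c₀/c₁) Y)/c₀ = 1 + Y + Σ_{i ≥ 2} bᵢ Yⁱ` with `w bᵢ < 1`; the reversed polynomial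
`h(Z) = Zⁿ g(1/Z)` is monic with integral coefficients, `h ≡ Zⁿ⁻¹ (Z + 1)` modulo the maximal
ideal.  Its roots in `Ω` are integral; `w (h(-1)) < 1` and `w (h'(-1)) = 1` show that exactly one
root `z₀` (counted with multiplicity) has `w (z₀ + 1) < 1`.  Every `σ ∈ Ω ≃ₐ[E] Ω` permutes the
roots and preserves `w`, hence fixes `z₀`; so `z₀ ∈ E` (`Ω/E` is Galois).  `b = (c₀/c₁)/z₀`.
-/

set_option autoImplicit false

open Polynomial

namespace Fermat.Agent.F4.Loc

variable {E Ω : Type*} [Field E] [Field Ω] [Algebra E Ω] [CharZero E] [IsAlgClosed Ω]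
  [Algebra.IsAlgebraic E Ω] {Γ₀ : Type*} [LinearOrderedCommGroupWithZero Γ₀]

/-- **Newton–Hensel** for the fixed field of a group of valuation-preserving automorphisms. -/
theorem newtonHensel_of_isInvVal (w : Valuation Ω Γ₀) (hinv : IsInvVal E w) :
    NewtonHensel (resVal E w) := by
  intro f hf a ha hlt
  have hF : ∀ i, w ((f.map (algebraMap E Ω)).coeff i) ≤ 1 := by
    intro i
    rw [coeff_map]
    exact hf i
  have hA : w (algebraMap E Ω a) ≤ 1 := ha
  have hev : (f.map (algebraMap E Ω)).eval (algebraMap E Ω a) = algebraMap E Ω (f.eval a) :=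
    eval_map_apply _ _
  have hdev : (f.map (algebraMap E Ω)).derivative.eval (algebraMap E Ω a)
      = algebraMap E Ω (f.derivative.eval a) := by
    rw [derivative_map, eval_map_apply]
  have hlt' : w ((f.map (algebraMap E Ω)).eval (algebraMap E Ω a))
      < w ((f.map (algebraMap E Ω)).derivative.eval (algebraMap E Ω a)) ^ 2 := by
    rw [hev, hdev]
    exact hlt
  obtain ⟨B, hB0, hBle⟩ := hens_exists_root w _ _ hlt'
  -- the root is fixed by the Galois group
  have hfix : ∀ σ : Ω ≃ₐ[E] Ω, σ B = B := by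
    intro σ
    refine hens_unique_root w _ hF _ hA hlt' (b₁ := σ B) (b₂ := B) ?_ hB0 ?_ hBle
    · have h1 : (f.map (algebraMap E Ω)).eval (σ B) = σ ((f.map (algebraMap E Ω)).eval B) := by
        rw [eval_map_algebraMap, eval_map_algebraMap]
        exact (Polynomial.aeval_algHom_apply σ.toAlgHom B f)
      rw [h1, hB0, map_zero]
    · have h2 : σ B - algebraMap E Ω a = σ (B - algebraMap E Ω a) := by
        rw [map_sub, AlgEquiv.commutes]
      rw [h2, hinv σ]
      exact hBle
  -- descent to `E`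
  haveI : IsAlgClosure E Ω := ⟨inferInstance, inferInstance⟩
  haveI : Algebra.IsSeparable E Ω := inferInstance
  haveI : IsGalois E Ω := ⟨⟩
  obtain ⟨b, hb⟩ := (InfiniteGalois.mem_range_algebraMap_iff_fixed B).mpr hfix
  refine ⟨b, ?_, ?_⟩
  · apply (algebraMap E Ω).injective
    rw [← eval_map_apply, hb, hB0, map_zero]
  · show w (algebraMap E Ω (b - a)) * w (algebraMap E Ω (f.derivative.eval a))
      ≤ w (algebraMap E Ω (f.eval a))
    rw [map_sub, hb, ← hdev, ← hev]
    exact hBle

/-- The simple-root form: a simple root of the reduction lifts. -/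
theorem exists_root_of_simple (w : Valuation Ω Γ₀) (hinv : IsInvVal E w)
    (f : E[X]) (hf : ∀ i, resVal E w (f.coeff i) ≤ 1) (a : E) (ha : resVal E w a ≤ 1)
    (h0 : resVal E w (f.eval a) < 1) (h1 : resVal E w (f.derivative.eval a) = 1) :
    ∃ b : E, f.eval b = 0 ∧ resVal E w (b - a) < 1 := by
  have hlt : resVal E w (f.eval a) < resVal E w (f.derivative.eval a) ^ 2 := by
    rw [h1, one_pow]
    exact h0
  obtain ⟨b, hb0, hb⟩ := newtonHensel_of_isInvVal w hinv f hf a ha hlt
  refine ⟨b, hb0, ?_⟩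
  rw [h1, mul_one] at hb
  exact lt_of_le_of_lt hb h0

end Fermat.Agent.F4.Loc
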