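import Fermat.Agent.F4.Loc.Unram
import Fermat.Agent.F4.Loc.Hensel
import Fermat.Agent.F4.Loc.EF

/-!
# F4 / Loc / FTCAbs : unramified characters, abstract form (seat FTC, helper26)

`Ω` algebraically closed and algebraic over `E` (characteristic `0`), `w` a valuation of `Ω`
invariant under `G = Gal(Ω/E)`, `E` local.  For every `n ≥ 1` there is a character
`χ : G ↠ ℤ/n` (the unramified character of degree `n`, cut out by `E(ζ)`), with the properties
needed by the local theory.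

The two statements of seat UNR2 (`unram_val`, `unram_norm_unit`) enter as the hypothesis
`UNR2At`; everything here is sorry-free.
-/

set_option autoImplicit false

open Polynomial IntermediateField

namespace Fermat.Agent.F4.Loc

section Cyclic

/-- The product over a finite cyclic group as a product over the powers of a generator. -/
theorem prod_range_pow_eq_prod_univ {G M : Type*} [Group G] [Fintype G] [CommMonoid M]
    (g : G) (hg : ∀ x, x ∈ Subgroup.zpowers g) (f : G → M) :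
    ∏ i ∈ Finset.range (Fintype.card G), f (g ^ i) = ∏ x : G, f x := by
  classical
  have hord : orderOf g = Fintype.card G := by
    rw [orderOf_eq_card_of_forall_mem_zpowers hg, Nat.card_eq_fintype_card]
  have himg : (Finset.range (Fintype.card G)).image (fun i => g ^ i) = Finset.univ := by
    rw [← hord]
    exact IsCyclic.image_range_orderOf hg
  rw [← himg, Finset.prod_image]
  intro i hi j hj hij
  rw [← hord] at hi hj
  exact pow_injOn_Iio_orderOf (Finset.mem_range.1 hi) (Finset.mem_range.1 hj) hij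

end Cyclic

section Norm

variable {E Ω : Type*} [Field E] [Field Ω] [Algebra E Ω]

/-- The norm of a finite Galois cyclic subextension as a product over the powers of a lift of a
generator. -/
theorem prod_range_pow_eq_norm (F : IntermediateField E Ω) [FiniteDimensional E F]
    [IsGalois E F] [Normal E Ω] (φ : F ≃ₐ[E] F) (hφ : ∀ g, g ∈ Subgroup.zpowers φ)
    (σ : Ω ≃ₐ[E] Ω) (hσ : AlgEquiv.restrictNormalHom F σ = φ) (x : F) :
    ∏ i ∈ Finset.range (Module.finrank E F), (σ ^ i) (x : Ω)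
      = algebraMap E Ω (Algebra.norm E x) := by
  classical
  have h1 : algebraMap E Ω (Algebra.norm E x) = algebraMap F Ω (algebraMap E F (Algebra.norm E x)) :=
    IsScalarTower.algebraMap_apply E F Ω _
  rw [h1, Algebra.norm_eq_prod_automorphisms, map_prod,
    ← prod_range_pow_eq_prod_univ φ hφ, ← Nat.card_eq_fintype_card,
    IsGalois.card_aut_eq_finrank]
  refine Finset.prod_congr rfl (fun i _ => ?_)
  have h2 : AlgEquiv.restrictNormalHom F (σ ^ i) = φ ^ i := by rw [map_pow, hσ]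
  rw [← h2]
  exact (AlgEquiv.restrictNormal_commutes (σ ^ i) F x).symm

end Norm

section Layer

variable {E Ω : Type*} [Field E] [Field Ω] [Algebra E Ω] [CharZero E] [IsAlgClosed Ω]
  [Algebra.IsAlgebraic E Ω] {Γ₀ : Type*} [LinearOrderedCommGroupWithZero Γ₀]

omit [CharZero E] in
theorem normal_algClosed : Normal E Ω :=
  have : IsAlgClosure E Ω := ⟨inferInstance, inferInstance⟩
  IsAlgClosure.normal E Ω

theorem isGalois_algClosed : IsGalois E Ω :=
  have : IsAlgClosure E Ω := ⟨inferInstance, inferInstance⟩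
  inferInstance

omit [CharZero E] [IsAlgClosed Ω] [Algebra.IsAlgebraic E Ω] in
/-- An automorphism fixes `E⟮ζ⟯` pointwise iff it fixes `ζ`. -/
theorem mem_fixingSubgroup_adjoin_simple_iff (ζ : Ω) (g : Ω ≃ₐ[E] Ω) :
    g ∈ (E⟮ζ⟯).fixingSubgroup ↔ g ζ = ζ := by
  rw [IntermediateField.mem_fixingSubgroup_iff]
  constructor
  · intro h
    exact h ζ (mem_adjoin_simple_self E ζ)
  · intro h x hx
    have hle : E⟮ζ⟯ ≤ IntermediateField.fixedField (Subgroup.zpowers g) := by
      rw [adjoin_simple_le_iff, IntermediateField.mem_fixedField_iff]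
      intro f hf
      obtain ⟨k, rfl⟩ := Subgroup.mem_zpowers_iff.1 hf
      have hg : ∀ k : ℕ, (g ^ k) ζ = ζ := by
        intro k
        induction k with
        | zero => simp
        | succ k ih => rw [pow_succ, AlgEquiv.mul_apply, h, ih]
      have hginv : ∀ k : ℕ, (g ^ k)⁻¹ ζ = ζ := fun k => by
        conv_lhs => rw [← hg k]
        exact (g ^ k).symm_apply_apply ζ
      rcases Int.eq_nat_or_neg k with ⟨j, rfl | rfl⟩
      · rw [zpow_natCast]; exact hg j
      · rw [zpow_neg, zpow_natCast]; exact hginv j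
    have := (IntermediateField.mem_fixedField_iff _ x).1 (hle hx) g (Subgroup.mem_zpowers g)
    exact this

/-- **The unramified layer** `E⟮ζ⟯/E`: a Frobenius lift `σ`. -/
theorem unram_layer (w : Valuation Ω Γ₀) (hinv : IsInvVal E w) (hE : IsLocalVal (resVal E w))
    {m : ℕ} (hm : Nat.Coprime m (resCard (resVal E w))) (hm0 : 0 < m) {ζ : Ω}
    (hζ : IsPrimitiveRoot ζ m) :
    ∃ σ : Ω ≃ₐ[E] Ω,
      (∀ g : Ω ≃ₐ[E] Ω, ∃ i : ℕ, g ζ = (σ ^ i) ζ) ∧
      (∀ j : ℕ, (σ ^ j) ζ = ζ ↔ Module.finrank E E⟮ζ⟯ ∣ j) ∧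
      (∀ x : E⟮ζ⟯, ∏ i ∈ Finset.range (Module.finrank E E⟮ζ⟯), (σ ^ i) (x : Ω)
        = algebraMap E Ω (Algebra.norm E x)) := by
  classical
  have hN : Normal E Ω := normal_algClosed
  have hG : IsGalois E E⟮ζ⟯ := unram_isGalois hm0 hζ
  have hfd : FiniteDimensional E E⟮ζ⟯ :=
    adjoin.finiteDimensional (Algebra.IsIntegral.isIntegral ζ)
  obtain ⟨φ, -, hφ⟩ := unram_cyclic w hinv hE hm hζ
  obtain ⟨σ, hσ⟩ := AlgEquiv.restrictNormalHom_surjective Ω φ
  have hord : orderOf φ = Module.finrank E E⟮ζ⟯ := by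
    rw [orderOf_eq_card_of_forall_mem_zpowers hφ, IsGalois.card_aut_eq_finrank]
  have hres : ∀ (g : Ω ≃ₐ[E] Ω), g ζ = ((AlgEquiv.restrictNormalHom E⟮ζ⟯ g)
      (AdjoinSimple.gen E ζ) : E⟮ζ⟯) := fun g =>
    (AlgEquiv.restrictNormal_commutes g E⟮ζ⟯ (AdjoinSimple.gen E ζ)).symm
  have hpow : ∀ i : ℕ, AlgEquiv.restrictNormalHom E⟮ζ⟯ (σ ^ i) = φ ^ i := fun i => by
    rw [map_pow, hσ]
  refine ⟨σ, ?_, ?_, ?_⟩
  · intro g
    have hmem := hφ (AlgEquiv.restrictNormalHom E⟮ζ⟯ g)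
    rw [← mem_powers_iff_mem_zpowers] at hmem
    obtain ⟨i, hi⟩ := hmem
    refine ⟨i, ?_⟩
    rw [hres g, hres (σ ^ i), hpow, ← hi]
  · intro j
    rw [← hord, orderOf_dvd_iff_pow_eq_one, ← hpow]
    constructor
    · intro h
      have h1 : σ ^ j ∈ (E⟮ζ⟯).fixingSubgroup :=
        (mem_fixingSubgroup_adjoin_simple_iff ζ _).2 h
      rw [← IntermediateField.restrictNormalHom_ker] at h1
      exact h1
    · intro h
      have h1 : σ ^ j ∈ (AlgEquiv.restrictNormalHom E⟮ζ⟯ : (Ω ≃ₐ[E] Ω) →* _).ker := h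
      rw [IntermediateField.restrictNormalHom_ker] at h1
      exact (mem_fixingSubgroup_adjoin_simple_iff ζ _).1 h1
  · intro x
    exact prod_range_pow_eq_norm E⟮ζ⟯ φ hφ σ hσ x

end Layer

section Intermediate

variable {E Ω : Type*} [Field E] [Field Ω] [Algebra E Ω] [CharZero E] [IsAlgClosed Ω]
  [Algebra.IsAlgebraic E Ω] {Γ₀ : Type*} [LinearOrderedCommGroupWithZero Γ₀]

omit [CharZero E] [IsAlgClosed Ω] [Algebra.IsAlgebraic E Ω] in
theorem isInvVal_intermediate (w : Valuation Ω Γ₀) (hinv : IsInvVal E w)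
    (K : IntermediateField E Ω) : IsInvVal K w :=
  fun σ x => hinv (σ.restrictScalars E) x

omit [CharZero E] in
theorem isInvVal_resVal (w : Valuation Ω Γ₀) (hinv : IsInvVal E w)
    (K : IntermediateField E Ω) [Normal E K] : IsInvVal E (resVal K w) := by
  have hN : Normal E Ω := normal_algClosed
  intro σ x
  have h := hinv (σ.liftNormal Ω) (algebraMap K Ω x)
  rw [AlgEquiv.liftNormal_commutes] at h
  exact h

omit [CharZero E] [IsAlgClosed Ω] [Algebra.IsAlgebraic E Ω] in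
theorem resVal_resVal (w : Valuation Ω Γ₀) (K : IntermediateField E Ω) :
    resVal E (resVal K w) = resVal E w :=
  Valuation.ext fun _ => rfl

/-- A finite Galois subextension of a local field is local. -/
theorem isLocalVal_intermediate (w : Valuation Ω Γ₀) (hinv : IsInvVal E w)
    (hE : IsLocalVal (resVal E w)) (K : IntermediateField E Ω) [FiniteDimensional E K]
    [IsGalois E K] : IsLocalVal (resVal K w) := by
  have hA : Algebra.IsAlgebraic K Ω := Algebra.IsAlgebraic.tower_top (K := E) K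
  refine ⟨?_, ?_, newtonHensel_of_isInvVal w (isInvVal_intermediate w hinv K)⟩
  · refine isDiscreteVal_of_finite (E := E) (resVal K w) (isInvVal_resVal w hinv K) ?_
    rw [resVal_resVal]; exact hE.disc
  · refine hasFiniteResidue_of_finite (E := E) (resVal K w) (isInvVal_resVal w hinv K) ?_ ?_
    · rw [resVal_resVal]; exact hE.disc
    · rw [resVal_resVal]; exact hE.finRes

/-- `e f = n` for a finite Galois subextension. -/
theorem ef_intermediate (w : Valuation Ω Γ₀) (hinv : IsInvVal E w)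
    (hE : IsLocalVal (resVal E w)) (K : IntermediateField E Ω) [FiniteDimensional E K]
    [IsGalois E K] :
    ∃ e f : ℕ, 0 < e ∧ 0 < f ∧ e * f = Module.finrank E K ∧
      resCard (resVal K w) = resCard (resVal E w) ^ f ∧
      ∀ πE : E, ∀ πK : K, IsUnif (resVal E w) πE → IsUnif (resVal K w) πK →
        w (algebraMap E Ω πE) = w (algebraMap K Ω πK) ^ e := by
  have h := ef_eq (E := E) (resVal K w) (isInvVal_resVal w hinv K)
    (by rw [resVal_resVal]; exact hE)
  obtain ⟨e, f, he, hf, hef, hcard, hunif⟩ := h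
  refine ⟨e, f, he, hf, hef, ?_, fun πE πK hπE hπK => ?_⟩
  · rw [hcard, resVal_resVal]
  · exact hunif πE πK (by rw [resVal_resVal]; exact hπE) hπK

/-- The order of `Q ^ f` modulo `m`, when `Q` has order `e f`. -/
theorem orderOf_unitOfCoprime_pow {m Q e f : ℕ} (hf : 0 < f) (hm : Nat.Coprime Q m)
    (hm' : Nat.Coprime (Q ^ f) m) (hord : orderOf (ZMod.unitOfCoprime Q hm) = e * f) :
    orderOf (ZMod.unitOfCoprime (Q ^ f) hm') = e := by
  have h1 : ZMod.unitOfCoprime (Q ^ f) hm' = ZMod.unitOfCoprime Q hm ^ f := by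
    apply Units.ext
    simp [ZMod.coe_unitOfCoprime]
  rw [h1, orderOf_pow' _ hf.ne', hord, Nat.gcd_mul_left_left, Nat.mul_div_cancel _ hf]

end Intermediate

/-- **The input from UNR2** over the base `E`, for the root of unity `ζ`: the value group of
`E⟮ζ⟯` is that of `E`, and every unit of `E` is a norm from `E⟮ζ⟯`. -/
structure UNR2At (E : Type*) {Ω : Type*} [Field E] [Field Ω] [Algebra E Ω] {Γ₀ : Type*}
    [LinearOrderedCommGroupWithZero Γ₀] (w : Valuation Ω Γ₀) (ζ : Ω) : Prop where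
  val : ∀ x : E⟮ζ⟯, x ≠ 0 → ∃ y : E, w (x : Ω) = w (algebraMap E Ω y)
  norm_unit : ∀ u : E, resVal E w u = 1 → ∃ x : E⟮ζ⟯, Algebra.norm E x = u

section Main

variable {E Ω : Type*} [Field E] [Field Ω] [Algebra E Ω] [CharZero E] [IsAlgClosed Ω]
  [Algebra.IsAlgebraic E Ω] {Γ₀ : Type*} [LinearOrderedCommGroupWithZero Γ₀]

/-- The character of the unramified layer `E⟮ζ⟯/E` of degree `n`. -/
theorem exists_unram_char_base (w : Valuation Ω Γ₀) (hinv : IsInvVal E w)
    (hE : IsLocalVal (resVal E w))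
    {m : ℕ} (hm : Nat.Coprime m (resCard (resVal E w))) (hm0 : 0 < m) {ζ : Ω}
    (hζ : IsPrimitiveRoot ζ m) {n : ℕ} (hn : Module.finrank E E⟮ζ⟯ = n) :
    ∃ (χ : (Ω ≃ₐ[E] Ω) →* Multiplicative (ZMod n)) (σ : Ω ≃ₐ[E] Ω),
      Function.Surjective χ ∧ (∀ g, g ∈ χ.ker ↔ g ζ = ζ) ∧ χ σ = Multiplicative.ofAdd 1 ∧
      (∀ x : E⟮ζ⟯, ∏ i ∈ Finset.range n, (σ ^ i) (x : Ω)
        = algebraMap E Ω (Algebra.norm E x)) := by
  classical
  have hN : Normal E Ω := normal_algClosed
  have hG : IsGalois E E⟮ζ⟯ := unram_isGalois hm0 hζ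
  have hfd : FiniteDimensional E E⟮ζ⟯ :=
    adjoin.finiteDimensional (Algebra.IsIntegral.isIntegral ζ)
  obtain ⟨φ, -, hφ⟩ := unram_cyclic w hinv hE hm hζ
  obtain ⟨σ, hσ⟩ := AlgEquiv.restrictNormalHom_surjective Ω φ
  have hcard : Nat.card (E⟮ζ⟯ ≃ₐ[E] E⟮ζ⟯) = n := by
    rw [IsGalois.card_aut_eq_finrank, hn]
  set ψ := zmodMulEquivOfGenerator hφ hcard with hψ
  refine ⟨ψ.symm.toMonoidHom.comp (AlgEquiv.restrictNormalHom E⟮ζ⟯), σ, ?_, ?_, ?_, ?_⟩
  · exact ψ.symm.surjective.comp (AlgEquiv.restrictNormalHom_surjective Ω)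
  · intro g
    rw [MonoidHom.mem_ker, MonoidHom.comp_apply, ← mem_fixingSubgroup_adjoin_simple_iff (E := E),
      ← IntermediateField.restrictNormalHom_ker, MonoidHom.mem_ker]
    show ψ.symm _ = 1 ↔ _
    rw [map_eq_one_iff ψ.symm ψ.symm.injective]
  · rw [MonoidHom.comp_apply, hσ]
    exact zmodMulEquivOfGenerator_symm_apply_generator hφ hcard
  · intro x
    rw [← hn]
    exact prod_range_pow_eq_norm E⟮ζ⟯ φ hφ σ hσ x

omit [CharZero E] [IsAlgClosed Ω] [Algebra.IsAlgebraic E Ω] in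
theorem restrictScalars_pow_apply (K : IntermediateField E Ω) (τ' : Ω ≃ₐ[K] Ω) (i : ℕ) (y : Ω) :
    ((τ'.restrictScalars E) ^ i) y = (τ' ^ i) y := by
  induction i generalizing y with
  | zero => simp
  | succ i ih =>
    rw [pow_succ, pow_succ, AlgEquiv.mul_apply, AlgEquiv.mul_apply, ih]
    rfl

/-- The order of the unramified layer over `K` is the ramification index of `K/E`. -/
theorem finrank_unram_intermediate (w : Valuation Ω Γ₀) (hinv : IsInvVal E w)
    (hE : IsLocalVal (resVal E w))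
    {m : ℕ} (hm : Nat.Coprime m (resCard (resVal E w))) {ζ : Ω}
    (hζ : IsPrimitiveRoot ζ m) (K : IntermediateField E Ω) [FiniteDimensional E K]
    [IsGalois E K] (hK : Module.finrank E K = Module.finrank E E⟮ζ⟯) {e f : ℕ} (hf : 0 < f)
    (hef : e * f = Module.finrank E K)
    (hcard : resCard (resVal K w) = resCard (resVal E w) ^ f)
    (hm' : Nat.Coprime m (resCard (resVal K w))) :
    Module.finrank K K⟮ζ⟯ = e := by
  have hA : Algebra.IsAlgebraic K Ω := Algebra.IsAlgebraic.tower_top (K := E) K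
  have h1 := unram_finrank (E := K) w (isInvVal_intermediate w hinv K)
    (isLocalVal_intermediate w hinv hE K) hm' hζ
  have h2 := unram_finrank (E := E) w hinv hE hm hζ
  rw [h1]
  have key : ∀ (Q' : ℕ) (hQ' : Q' = resCard (resVal E w) ^ f) (hc : Nat.Coprime Q' m),
      orderOf (ZMod.unitOfCoprime Q' hc) = e := by
    intro Q' hQ' hc
    subst hQ'
    exact orderOf_unitOfCoprime_pow hf hm.symm hc (by rw [← h2, ← hK, hef])
  exact key _ hcard hm'.symm

/-- **Absorption.**  For a finite Galois `K/E` of degree `n`, every element of `Eˣ` is a norm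
from `K⟮ζ⟯` to `K`. -/
theorem unram_absorb (w : Valuation Ω Γ₀) (hinv : IsInvVal E w)
    (hE : IsLocalVal (resVal E w))
    {m : ℕ} (hm : Nat.Coprime m (resCard (resVal E w))) (hm0 : 0 < m) {ζ : Ω}
    (hζ : IsPrimitiveRoot ζ m) {n : ℕ} (hn : Module.finrank E E⟮ζ⟯ = n)
    (χ : (Ω ≃ₐ[E] Ω) →* Multiplicative (ZMod n)) (hker : ∀ g, g ∈ χ.ker ↔ g ζ = ζ)
    (K : IntermediateField E Ω) [FiniteDimensional E K] [IsGalois E K]
    (hK : Module.finrank E K = n) (hU : UNR2At K w ζ) :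
    ∃ (τ : Ω ≃ₐ[E] Ω) (k : ℕ), τ ∈ K.fixingSubgroup ∧ 0 < k ∧
      (∀ h ∈ K.fixingSubgroup, ∃ i : ℕ, χ h = χ τ ^ i) ∧ orderOf (χ τ) = k ∧
      ∀ a : E, a ≠ 0 → ∃ x : Ω, x ≠ 0 ∧ (∀ g ∈ K.fixingSubgroup ⊓ χ.ker, g x = x) ∧
        ∏ i ∈ Finset.range k, (τ ^ i) x = algebraMap E Ω a := by
  classical
  have hA : Algebra.IsAlgebraic K Ω := Algebra.IsAlgebraic.tower_top (K := E) K
  have hK' := isLocalVal_intermediate w hinv hE K
  have hinv' := isInvVal_intermediate w hinv K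
  obtain ⟨e, f, he, hf, hef, hcard, hunif⟩ := ef_intermediate w hinv hE K
  have hm' : Nat.Coprime m (resCard (resVal K w)) := by
    rw [hcard]; exact Nat.Coprime.pow_right f hm
  have hd : Module.finrank K K⟮ζ⟯ = e :=
    finrank_unram_intermediate w hinv hE hm hζ K (hK.trans hn.symm) hf hef hcard hm'
  obtain ⟨τ', hτ1, hτ2, hτ3⟩ := unram_layer (E := K) w hinv' hK' hm' hm0 hζ
  rw [hd] at hτ2 hτ3
  set τ : Ω ≃ₐ[E] Ω := τ'.restrictScalars E with hτ
  have hτpow : ∀ (i : ℕ) (y : Ω), (τ ^ i) y = (τ' ^ i) y := restrictScalars_pow_apply K τ'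
  have hχeq : ∀ g g' : Ω ≃ₐ[E] Ω, g ζ = g' ζ → χ g = χ g' := by
    intro g g' h
    have h1 : g'⁻¹ * g ∈ χ.ker := by
      rw [hker, AlgEquiv.mul_apply, h]
      exact g'.symm_apply_apply ζ
    rw [MonoidHom.mem_ker, map_mul, map_inv, inv_mul_eq_one] at h1
    exact h1.symm
  refine ⟨τ, e, ?_, he, ?_, ?_, ?_⟩
  · rw [IntermediateField.mem_fixingSubgroup_iff]
    intro x hx
    exact τ'.commutes ⟨x, hx⟩
  · intro h hh
    obtain ⟨i, hi⟩ := hτ1 (IntermediateField.fixingSubgroupEquiv K ⟨h, hh⟩)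
    refine ⟨i, ?_⟩
    rw [← map_pow]
    refine hχeq _ _ ?_
    rw [hτpow]
    exact hi
  · have hiff : ∀ j : ℕ, χ τ ^ j = 1 ↔ e ∣ j := by
      intro j
      rw [← map_pow, ← MonoidHom.mem_ker, hker, hτpow]
      exact hτ2 j
    exact Nat.dvd_antisymm (orderOf_dvd_of_pow_eq_one ((hiff e).2 dvd_rfl))
      ((hiff _).1 (pow_orderOf_eq_one _))
  · intro a ha
    obtain ⟨πE, hπE⟩ := hE.disc
    obtain ⟨πK, hπK⟩ := hK'.disc
    have hu := hunif πE πK hπE hπK
    obtain ⟨j, hj⟩ := hπE.2.2 a ha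
    have hπK0 : πK ≠ 0 := hπK.1
    have hwπK : w (algebraMap K Ω πK) ≠ 0 := (w.ne_zero_iff).2 (by
      rw [Ne, map_eq_zero]; exact hπK0)
    set y : K := πK ^ j with hy
    have hy0 : y ≠ 0 := zpow_ne_zero _ hπK0
    set u : K := algebraMap E K a / y ^ e with hu'
    have hu1 : resVal K w u = 1 := by
      have h1 : resVal K w (algebraMap E K a) = resVal E w a := rfl
      have h2 : resVal K w (y ^ e) = resVal E w a := by
        rw [hj, map_pow, hy, map_zpow₀, resVal_apply, resVal_apply, hu, ← zpow_natCast,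
          ← zpow_natCast, ← zpow_mul, ← zpow_mul, mul_comm]
      rw [hu', map_div₀, h1, h2, div_self]
      rw [hj]
      exact zpow_ne_zero _ ((resVal E w).ne_zero_iff.2 hπE.1)
    obtain ⟨x', hx'⟩ := hU.norm_unit u hu1
    set x : K⟮ζ⟯ := algebraMap K K⟮ζ⟯ y * x' with hx
    have hnorm : Algebra.norm K x = algebraMap E K a := by
      rw [hx, map_mul, Algebra.norm_algebraMap, hd, hx', hu', mul_div_cancel₀ _ (pow_ne_zero _ hy0)]
    have hfdK : FiniteDimensional K K⟮ζ⟯ :=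
      adjoin.finiteDimensional (Algebra.IsIntegral.isIntegral ζ)
    have hx0 : x ≠ 0 := by
      intro h0
      rw [h0, Algebra.norm_zero] at hnorm
      exact ha ((map_eq_zero (algebraMap E K)).1 hnorm.symm)
    refine ⟨(x : Ω), ?_, ?_, ?_⟩
    · intro h0
      apply hx0
      exact Subtype.ext h0
    · intro g hg
      have hgK : g ∈ K.fixingSubgroup := hg.1
      have hgζ : g ζ = ζ := (hker g).1 hg.2
      set g' : Ω ≃ₐ[K] Ω := IntermediateField.fixingSubgroupEquiv K ⟨g, hgK⟩ with hg'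
      have h1 : g' ∈ (K⟮ζ⟯).fixingSubgroup :=
        (mem_fixingSubgroup_adjoin_simple_iff (E := K) ζ g').2 hgζ
      rw [IntermediateField.mem_fixingSubgroup_iff] at h1
      exact h1 x x.2
    · have h3 := hτ3 x
      rw [hnorm] at h3
      rw [IsScalarTower.algebraMap_apply E K Ω, ← h3]
      refine Finset.prod_congr rfl (fun i _ => ?_)
      exact hτpow i _

/-- **Unramified characters exist (abstract form).** -/
theorem exists_unramCharAbs (w : Valuation Ω Γ₀) (hinv : IsInvVal E w)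
    (hE : IsLocalVal (resVal E w))
    (hU : ∀ (m : ℕ) (ζ : Ω), Nat.Coprime m (resCard (resVal E w)) → IsPrimitiveRoot ζ m →
      UNR2At E w ζ ∧ ∀ K : IntermediateField E Ω, FiniteDimensional E K → IsGalois E K →
        UNR2At K w ζ) (n : ℕ) (hn0 : 0 < n) :
    ∃ (χ : (Ω ≃ₐ[E] Ω) →* Multiplicative (ZMod n)) (σ : Ω ≃ₐ[E] Ω) (ζ : Ω),
      Function.Surjective χ ∧ (∀ g, g ∈ χ.ker ↔ g ζ = ζ) ∧ χ σ = Multiplicative.ofAdd 1 ∧
      (∀ u : E, resVal E w u = 1 → ∃ x : Ω, x ≠ 0 ∧ (∀ g ∈ χ.ker, g x = x) ∧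
        ∏ i ∈ Finset.range n, (σ ^ i) x = algebraMap E Ω u) ∧
      (∀ x : Ω, x ≠ 0 → (∀ g ∈ χ.ker, g x = x) →
        ∃ y : E, y ≠ 0 ∧ w x = w (algebraMap E Ω y)) ∧
      (∀ K : IntermediateField E Ω, FiniteDimensional E K → IsGalois E K →
        Module.finrank E K = n →
        ∃ (τ : Ω ≃ₐ[E] Ω) (k : ℕ), τ ∈ K.fixingSubgroup ∧ 0 < k ∧
          (∀ h ∈ K.fixingSubgroup, ∃ i : ℕ, χ h = χ τ ^ i) ∧ orderOf (χ τ) = k ∧
          ∀ a : E, a ≠ 0 → ∃ x : Ω, x ≠ 0 ∧ (∀ g ∈ K.fixingSubgroup ⊓ χ.ker, g x = x) ∧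
            ∏ i ∈ Finset.range k, (τ ^ i) x = algebraMap E Ω a) := by
  classical
  have hGal : IsGalois E Ω := isGalois_algClosed
  obtain ⟨m, ζ, hm, hζ, hn⟩ := unram_exists_degree w hinv hE n hn0
  have hm0 : 0 < m := by
    rcases Nat.eq_zero_or_pos m with h | h
    · exfalso
      obtain ⟨ℓ, k, hℓ, hk, hcard, -⟩ := exists_prime_resCard hE.finRes
      rw [h, Nat.coprime_zero_left, hcard] at hm
      have : 1 < ℓ ^ k := Nat.one_lt_pow hk.ne' hℓ.one_lt
      omega
    · exact h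
  obtain ⟨χ, σ, hsurj, hker, hfrob, hnorm⟩ := exists_unram_char_base w hinv hE hm hm0 hζ hn
  obtain ⟨hUE, hUK⟩ := hU m ζ hm hζ
  have hfixF : ∀ x : Ω, (∀ g ∈ χ.ker, g x = x) → x ∈ E⟮ζ⟯ := by
    intro x hx
    rw [← InfiniteGalois.fixedField_fixingSubgroup E⟮ζ⟯, IntermediateField.mem_fixedField_iff]
    intro g hg
    exact hx g ((hker g).2 ((mem_fixingSubgroup_adjoin_simple_iff ζ g).1 hg))
  have hFfix : ∀ x : E⟮ζ⟯, ∀ g ∈ χ.ker, g (x : Ω) = x := by
    intro x g hg
    have h1 : g ∈ (E⟮ζ⟯).fixingSubgroup :=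
      (mem_fixingSubgroup_adjoin_simple_iff ζ g).2 ((hker g).1 hg)
    rw [IntermediateField.mem_fixingSubgroup_iff] at h1
    exact h1 x x.2
  refine ⟨χ, σ, ζ, hsurj, hker, hfrob, ?_, ?_, ?_⟩
  · intro u hu
    obtain ⟨x', hx'⟩ := hUE.norm_unit u hu
    have hfd : FiniteDimensional E E⟮ζ⟯ :=
      adjoin.finiteDimensional (Algebra.IsIntegral.isIntegral ζ)
    refine ⟨(x' : Ω), ?_, hFfix x', ?_⟩
    · intro h0
      have hx0 : x' = 0 := Subtype.ext h0
      rw [hx0, Algebra.norm_zero] at hx'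
      rw [← hx', map_zero] at hu
      exact zero_ne_one hu
    · rw [hnorm x', hx']
  · intro x hx0 hx
    obtain ⟨y, hy⟩ := hUE.val ⟨x, hfixF x hx⟩
      (fun h => hx0 (congrArg Subtype.val h))
    refine ⟨y, ?_, hy⟩
    intro hy0
    rw [hy0, map_zero, map_zero] at hy
    exact hx0 ((w.zero_iff).1 hy)
  · intro K hKfd hKG hK
    exact unram_absorb w hinv hE hm hm0 hζ hn χ hker K hK (hUK K hKfd hKG)

end Main

end Fermat.Agent.F4.Loc
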