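import Fermat.Agent.F4.Loc.LocalGal
import Fermat.Agent.F4.Loc.FTCAbs

/-!
# F4 / Loc / FTC : unramified characters in subgroup form (seat FTC, helper26)

Transport of `exists_unramCharAbs` (file `FTCAbs`) along the isomorphism
`Γ ≃* Gal(Ω/E)` of a local Galois group.  Sorry-free; the statements of seat UNR2 enter as the
hypothesis `UNR2Input q`.
-/

set_option autoImplicit false
set_option linter.unusedSectionVars false

open scoped NNReal
open IntermediateField

namespace Fermat.Agent.F4.Loc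

section Adjoin

variable {E Ω : Type*} [Field E] [Field Ω] [Algebra E Ω]

/-- An automorphism fixes `adjoin E S` pointwise iff it fixes `S` pointwise. -/
theorem mem_fixingSubgroup_adjoin_iff (S : Set Ω) (g : Ω ≃ₐ[E] Ω) :
    g ∈ (IntermediateField.adjoin E S).fixingSubgroup ↔ ∀ x ∈ S, g x = x := by
  rw [IntermediateField.mem_fixingSubgroup_iff]
  constructor
  · intro h x hx
    exact h x (IntermediateField.subset_adjoin E S hx)
  · intro h x hx
    have hle : IntermediateField.adjoin E S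
        ≤ IntermediateField.fixedField (Subgroup.zpowers g) := by
      rw [IntermediateField.adjoin_le_iff]
      intro y hy
      rw [SetLike.mem_coe, IntermediateField.mem_fixedField_iff]
      intro f hf
      obtain ⟨k, rfl⟩ := Subgroup.mem_zpowers_iff.1 hf
      have hg : ∀ k : ℕ, (g ^ k) y = y := by
        intro k
        induction k with
        | zero => simp
        | succ k ih => rw [pow_succ, AlgEquiv.mul_apply, h y hy, ih]
      have hginv : ∀ k : ℕ, (g ^ k)⁻¹ y = y := fun k => by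
        conv_lhs => rw [← hg k]
        exact (g ^ k).symm_apply_apply y
      rcases Int.eq_nat_or_neg k with ⟨j, rfl | rfl⟩
      · rw [zpow_natCast]; exact hg j
      · rw [zpow_neg, zpow_natCast]; exact hginv j
    exact (IntermediateField.mem_fixedField_iff _ x).1 (hle hx) g (Subgroup.mem_zpowers g)

end Adjoin

variable {q : ℕ} [Fact q.Prime]
variable {Γ : Type} [Group Γ] [MulSemiringAction Γ (PadicAlgCl q)]
  [MulDistribMulAction Γ (PadicAlgCl q)ˣ]

/-- The dictionary of a local Galois group: the base field `E`, and `ι : Γ ≃* Gal(Ω/E)`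
compatible with the actions. -/
theorem IsLocalGal.exists_iso (hΓ : IsLocalGal q Γ) :
    ∃ (E : IntermediateField ℚ_[q] (PadicAlgCl q)) (_ : FiniteDimensional ℚ_[q] E)
      (ι : Γ ≃* (PadicAlgCl q ≃ₐ[E] PadicAlgCl q)),
      ∀ (γ : Γ) (x : PadicAlgCl q), ι γ x = γ • x := by
  obtain ⟨-, E, e, hfd, hact⟩ := hΓ
  refine ⟨E, hfd, e.trans (IntermediateField.fixingSubgroupEquiv E), fun γ x => ?_⟩
  rw [hact]
  rfl

section Transport

variable {E : IntermediateField ℚ_[q] (PadicAlgCl q)}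
  (ι : Γ ≃* (PadicAlgCl q ≃ₐ[E] PadicAlgCl q))

theorem ftc_coe_smul (hu : ∀ (γ : Γ) (u : (PadicAlgCl q)ˣ),
      ((γ • u : (PadicAlgCl q)ˣ) : PadicAlgCl q) = γ • (u : PadicAlgCl q))
    (hι : ∀ (γ : Γ) (x : PadicAlgCl q), ι γ x = γ • x) (γ : Γ) (u : (PadicAlgCl q)ˣ) :
    ((γ • u : (PadicAlgCl q)ˣ) : PadicAlgCl q) = ι γ (u : PadicAlgCl q) := by
  rw [hu, hι]

theorem ftc_coe_cycNorm (hu : ∀ (γ : Γ) (u : (PadicAlgCl q)ˣ),
      ((γ • u : (PadicAlgCl q)ˣ) : PadicAlgCl q) = γ • (u : PadicAlgCl q))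
    (hι : ∀ (γ : Γ) (x : PadicAlgCl q), ι γ x = γ • x) (k : ℕ) (τ : Γ)
    (m : (PadicAlgCl q)ˣ) :
    ((cycNorm k τ m : (PadicAlgCl q)ˣ) : PadicAlgCl q)
      = ∏ i ∈ Finset.range k, ((ι τ) ^ i) (m : PadicAlgCl q) := by
  unfold cycNorm
  rw [Units.coe_prod]
  refine Finset.prod_congr rfl (fun i _ => ?_)
  rw [ftc_coe_smul ι hu hι, map_pow]

theorem ftc_fixed_top (hu : ∀ (γ : Γ) (u : (PadicAlgCl q)ˣ),
      ((γ • u : (PadicAlgCl q)ˣ) : PadicAlgCl q) = γ • (u : PadicAlgCl q))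
    (hι : ∀ (γ : Γ) (x : PadicAlgCl q), ι γ x = γ • x) (u : (PadicAlgCl q)ˣ)
    (hfix : IsFixedBy (⊤ : Subgroup Γ) u) :
    ∃ a : E, a ≠ 0 ∧ algebraMap E (PadicAlgCl q) a = (u : PadicAlgCl q) := by
  have hA : Algebra.IsAlgebraic E (PadicAlgCl q) :=
    Algebra.IsAlgebraic.tower_top (K := ℚ_[q]) E
  have hGal : IsGalois E (PadicAlgCl q) := isGalois_algClosed
  have h1 : (u : PadicAlgCl q) ∈ Set.range (algebraMap E (PadicAlgCl q)) := by
    rw [InfiniteGalois.mem_range_algebraMap_iff_fixed]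
    intro f
    obtain ⟨γ, rfl⟩ := ι.surjective f
    rw [← ftc_coe_smul ι hu hι, hfix γ (Subgroup.mem_top γ)]
  obtain ⟨a, ha⟩ := h1
  refine ⟨a, ?_, ha⟩
  intro h0
  rw [h0, map_zero] at ha
  exact u.ne_zero ha.symm

theorem ftc_isFixedBy_mk0 (hu : ∀ (γ : Γ) (u : (PadicAlgCl q)ˣ),
      ((γ • u : (PadicAlgCl q)ˣ) : PadicAlgCl q) = γ • (u : PadicAlgCl q))
    (hι : ∀ (γ : Γ) (x : PadicAlgCl q), ι γ x = γ • x) (S : Subgroup Γ) (x : PadicAlgCl q)
    (hx : x ≠ 0) (hfix : ∀ γ ∈ S, ι γ x = x) : IsFixedBy S (Units.mk0 x hx) := by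
  intro γ hγ
  apply Units.ext
  rw [ftc_coe_smul ι hu hι]
  exact hfix γ hγ

end Transport

/-- **The input from seat UNR2**, for all finite subextensions `E` of `Ω/ℚ_q` and all finite
Galois `K/E`. -/
def UNR2Input (q : ℕ) [Fact q.Prime] : Prop :=
  ∀ (E : IntermediateField ℚ_[q] (PadicAlgCl q)), FiniteDimensional ℚ_[q] E →
    ∀ (m : ℕ) (ζ : PadicAlgCl q), Nat.Coprime m (resCard (resVal E (padicVal q))) →
      IsPrimitiveRoot ζ m →
      UNR2At E (padicVal q) ζ ∧ ∀ K : IntermediateField E (PadicAlgCl q),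
        FiniteDimensional E K → IsGalois E K → UNR2At K (padicVal q) ζ

/-- `UNR2Input` from the two theorems of seat UNR2 (stated for fields in `Type`, value group
`ℝ≥0`). -/
theorem unr2Input_of
    (hval : ∀ (E Ω : Type) [Field E] [Field Ω] [Algebra E Ω] [CharZero E] [IsAlgClosed Ω]
      [Algebra.IsAlgebraic E Ω] (w : Valuation Ω ℝ≥0), IsInvVal E w → IsLocalVal (resVal E w) →
      ∀ (m : ℕ), Nat.Coprime m (resCard (resVal E w)) → ∀ (ζ : Ω), IsPrimitiveRoot ζ m →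
      ∀ x : E⟮ζ⟯, x ≠ 0 → ∃ y : E, w (x : Ω) = w (algebraMap E Ω y))
    (hnu : ∀ (E Ω : Type) [Field E] [Field Ω] [Algebra E Ω] [CharZero E] [IsAlgClosed Ω]
      [Algebra.IsAlgebraic E Ω] (w : Valuation Ω ℝ≥0), IsInvVal E w → IsLocalVal (resVal E w) →
      ∀ (m : ℕ), Nat.Coprime m (resCard (resVal E w)) → ∀ (ζ : Ω), IsPrimitiveRoot ζ m →
      ∀ u : E, resVal E w u = 1 → ∃ x : E⟮ζ⟯, Algebra.norm E x = u) :
    UNR2Input q := by
  intro E hfd m ζ hm hζ
  have hA : Algebra.IsAlgebraic E (PadicAlgCl q) :=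
    Algebra.IsAlgebraic.tower_top (K := ℚ_[q]) E
  have hinv : IsInvVal E (padicVal q) := padicVal_isInvVal q E
  have hE : IsLocalVal (resVal E (padicVal q)) := padicVal_isLocalVal q E
  refine ⟨⟨hval E _ _ hinv hE m hm ζ hζ, hnu E _ _ hinv hE m hm ζ hζ⟩, fun K hKfd hKG => ?_⟩
  have hAK : Algebra.IsAlgebraic K (PadicAlgCl q) := Algebra.IsAlgebraic.tower_top (K := E) K
  have hK' := isLocalVal_intermediate (padicVal q) hinv hE K
  have hinv' := isInvVal_intermediate (padicVal q) hinv K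
  obtain ⟨e, f, -, -, -, hcard, -⟩ := ef_intermediate (padicVal q) hinv hE K
  have hm' : Nat.Coprime m (resCard (resVal K (padicVal q))) := by
    rw [hcard]; exact Nat.Coprime.pow_right f hm
  exact ⟨hval K _ _ hinv' hK' m hm' ζ hζ, hnu K _ _ hinv' hK' m hm' ζ hζ⟩

/-- **FTC, unfolded form**: unramified characters exist for every `n ≥ 1`. -/
theorem exists_unram_char_of (hU : UNR2Input q) (hΓ : IsLocalGal q Γ) (n : ℕ) [NeZero n] :
    ∃ (χ : Γ →* Multiplicative (ZMod n)) (σ : Γ),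
      Function.Surjective χ ∧ IsOpenSub q χ.ker ∧ χ σ = Multiplicative.ofAdd 1 ∧
      (∀ u : (PadicAlgCl q)ˣ, IsFixedBy (⊤ : Subgroup Γ) u →
        padicVal q (u : PadicAlgCl q) = 1 →
          ∃ m : (PadicAlgCl q)ˣ, IsFixedBy χ.ker m ∧ cycNorm n σ m = u) ∧
      (∀ m : (PadicAlgCl q)ˣ, IsFixedBy χ.ker m →
        ∃ y : (PadicAlgCl q)ˣ, IsFixedBy (⊤ : Subgroup Γ) y ∧
          padicVal q (m : PadicAlgCl q) = padicVal q (y : PadicAlgCl q)) ∧
      (∀ (H : Subgroup Γ), H.Normal → IsOpenSub q H → H.index = n →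
        ∃ (τ : Γ) (k : ℕ), τ ∈ H ∧ 0 < k ∧ (∀ h ∈ H, ∃ i : ℕ, χ h = χ τ ^ i) ∧
          orderOf (χ τ) = k ∧
          ∀ a : (PadicAlgCl q)ˣ, IsFixedBy (⊤ : Subgroup Γ) a →
            ∃ m : (PadicAlgCl q)ˣ, IsFixedBy (H ⊓ χ.ker) m ∧ cycNorm k τ m = a) := by
  classical
  have hu := hΓ.1
  obtain ⟨E, hfd, ι, hι⟩ := hΓ.exists_iso
  have hA : Algebra.IsAlgebraic E (PadicAlgCl q) :=
    Algebra.IsAlgebraic.tower_top (K := ℚ_[q]) E
  have hGal : IsGalois E (PadicAlgCl q) := isGalois_algClosed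
  have hinv : IsInvVal E (padicVal q) := padicVal_isInvVal q E
  have hE : IsLocalVal (resVal E (padicVal q)) := padicVal_isLocalVal q E
  obtain ⟨χG, σG, ζ, hsurj, hker, hfrob, hunit, hval, habs⟩ :=
    exists_unramCharAbs (padicVal q) hinv hE (hU E hfd) n (Nat.pos_of_ne_zero (NeZero.ne n))
  set χ : Γ →* Multiplicative (ZMod n) := χG.comp ι.toMonoidHom with hχ
  have hχapp : ∀ γ, χ γ = χG (ι γ) := fun γ => rfl
  have hkerχ : ∀ γ, γ ∈ χ.ker ↔ ι γ ∈ χG.ker := fun γ => Iff.rfl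
  refine ⟨χ, ι.symm σG, ?_, ?_, ?_, ?_, ?_, ?_⟩
  · exact hsurj.comp ι.surjective
  · refine ⟨{ζ}, fun γ => ?_⟩
    rw [hkerχ, hker, hι]
    simp
  · rw [hχapp, MulEquiv.apply_symm_apply, hfrob]
  · intro u hufix hu1
    obtain ⟨a, ha0, ha⟩ := ftc_fixed_top ι hu hι u hufix
    obtain ⟨x, hx0, hxfix, hxnorm⟩ := hunit a (by rw [resVal_apply, ha]; exact hu1)
    refine ⟨Units.mk0 x hx0, ftc_isFixedBy_mk0 ι hu hι _ x hx0
      (fun γ hγ => hxfix _ ((hkerχ γ).1 hγ)), ?_⟩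
    apply Units.ext
    rw [ftc_coe_cycNorm ι hu hι, MulEquiv.apply_symm_apply, Units.val_mk0, hxnorm, ha]
  · intro m hm
    obtain ⟨y, hy0, hy⟩ := hval (m : PadicAlgCl q) m.ne_zero (by
      intro g hg
      obtain ⟨γ, rfl⟩ := ι.surjective g
      rw [← ftc_coe_smul ι hu hι, hm γ ((hkerχ γ).2 hg)])
    have hy0' : algebraMap E (PadicAlgCl q) y ≠ 0 := by
      rw [Ne, map_eq_zero]; exact hy0
    refine ⟨Units.mk0 _ hy0', ftc_isFixedBy_mk0 ι hu hι _ _ hy0'
      (fun γ _ => (ι γ).commutes y), ?_⟩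
    rw [Units.val_mk0]
    exact hy
  · intro H hHn hHo hHidx
    obtain ⟨T, hT⟩ := hHo
    set K : IntermediateField E (PadicAlgCl q) :=
      IntermediateField.adjoin E (T : Set (PadicAlgCl q)) with hK
    have hKfix : ∀ γ : Γ, ι γ ∈ K.fixingSubgroup ↔ γ ∈ H := by
      intro γ
      rw [hK, mem_fixingSubgroup_adjoin_iff, hT]
      constructor
      · intro h x hx
        rw [← hι]; exact h x (Finset.mem_coe.2 hx)
      · intro h x hx
        rw [hι]; exact h x (Finset.mem_coe.1 hx)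
    have hKmap : K.fixingSubgroup = H.map ι.toMonoidHom := by
      ext g
      obtain ⟨γ, rfl⟩ := ι.surjective g
      rw [hKfix, Subgroup.mem_map]
      constructor
      · intro h; exact ⟨γ, h, rfl⟩
      · rintro ⟨γ', hγ', hγγ'⟩
        have : γ' = γ := ι.injective hγγ'
        rw [← this]; exact hγ'
    have hKfd : FiniteDimensional E K := by
      rw [hK]
      have : Finite (T : Set (PadicAlgCl q)) := Finset.finite_toSet T |>.to_subtype
      exact IntermediateField.finiteDimensional_adjoin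
        (fun x _ => Algebra.IsIntegral.isIntegral x)
    have hKnormal : K.fixingSubgroup.Normal := by
      rw [hKmap]
      exact Subgroup.Normal.map hHn _ ι.surjective
    have hKG : IsGalois E K := (InfiniteGalois.normal_iff_isGalois K).1 hKnormal
    have hKn : Module.finrank E K = n := by
      rw [IntermediateField.finrank_eq_fixingSubgroup_index, hKmap]
      rw [show (H.map ι.toMonoidHom) = H.map (ι : Γ →* _) from rfl, Subgroup.index_map_equiv]
      exact hHidx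
    obtain ⟨τG, k, hτK, hk0, hgen, hord, hnorm⟩ := habs K hKfd hKG hKn
    refine ⟨ι.symm τG, k, ?_, hk0, ?_, ?_, ?_⟩
    · rw [← hKfix, MulEquiv.apply_symm_apply]; exact hτK
    · intro h hh
      obtain ⟨i, hi⟩ := hgen (ι h) ((hKfix h).2 hh)
      exact ⟨i, by rw [hχapp, hχapp, MulEquiv.apply_symm_apply]; exact hi⟩
    · rw [hχapp, MulEquiv.apply_symm_apply]; exact hord
    · intro a hafix
      obtain ⟨a₀, ha0, ha⟩ := ftc_fixed_top ι hu hι a hafix
      obtain ⟨x, hx0, hxfix, hxnorm⟩ := hnorm a₀ ha0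
      refine ⟨Units.mk0 x hx0, ftc_isFixedBy_mk0 ι hu hι _ x hx0 (fun γ hγ =>
        hxfix _ ⟨(hKfix γ).2 hγ.1, (hkerχ γ).1 hγ.2⟩), ?_⟩
      apply Units.ext
      rw [ftc_coe_cycNorm ι hu hι, MulEquiv.apply_symm_apply, Units.val_mk0, hxnorm, ha]

end Fermat.Agent.F4.Loc
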