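import Fermat.Agent.F4.Loc.Unram
import Fermat.Agent.F4.Loc.EF

/-!
# F4 / Loc / Unram2 : arithmetic of the unramified extensions `E(ζ_m)`  (seat UNR2)

Setting of `F4/Loc/Unram.lean`: `Ω` algebraically closed and algebraic over `E`
(characteristic `0`), `w` a valuation of `Ω` invariant under `Ω ≃ₐ[E] Ω`, `E` local,
`Q = resCard`, `m` prime to `Q`, `ζ ∈ Ω` a primitive `m`-th root of unity, `F = E⟮ζ⟯`.

* `unr2_resIndep` : the powers `1, ζ, …, ζ^(n-1)` (`n = [F : E]`) are residually independent;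
* `unram_val` : the value group of `E⟮ζ⟯` is that of `E` (`e = 1`);
* `unram_norm_unit` : every unit of `E` is a norm from `E⟮ζ⟯`.

Proofs.  The conjugates `ξ_j` of `ζ` are pairwise incongruent modulo the maximal ideal of `w`, so
their Vandermonde matrix is invertible over the residue field of `Ω`: this gives the residual
independence of the powers of `ζ` (hence `e = 1` and an integral basis) and a power of `ζ` whose
trace is a unit.  One Newton–Hensel step for `det (1 + X M) - u` then shows that the units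
congruent to `1` are norms, and the norms of the `(Q^n - 1)`-th roots of unity represent all
nonzero residue classes.
-/

set_option autoImplicit false

open Polynomial IntermediateField

namespace Fermat.Agent.F4.Loc

/-! ### Vandermonde modulo the maximal ideal -/

section Vandermonde

variable {Ω : Type*} [Field Ω] {Γ₀ : Type*} [LinearOrderedCommGroupWithZero Γ₀]
  (w : Valuation Ω Γ₀) {n : ℕ} (ξ : Fin n → Ω)

/-- If the `ξ_j` are integral and pairwise incongruent, their residues are distinct. -/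
lemma unr2_residue_injective (hξ1 : ∀ j, w (ξ j) ≤ 1) (hξ : ∀ j k, j ≠ k → w (ξ j - ξ k) = 1) :
    Function.Injective fun j : Fin n =>
      IsLocalRing.residue ↥w.valuationSubring (⟨ξ j, hξ1 j⟩ : w.valuationSubring) := by
  intro j k hjk
  by_contra hne
  have h1 : w (ξ j - ξ k) < 1 := (residue_eq_iff_val w _ _).1 hjk
  rw [hξ j k hne] at h1
  exact lt_irrefl _ h1

/-- Vandermonde modulo the maximal ideal: if `∑ c_i ξ_j^i ≡ 0` for all `j` then `c ≡ 0`. -/
lemma unr2_vandermonde_indep (hξ1 : ∀ j, w (ξ j) ≤ 1) (hξ : ∀ j k, j ≠ k → w (ξ j - ξ k) = 1)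
    (c : Fin n → Ω) (hc : ∀ i, w (c i) ≤ 1)
    (h : ∀ j, w (∑ i, c i * ξ j ^ (i : ℕ)) < 1) : ∀ i, w (c i) < 1 := by
  classical
  set res := IsLocalRing.residue ↥w.valuationSubring with hres
  set ξ' : Fin n → w.valuationSubring := fun j => ⟨ξ j, hξ1 j⟩ with hξ'
  set c' : Fin n → w.valuationSubring := fun i => ⟨c i, hc i⟩ with hc'
  have hinj : Function.Injective fun j => res (ξ' j) := unr2_residue_injective w ξ hξ1 hξ
  have hdet : (Matrix.vandermonde fun j => res (ξ' j)).det ≠ 0 :=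
    Matrix.det_vandermonde_ne_zero_iff.2 hinj
  have hmul : (Matrix.vandermonde fun j => res (ξ' j)).mulVec (fun i => res (c' i)) = 0 := by
    funext j
    simp only [Matrix.mulVec, dotProduct, Matrix.vandermonde_apply, Pi.zero_apply]
    have h1 : ∑ i : Fin n, res (ξ' j) ^ (i : ℕ) * res (c' i)
        = res (∑ i, c' i * ξ' j ^ (i : ℕ)) := by
      rw [map_sum]
      refine Finset.sum_congr rfl fun i _ => ?_
      rw [map_mul, map_pow, mul_comm]
    rw [h1, residue_eq_zero_iff_val]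
    have h2 : ((∑ i, c' i * ξ' j ^ (i : ℕ) : w.valuationSubring) : Ω)
        = ∑ i, c i * ξ j ^ (i : ℕ) := by
      push_cast
      rfl
    rw [h2]
    exact h j
  have h0 := Matrix.eq_zero_of_mulVec_eq_zero hdet hmul
  intro i
  have := congrFun h0 i
  exact (residue_eq_zero_iff_val w (c' i)).1 this

/-- Vandermonde modulo the maximal ideal: some power sum of the `ξ_j` is a unit. -/
lemma unr2_vandermonde_powersum (hn : 0 < n) (hξ1 : ∀ j, w (ξ j) ≤ 1)
    (hξ : ∀ j k, j ≠ k → w (ξ j - ξ k) = 1) : ∃ i : Fin n, w (∑ j, ξ j ^ (i : ℕ)) = 1 := by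
  classical
  by_contra hcon
  simp only [not_exists] at hcon
  have hle : ∀ i : Fin n, w (∑ j, ξ j ^ (i : ℕ)) ≤ 1 := fun i =>
    Valuation.map_sum_le _ fun j _ => by
      rw [map_pow]
      exact pow_le_one₀ zero_le (hξ1 j)
  have hlt : ∀ i : Fin n, w (∑ j, ξ j ^ (i : ℕ)) < 1 := fun i => lt_of_le_of_ne (hle i) (hcon i)
  set res := IsLocalRing.residue ↥w.valuationSubring with hres
  set ξ' : Fin n → w.valuationSubring := fun j => ⟨ξ j, hξ1 j⟩ with hξ'
  have hinj : Function.Injective fun j => res (ξ' j) := unr2_residue_injective w ξ hξ1 hξ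
  have hdet : (Matrix.vandermonde fun j => res (ξ' j)).det ≠ 0 :=
    Matrix.det_vandermonde_ne_zero_iff.2 hinj
  have hmul : Matrix.vecMul (fun _ : Fin n => (1 : IsLocalRing.ResidueField ↥w.valuationSubring))
      (Matrix.vandermonde fun j => res (ξ' j)) = 0 := by
    funext i
    simp only [Matrix.vecMul, dotProduct, Matrix.vandermonde_apply, Pi.zero_apply, one_mul]
    have h1 : ∑ j, res (ξ' j) ^ (i : ℕ) = res (∑ j, ξ' j ^ (i : ℕ)) := by
      rw [map_sum]
      refine Finset.sum_congr rfl fun j _ => ?_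
      rw [map_pow]
    rw [h1, residue_eq_zero_iff_val]
    have h2 : ((∑ j, ξ' j ^ (i : ℕ) : w.valuationSubring) : Ω) = ∑ j, ξ j ^ (i : ℕ) := by
      push_cast
      rfl
    rw [h2]
    exact hlt i
  have h0 := Matrix.eq_zero_of_vecMul_eq_zero hdet hmul
  have := congrFun h0 ⟨0, hn⟩
  exact one_ne_zero this

end Vandermonde

variable {E Ω : Type*} [Field E] [Field Ω] [Algebra E Ω] [CharZero E] [IsAlgClosed Ω]
  [Algebra.IsAlgebraic E Ω] {Γ₀ : Type*} [LinearOrderedCommGroupWithZero Γ₀]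

/-! ### The conjugates of `ζ` -/

section Conj

omit [CharZero E] [IsAlgClosed Ω] [Algebra.IsAlgebraic E Ω] in
/-- The residue cardinality of a local valuation is at least `2`. -/
lemma unr2_one_lt_resCard {v : Valuation E Γ₀} (h : HasFiniteResidue v) : 1 < resCard v := by
  have := finite_residue_of_hasFiniteResidue h
  exact Finite.one_lt_card

omit [CharZero E] [IsAlgClosed Ω] [Algebra.IsAlgebraic E Ω] in
/-- An integer prime to the residue cardinality is positive. -/
lemma unr2_pos_of_coprime (w : Valuation Ω Γ₀) (hE : IsLocalVal (resVal E w)) {m : ℕ}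
    (hm : Nat.Coprime m (resCard (resVal E w))) : 0 < m := by
  rcases Nat.eq_zero_or_pos m with h | h
  · rw [h, Nat.coprime_zero_left] at hm
    have := unr2_one_lt_resCard hE.finRes
    omega
  · exact h

omit [CharZero E] [IsAlgClosed Ω] [Algebra.IsAlgebraic E Ω] in
/-- Roots of unity are units for `w`. -/
lemma unr2_val_eq_one_of_pow_eq_one (w : Valuation Ω Γ₀) {m : ℕ} (hm : 0 < m) {x : Ω}
    (hx : x ^ m = 1) : w x = 1 := by
  have h1 : w x ^ m = 1 := by rw [← map_pow, hx, map_one]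
  exact eq_one_of_pow_eq_one' hm.ne' h1

/-- The conjugates of `ζ`: a family `σ_j`, `j < [E(ζ) : E]`, of automorphisms of `Ω` over `E`
which restricts to the whole Galois group of `E(ζ)/E`. -/
lemma unr2_exists_conj (w : Valuation Ω Γ₀) (hE : IsLocalVal (resVal E w))
    {m : ℕ} (hm : Nat.Coprime m (resCard (resVal E w))) {ζ : Ω} (hζ : IsPrimitiveRoot ζ m) :
    ∃ σ : Fin (Module.finrank E E⟮ζ⟯) → (Ω ≃ₐ[E] Ω),
      (∀ j, w (σ j ζ) = 1) ∧
      (∀ j k, j ≠ k → w (σ j ζ - σ k ζ) = 1) ∧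
      (∀ x : E⟮ζ⟯, algebraMap E Ω (Algebra.trace E E⟮ζ⟯ x) = ∑ j, σ j (x : Ω)) ∧
      (∀ x : E⟮ζ⟯, algebraMap E Ω (Algebra.norm E x) = ∏ j, σ j (x : Ω)) := by
  classical
  have hm0 : 0 < m := unr2_pos_of_coprime w hE hm
  have : NeZero m := ⟨hm0.ne'⟩
  have hint : IsIntegral E ζ := Algebra.IsIntegral.isIntegral ζ
  have : FiniteDimensional E E⟮ζ⟯ := adjoin.finiteDimensional hint
  have : IsGalois E E⟮ζ⟯ := unram_isGalois hm0 hζ
  have : IsAlgClosure E Ω := ⟨inferInstance, inferInstance⟩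
  have hcard : Nat.card (E⟮ζ⟯ ≃ₐ[E] E⟮ζ⟯) = Module.finrank E E⟮ζ⟯ :=
    IsGalois.card_aut_eq_finrank E E⟮ζ⟯
  let e : Fin (Module.finrank E E⟮ζ⟯) ≃ (E⟮ζ⟯ ≃ₐ[E] E⟮ζ⟯) := (Finite.equivFinOfCardEq hcard).symm
  let σ : Fin (Module.finrank E E⟮ζ⟯) → (Ω ≃ₐ[E] Ω) := fun j => (e j).liftNormal Ω
  have hσ : ∀ j (x : E⟮ζ⟯), σ j (x : Ω) = ((e j x : E⟮ζ⟯) : Ω) := fun j x =>
    AlgEquiv.liftNormal_commutes (e j) Ω x
  have hgen : ((AdjoinSimple.gen E ζ : E⟮ζ⟯) : Ω) = ζ := AdjoinSimple.coe_gen E ζ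
  have hσζ : ∀ j, σ j ζ = ((e j (AdjoinSimple.gen E ζ) : E⟮ζ⟯) : Ω) := fun j => by
    rw [← hσ j, hgen]
  have hpow : ∀ j, (σ j ζ) ^ m = 1 := fun j => by
    rw [← map_pow, hζ.pow_eq_one, map_one]
  refine ⟨σ, fun j => unr2_val_eq_one_of_pow_eq_one w hm0 (hpow j), fun j k hjk => ?_,
    fun x => ?_, fun x => ?_⟩
  · obtain ⟨a, -, ha⟩ := hζ.eq_pow_of_pow_eq_one (hpow j)
    obtain ⟨b, -, hb⟩ := hζ.eq_pow_of_pow_eq_one (hpow k)
    rw [← ha, ← hb]
    refine val_sub_one_rootOfUnity w hE hm hζ a b fun hab => hjk ?_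
    rw [ha, hb, hσζ, hσζ] at hab
    have h1 : e j (AdjoinSimple.gen E ζ) = e k (AdjoinSimple.gen E ζ) := Subtype.ext hab
    have h2 : ((e j : E⟮ζ⟯ ≃ₐ[E] E⟮ζ⟯) : E⟮ζ⟯ →ₐ[E] E⟮ζ⟯) = (e k : E⟮ζ⟯ ≃ₐ[E] E⟮ζ⟯) := by
      refine (adjoin.powerBasis hint).algHom_ext ?_
      rw [adjoin.powerBasis_gen]
      exact h1
    have h3 : e j = e k := AlgEquiv.coe_toAlgHom_injective h2
    exact e.injective h3
  · have h1 := congrArg (algebraMap E⟮ζ⟯ Ω) (trace_eq_sum_automorphisms (K := E) x)
    rw [← IsScalarTower.algebraMap_apply, map_sum] at h1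
    rw [h1, ← Equiv.sum_comp e]
    exact Finset.sum_congr rfl fun j _ => (hσ j x).symm
  · have h1 := congrArg (algebraMap E⟮ζ⟯ Ω) (Algebra.norm_eq_prod_automorphisms E x)
    rw [← IsScalarTower.algebraMap_apply, map_prod] at h1
    rw [h1, ← Equiv.prod_comp e]
    exact Finset.prod_congr rfl fun j _ => (hσ j x).symm

end Conj

/-! ### Residual independence of the powers of `ζ`, `e = 1` -/

section Indep

/-- The powers `1, ζ, …, ζ^(n-1)`, `n = [E(ζ) : E]`, are residually independent over `E`. -/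
theorem unr2_resIndep (w : Valuation Ω Γ₀) (hinv : IsInvVal E w) (hE : IsLocalVal (resVal E w))
    {m : ℕ} (hm : Nat.Coprime m (resCard (resVal E w))) {ζ : Ω} (hζ : IsPrimitiveRoot ζ m)
    {n : ℕ} (hn : n = Module.finrank E E⟮ζ⟯) :
    ResIndep E w (fun i : Fin n => ζ ^ (i : ℕ)) := by
  subst hn
  obtain ⟨σ, hσ1, hσ, -, -⟩ := unr2_exists_conj w hE hm hζ
  intro c hc hlt
  refine unr2_vandermonde_indep w (fun j => σ j ζ) (fun j => (hσ1 j).le) hσ
    (fun i => algebraMap E Ω (c i)) hc (fun j => ?_)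
  have h1 : ∑ i, algebraMap E Ω (c i) * (σ j ζ) ^ (i : ℕ) = σ j (∑ i, c i • ζ ^ (i : ℕ)) := by
    rw [map_sum]
    refine Finset.sum_congr rfl fun i _ => ?_
    rw [Algebra.smul_def, map_mul, AlgEquiv.commutes, map_pow]
  rw [h1, hinv]
  exact hlt

omit [CharZero E] [IsAlgClosed Ω] [Algebra.IsAlgebraic E Ω] in
/-- The expansion of an element of `E(ζ)` in the power basis, inside `Ω`. -/
lemma unr2_coe_eq_sum {ζ : Ω} (hint : IsIntegral E ζ) (x : E⟮ζ⟯) :
    (x : Ω) = ∑ i : Fin (adjoin.powerBasis hint).dim,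
      (adjoin.powerBasis hint).basis.repr x i • ζ ^ (i : ℕ) := by
  conv_lhs => rw [← (adjoin.powerBasis hint).basis.sum_repr x]
  rw [IntermediateField.coe_sum]
  refine Finset.sum_congr rfl fun i _ => ?_
  rw [IntermediateField.coe_smul, PowerBasis.coe_basis, adjoin.powerBasis_gen,
    IntermediateField.coe_pow, AdjoinSimple.coe_gen]

/-- The value of an element of `E(ζ)` is the maximum of the values of its coordinates in the
power basis. -/
lemma unr2_val_eq_max (w : Valuation Ω Γ₀) (hinv : IsInvVal E w) (hE : IsLocalVal (resVal E w))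
    {m : ℕ} (hm : Nat.Coprime m (resCard (resVal E w))) {ζ : Ω} (hζ : IsPrimitiveRoot ζ m)
    (hint : IsIntegral E ζ) (x : E⟮ζ⟯) :
    ∃ i0, w (x : Ω) = resVal E w ((adjoin.powerBasis hint).basis.repr x i0) ∧
      ∀ i, resVal E w ((adjoin.powerBasis hint).basis.repr x i) ≤ w (x : Ω) := by
  have hm0 : 0 < m := unr2_pos_of_coprime w hE hm
  have hdim : (adjoin.powerBasis hint).dim = Module.finrank E E⟮ζ⟯ :=
    ((adjoin.powerBasis hint).finrank).symm
  have hres := unr2_resIndep w hinv hE hm hζ hdim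
  have hb : ∀ i : Fin (adjoin.powerBasis hint).dim, w (ζ ^ (i : ℕ)) ≤ 1 := fun i => by
    rw [map_pow, unr2_val_eq_one_of_pow_eq_one w hm0 hζ.pow_eq_one, one_pow]
  have : Nonempty (Fin (adjoin.powerBasis hint).dim) :=
    Fin.pos_iff_nonempty.1 (adjoin.powerBasis hint).dim_pos
  obtain ⟨i0, hi0⟩ := Finite.exists_max
    (fun i => resVal E w ((adjoin.powerBasis hint).basis.repr x i))
  have hval := ResIndep.val_sum hb hres
    (fun i => (adjoin.powerBasis hint).basis.repr x i) i0 hi0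
  rw [← unr2_coe_eq_sum hint x] at hval
  exact ⟨i0, hval, fun i => hval ▸ hi0 i⟩

set_option linter.unusedVariables false in
/-- The value group of `E⟮ζ⟯` is that of `E` (`e = 1`). -/
theorem unram_val (w : Valuation Ω Γ₀) (hinv : IsInvVal E w) (hE : IsLocalVal (resVal E w))
    {m : ℕ} (hm : Nat.Coprime m (resCard (resVal E w))) {ζ : Ω} (hζ : IsPrimitiveRoot ζ m)
    (x : E⟮ζ⟯) (hx : x ≠ 0) : ∃ y : E, w (x : Ω) = w (algebraMap E Ω y) := by
  have hint : IsIntegral E ζ := Algebra.IsIntegral.isIntegral ζ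
  obtain ⟨i0, hi0, -⟩ := unr2_val_eq_max w hinv hE hm hζ hint x
  exact ⟨_, hi0⟩

/-- Some power of `ζ` has a unit trace. -/
lemma unr2_exists_unit_trace (w : Valuation Ω Γ₀) (hE : IsLocalVal (resVal E w))
    {m : ℕ} (hm : Nat.Coprime m (resCard (resVal E w))) {ζ : Ω} (hζ : IsPrimitiveRoot ζ m) :
    ∃ i : ℕ, resVal E w (Algebra.trace E E⟮ζ⟯ ((AdjoinSimple.gen E ζ) ^ i)) = 1 := by
  have hint : IsIntegral E ζ := Algebra.IsIntegral.isIntegral ζ
  have : FiniteDimensional E E⟮ζ⟯ := adjoin.finiteDimensional hint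
  have hn : 0 < Module.finrank E E⟮ζ⟯ := Module.finrank_pos
  obtain ⟨σ, hσ1, hσ, htr, -⟩ := unr2_exists_conj w hE hm hζ
  obtain ⟨i, hi⟩ := unr2_vandermonde_powersum w (fun j => σ j ζ) hn (fun j => (hσ1 j).le) hσ
  refine ⟨i, ?_⟩
  rw [resVal_apply, htr, ← hi]
  congr 1
  refine Finset.sum_congr rfl fun j _ => ?_
  rw [IntermediateField.coe_pow, AdjoinSimple.coe_gen, map_pow]

end Indep

/-! ### The Newton–Hensel step: units congruent to `1` are norms -/

section HenselStep

omit [CharZero E] [IsAlgClosed Ω] [Algebra.IsAlgebraic E Ω] in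
/-- The polynomial `det (1 + X M)` has integral coefficients when `M` has integral entries. -/
lemma unr2_det_coeff_le_one (v : Valuation E Γ₀) {d : ℕ} (M : Matrix (Fin d) (Fin d) E)
    (hM : ∀ a b, v (M a b) ≤ 1) (k : ℕ) :
    v ((Matrix.det (1 + (X : E[X]) • M.map C)).coeff k) ≤ 1 := by
  classical
  let M₀ : Matrix (Fin d) (Fin d) v.integer := fun a b => ⟨M a b, hM a b⟩
  have hmap : (Polynomial.mapRingHom v.integer.subtype).mapMatrix
      (1 + (X : (v.integer)[X]) • M₀.map C) = 1 + (X : E[X]) • M.map C := by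
    ext a b : 1
    simp only [RingHom.mapMatrix_apply, Matrix.map_apply, Matrix.add_apply, Matrix.smul_apply,
      Matrix.one_apply, smul_eq_mul, coe_mapRingHom, Polynomial.map_add, Polynomial.map_mul,
      Polynomial.map_X, Polynomial.map_C]
    congr 1
    split_ifs <;> simp
  rw [← hmap, ← RingHom.map_det, coe_mapRingHom, coeff_map]
  exact ((Matrix.det (1 + (X : (v.integer)[X]) • M₀.map C)).coeff k).2

/-- **Newton–Hensel step**: a unit of `E` congruent to `1` is a norm from `E⟮ζ⟯`. -/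
theorem unr2_norm_of_close (w : Valuation Ω Γ₀) (hinv : IsInvVal E w)
    (hE : IsLocalVal (resVal E w))
    {m : ℕ} (hm : Nat.Coprime m (resCard (resVal E w))) {ζ : Ω} (hζ : IsPrimitiveRoot ζ m)
    (u : E) (hu : resVal E w (u - 1) < 1) : ∃ x : E⟮ζ⟯, Algebra.norm E x = u := by
  classical
  have hm0 : 0 < m := unr2_pos_of_coprime w hE hm
  have hint : IsIntegral E ζ := Algebra.IsIntegral.isIntegral ζ
  have : FiniteDimensional E E⟮ζ⟯ := adjoin.finiteDimensional hint
  obtain ⟨i, hi⟩ := unr2_exists_unit_trace w hE hm hζ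
  set pb := adjoin.powerBasis hint with hpb
  set θ : E⟮ζ⟯ := (AdjoinSimple.gen E ζ) ^ i with hθ
  set M := Algebra.leftMulMatrix pb.basis θ with hMdef
  -- the entries of `M` are integral
  have hM : ∀ a b, resVal E w (M a b) ≤ 1 := by
    intro a b
    rw [hMdef, Algebra.leftMulMatrix_eq_repr_mul]
    obtain ⟨-, -, hle⟩ := unr2_val_eq_max w hinv hE hm hζ hint (θ * pb.basis b)
    refine (hle a).trans ?_
    rw [PowerBasis.coe_basis, adjoin.powerBasis_gen, hθ, ← pow_add, IntermediateField.coe_pow,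
      AdjoinSimple.coe_gen, map_pow, unr2_val_eq_one_of_pow_eq_one w hm0 hζ.pow_eq_one, one_pow]
  have htrace : Matrix.trace M = Algebra.trace E E⟮ζ⟯ θ :=
    (Algebra.trace_eq_matrix_trace pb.basis θ).symm
  obtain ⟨P, hP⟩ : ∃ P : E[X], P = Matrix.det (1 + (X : E[X]) • M.map C) := ⟨_, rfl⟩
  have hP0 : P.eval 0 = 1 := by
    rw [hP]
    have h := eval_det_add_X_smul (1 : Matrix (Fin pb.dim) (Fin pb.dim) E[X]) M
    rw [h, Matrix.det_one, eval_one]
  have hP' : (derivative P).eval 0 = Matrix.trace M := by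
    rw [hP]
    exact Matrix.derivative_det_one_add_X_smul M
  have hPeval : ∀ b : E, P.eval b = Matrix.det (1 + b • M) := by
    intro b
    have h1 : P.eval b = 1 + Matrix.trace M * b + P.divX.divX.eval b * b ^ 2 := by
      conv_lhs => rw [hP, Matrix.det_one_add_X_smul M]
      simp only [eval_add, eval_one, eval_mul, eval_pow, eval_X, eval_smul, smul_eq_mul]
      rw [← hP]
    rw [h1, Matrix.det_one_add_smul b M, ← hP]
  have hPcoeff : ∀ k, resVal E w (P.coeff k) ≤ 1 := fun k => by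
    rw [hP]
    exact unr2_det_coeff_le_one _ M hM k
  have hu1 : resVal E w u ≤ 1 := by
    have h : u = (u - 1) + 1 := by ring
    rw [h]
    exact (Valuation.map_add _ _ _).trans (max_le hu.le (le_of_eq (Valuation.map_one _)))
  have hcoeff : ∀ k, resVal E w ((P - C u).coeff k) ≤ 1 := by
    intro k
    rw [coeff_sub]
    refine (Valuation.map_sub _ _ _).trans (max_le (hPcoeff k) ?_)
    rw [coeff_C]
    split_ifs
    · exact hu1
    · rw [map_zero]; exact zero_le
  obtain ⟨b, hb, -⟩ := hE.hensel (P - C u) hcoeff 0 (by rw [map_zero]; exact zero_le) (by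
    rw [eval_sub, eval_C, hP0, derivative_sub, derivative_C, sub_zero, hP', htrace, hi, one_pow,
      Valuation.map_sub_swap]
    exact hu)
  refine ⟨1 + b • θ, ?_⟩
  rw [Algebra.norm_eq_matrix_det pb.basis, map_add, map_one, map_smul, ← hMdef, ← hPeval]
  rw [eval_sub, eval_C, sub_eq_zero] at hb
  exact hb

end HenselStep

/-! ### The norms of the roots of unity represent the unit residue classes -/

section ResidueNorm

/-- `(∑_{j<n} Q^j) (Q - 1) = Q^n - 1` in `ℕ`. -/
lemma unr2_geom_sum (Q n : ℕ) (hQ : 1 ≤ Q) :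
    (∑ j ∈ Finset.range n, Q ^ j) * (Q - 1) = Q ^ n - 1 := by
  have h1 : 1 ≤ Q ^ n := Nat.one_le_pow _ _ hQ
  zify [hQ, h1]
  exact geom_sum_mul (Q : ℤ) n

/-- `Q^n - 1` is prime to `Q`. -/
lemma unr2_coprime_pow_sub_one {Q n : ℕ} (hQ : 1 ≤ Q) (hn : 0 < n) :
    Nat.Coprime (Q ^ n - 1) Q := by
  have hpos : 1 ≤ Q ^ n := Nat.one_le_pow _ _ hQ
  have h1 : Nat.Coprime (Q ^ n - 1) (Q ^ n) := by
    have : Q ^ n = (Q ^ n - 1) + 1 := by omega
    conv_rhs => rw [this]
    simp
  exact Nat.Coprime.coprime_dvd_right (dvd_pow_self Q hn.ne') h1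

/-- For a primitive `(Q^n - 1)`-th root of unity `ξ`, the degree of `E(ξ)/E` is `n`. -/
lemma unr2_finrank_pow_sub_one (w : Valuation Ω Γ₀) (hinv : IsInvVal E w)
    (hE : IsLocalVal (resVal E w)) {n : ℕ} (hn : 0 < n) {ξ : Ω}
    (hξ : IsPrimitiveRoot ξ (resCard (resVal E w) ^ n - 1)) :
    Module.finrank E E⟮ξ⟯ = n := by
  have hQ : 2 ≤ resCard (resVal E w) := unr1_two_le_resCard w hE.finRes
  have hcop := unr2_coprime_pow_sub_one (le_trans (by norm_num) hQ) hn
  rw [unram_finrank w hinv hE hcop hξ]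
  exact unr1_orderOf_pow_sub_one hQ hn hcop.symm

/-- The norm of a primitive `(Q^n - 1)`-th root of unity is a primitive `(Q - 1)`-th root of
unity of `E`. -/
lemma unr2_norm_isPrimitiveRoot (w : Valuation Ω Γ₀) (hinv : IsInvVal E w)
    (hE : IsLocalVal (resVal E w)) {n : ℕ} (hn : 0 < n) {ξ : Ω}
    (hξ : IsPrimitiveRoot ξ (resCard (resVal E w) ^ n - 1)) :
    IsPrimitiveRoot (Algebra.norm E (AdjoinSimple.gen E ξ)) (resCard (resVal E w) - 1) := by
  classical
  have hQ : 2 ≤ resCard (resVal E w) := unr1_two_le_resCard w hE.finRes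
  have hQ1 : 1 ≤ resCard (resVal E w) := le_trans (by norm_num) hQ
  have hcop := unr2_coprime_pow_sub_one hQ1 hn
  have hfin := unr2_finrank_pow_sub_one w hinv hE hn hξ
  have hm0 : 0 < resCard (resVal E w) ^ n - 1 := unr2_pos_of_coprime w hE hcop
  have hint : IsIntegral E ξ := Algebra.IsIntegral.isIntegral ξ
  have : FiniteDimensional E E⟮ξ⟯ := adjoin.finiteDimensional hint
  have : IsGalois E E⟮ξ⟯ := unram_isGalois hm0 hξ
  obtain ⟨φ, hφ, hgen⟩ := unram_cyclic w hinv hE hcop hξ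
  have hord : orderOf φ = n := by
    rw [orderOf_eq_card_of_forall_mem_zpowers hgen, IsGalois.card_aut_eq_finrank, hfin]
  -- the action of the powers of `φ` on the generator
  have hφ' : φ (AdjoinSimple.gen E ξ) = (AdjoinSimple.gen E ξ) ^ resCard (resVal E w) := by
    apply Subtype.ext
    rw [hφ, IntermediateField.coe_pow, AdjoinSimple.coe_gen]
  have hpow : ∀ j : ℕ, (φ ^ j) (AdjoinSimple.gen E ξ)
      = (AdjoinSimple.gen E ξ) ^ (resCard (resVal E w) ^ j) := by
    intro j
    induction j with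
    | zero => simp
    | succ j ih =>
      rw [pow_succ', AlgEquiv.mul_apply, ih, map_pow, hφ', ← pow_mul, ← pow_succ']
  -- the Galois group is `{φ^j | j < n}`
  have huniv : (Finset.univ : Finset (E⟮ξ⟯ ≃ₐ[E] E⟮ξ⟯))
      = (Finset.range n).image (φ ^ ·) := by
    ext σ
    simp only [Finset.mem_univ, true_iff]
    rw [← hord, ← mem_zpowers_iff_mem_range_orderOf]
    exact hgen σ
  have hinj : Set.InjOn (φ ^ ·) (Finset.range n : Set ℕ) := by
    rw [← hord, Finset.coe_range]
    exact pow_injOn_Iio_orderOf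
  have hnorm : algebraMap E E⟮ξ⟯ (Algebra.norm E (AdjoinSimple.gen E ξ))
      = (AdjoinSimple.gen E ξ) ^ (∑ j ∈ Finset.range n, resCard (resVal E w) ^ j) := by
    rw [Algebra.norm_eq_prod_automorphisms, huniv, Finset.prod_image hinj,
      ← Finset.prod_pow_eq_pow_sum]
    exact Finset.prod_congr rfl fun j _ => hpow j
  have hnormΩ : algebraMap E Ω (Algebra.norm E (AdjoinSimple.gen E ξ))
      = ξ ^ (∑ j ∈ Finset.range n, resCard (resVal E w) ^ j) := by
    have h := congrArg (algebraMap E⟮ξ⟯ Ω) hnorm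
    rw [← IsScalarTower.algebraMap_apply, map_pow] at h
    rw [h]
    congr 1
  have hprim : IsPrimitiveRoot (ξ ^ (∑ j ∈ Finset.range n, resCard (resVal E w) ^ j))
      (resCard (resVal E w) - 1) :=
    hξ.pow hm0 (unr2_geom_sum _ n hQ1).symm
  rw [← hnormΩ] at hprim
  exact IsPrimitiveRoot.of_map_of_injective hprim (algebraMap E Ω).injective

/-- The powers of a primitive `(Q - 1)`-th root of unity of `E` represent all nonzero residue
classes. -/
lemma unr2_teichmuller (w : Valuation Ω Γ₀) (hE : IsLocalVal (resVal E w)) {ω : E}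
    (hω : IsPrimitiveRoot ω (resCard (resVal E w) - 1)) (u : E) (hu : resVal E w u = 1) :
    ∃ k : ℕ, resVal E w (u - ω ^ k) < 1 := by
  classical
  have hQ : 2 ≤ resCard (resVal E w) := unr1_two_le_resCard w hE.finRes
  have hQ0 : 0 < resCard (resVal E w) - 1 := by omega
  have hcop : Nat.Coprime (resCard (resVal E w) - 1) (resCard (resVal E w)) := by
    have : resCard (resVal E w) = (resCard (resVal E w) - 1) + 1 := by omega
    conv_rhs => rw [this]
    simp
  have hωΩ : IsPrimitiveRoot (algebraMap E Ω ω) (resCard (resVal E w) - 1) :=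
    hω.map_of_injective (algebraMap E Ω).injective
  have hω1 : resVal E w ω = 1 := by
    have h1 : resVal E w ω ^ (resCard (resVal E w) - 1) = 1 := by
      rw [← map_pow, hω.pow_eq_one, map_one]
    exact eq_one_of_pow_eq_one' hQ0.ne' h1
  have hfinite := finite_residue_of_hasFiniteResidue hE.finRes
  have hfintype : Fintype (IsLocalRing.ResidueField ↥(resVal E w).valuationSubring) :=
    Fintype.ofFinite _
  have hcard : Fintype.card (IsLocalRing.ResidueField ↥(resVal E w).valuationSubring)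
      = resCard (resVal E w) := by
    rw [← Nat.card_eq_fintype_card]
    rfl
  set res := IsLocalRing.residue ↥(resVal E w).valuationSubring with hres
  set ω' : (resVal E w).valuationSubring := ⟨ω, hω1.le⟩ with hω'
  set S := (Finset.range (resCard (resVal E w) - 1)).image (fun k => res (ω' ^ k)) with hS
  have hinj : Set.InjOn (fun k => res (ω' ^ k))
      (Finset.range (resCard (resVal E w) - 1) : Set ℕ) := by
    intro j hj k hk hjk
    rw [Finset.coe_range, Set.mem_Iio] at hj hk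
    have h1 : resVal E w (ω ^ j - ω ^ k) < 1 := by
      have := (residue_eq_iff_val (resVal E w) (ω' ^ j) (ω' ^ k)).1 hjk
      simpa using this
    by_contra hne
    have hne' : (algebraMap E Ω ω) ^ j ≠ (algebraMap E Ω ω) ^ k := by
      intro h
      exact hne (hωΩ.pow_inj hj hk h)
    have h2 := val_sub_one_rootOfUnity w hE hcop hωΩ j k hne'
    rw [resVal_apply, map_sub, map_pow, map_pow, h2] at h1
    exact lt_irrefl _ h1
  have hScard : S.card = resCard (resVal E w) - 1 := by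
    rw [hS, Finset.card_image_of_injOn hinj, Finset.card_range]
  have hSsub : S ⊆ (Finset.univ : Finset _).erase 0 := by
    intro x hx
    rw [hS, Finset.mem_image] at hx
    obtain ⟨k, -, rfl⟩ := hx
    rw [Finset.mem_erase]
    refine ⟨fun h0 => ?_, Finset.mem_univ _⟩
    have h1 := (residue_eq_zero_iff_val (resVal E w) (ω' ^ k)).1 h0
    have h2 : resVal E w (((ω' ^ k : (resVal E w).valuationSubring)) : E) = 1 := by
      show resVal E w (ω ^ k) = 1
      rw [map_pow, hω1, one_pow]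
    rw [h2] at h1
    exact lt_irrefl _ h1
  have hSeq : S = (Finset.univ : Finset _).erase 0 := by
    refine Finset.eq_of_subset_of_card_le hSsub ?_
    rw [Finset.card_erase_of_mem (Finset.mem_univ _), Finset.card_univ, hcard, hScard]
  have hu' : res (⟨u, hu.le⟩ : (resVal E w).valuationSubring) ∈ S := by
    rw [hSeq, Finset.mem_erase]
    refine ⟨fun h0 => ?_, Finset.mem_univ _⟩
    have h1 := (residue_eq_zero_iff_val (resVal E w) _).1 h0
    rw [show resVal E w ((⟨u, hu.le⟩ : (resVal E w).valuationSubring) : E) = 1 from hu] at h1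
    exact lt_irrefl _ h1
  rw [hS, Finset.mem_image] at hu'
  obtain ⟨k, -, hk⟩ := hu'
  refine ⟨k, ?_⟩
  have h1 := (residue_eq_iff_val (resVal E w) _ _).1 hk.symm
  simpa using h1

end ResidueNorm

/-! ### Every unit is a norm -/

section Final

/-- Every unit of `E` is a norm from `E⟮ζ⟯`. -/
theorem unram_norm_unit (w : Valuation Ω Γ₀) (hinv : IsInvVal E w)
    (hE : IsLocalVal (resVal E w))
    {m : ℕ} (hm : Nat.Coprime m (resCard (resVal E w))) {ζ : Ω} (hζ : IsPrimitiveRoot ζ m)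
    (u : E) (hu : resVal E w u = 1) : ∃ x : E⟮ζ⟯, Algebra.norm E x = u := by
  classical
  have hQ : 2 ≤ resCard (resVal E w) := unr1_two_le_resCard w hE.finRes
  have hQ1 : 1 ≤ resCard (resVal E w) := le_trans (by norm_num) hQ
  have hintζ : IsIntegral E ζ := Algebra.IsIntegral.isIntegral ζ
  have : FiniteDimensional E E⟮ζ⟯ := adjoin.finiteDimensional hintζ
  have hn : 0 < Module.finrank E E⟮ζ⟯ := Module.finrank_pos
  have hnord := unram_finrank w hinv hE hm hζ
  obtain ⟨n, hndef⟩ : ∃ n : ℕ, n = Module.finrank E E⟮ζ⟯ := ⟨_, rfl⟩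
  rw [← hndef] at hn hnord
  have hcop' := unr2_coprime_pow_sub_one hQ1 hn
  have hm'0 : 0 < resCard (resVal E w) ^ n - 1 := unr2_pos_of_coprime w hE hcop'
  have hpos : 1 ≤ resCard (resVal E w) ^ n := Nat.one_le_pow _ _ hQ1
  have : CharZero Ω := charZero_of_injective_algebraMap (algebraMap E Ω).injective
  have : NeZero ((resCard (resVal E w) ^ n - 1 : ℕ) : Ω) := ⟨by
    rw [Nat.cast_ne_zero]
    omega⟩
  obtain ⟨ξ, hξ⟩ := HasEnoughRootsOfUnity.exists_primitiveRoot Ω (resCard (resVal E w) ^ n - 1)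
  have hintξ : IsIntegral E ξ := Algebra.IsIntegral.isIntegral ξ
  have : FiniteDimensional E E⟮ξ⟯ := adjoin.finiteDimensional hintξ
  have hfinξ : Module.finrank E E⟮ξ⟯ = n := unr2_finrank_pow_sub_one w hinv hE hn hξ
  -- `m ∣ Q^n - 1`
  have hdvd : m ∣ resCard (resVal E w) ^ n - 1 := by
    have h1 : (ZMod.unitOfCoprime (resCard (resVal E w)) hm.symm) ^ n = 1 := by
      rw [hnord]
      exact pow_orderOf_eq_one _
    have h2 : ((resCard (resVal E w) ^ n : ℕ) : ZMod m) = ((1 : ℕ) : ZMod m) := by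
      have := congrArg (fun x : (ZMod m)ˣ => (x : ZMod m)) h1
      simp only [Units.val_pow_eq_pow_val, ZMod.coe_unitOfCoprime, Units.val_one] at this
      rw [Nat.cast_pow, Nat.cast_one]
      exact this
    rw [ZMod.natCast_eq_natCast_iff] at h2
    exact (Nat.modEq_iff_dvd' hpos).mp h2.symm
  -- `ζ ∈ E(ξ)`, hence `E(ζ) = E(ξ)`
  have hζpow : ζ ^ (resCard (resVal E w) ^ n - 1) = 1 := by
    obtain ⟨c, hc⟩ := hdvd
    rw [hc, pow_mul, hζ.pow_eq_one, one_pow]
  have : NeZero (resCard (resVal E w) ^ n - 1) := ⟨hm'0.ne'⟩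
  obtain ⟨k, -, hk⟩ := hξ.eq_pow_of_pow_eq_one hζpow
  have hle : E⟮ζ⟯ ≤ E⟮ξ⟯ := by
    rw [adjoin_simple_le_iff, ← hk]
    exact pow_mem (mem_adjoin_simple_self E ξ) k
  have heq : E⟮ζ⟯ = E⟮ξ⟯ :=
    IntermediateField.eq_of_le_of_finrank_eq hle (by rw [hfinξ, hndef])
  -- the norm from `E(ξ)`
  have hω := unr2_norm_isPrimitiveRoot w hinv hE hn hξ
  obtain ⟨k', hk'⟩ := unr2_teichmuller w hE hω u hu
  have hω1 : resVal E w (Algebra.norm E (AdjoinSimple.gen E ξ) ^ k') = 1 := by
    have hQ0 : resCard (resVal E w) - 1 ≠ 0 := by omega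
    have h1 : resVal E w (Algebra.norm E (AdjoinSimple.gen E ξ) ^ k')
        ^ (resCard (resVal E w) - 1) = 1 := by
      rw [← map_pow, ← pow_mul, mul_comm, pow_mul, hω.pow_eq_one, one_pow, map_one]
    exact eq_one_of_pow_eq_one' hQ0 h1
  have hωk0 : Algebra.norm E (AdjoinSimple.gen E ξ) ^ k' ≠ 0 := fun h => by
    rw [h, map_zero] at hω1
    exact zero_ne_one hω1
  have hclose : resVal E w (u / Algebra.norm E (AdjoinSimple.gen E ξ) ^ k' - 1) < 1 := by
    have h1 : u / Algebra.norm E (AdjoinSimple.gen E ξ) ^ k' - 1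
        = (u - Algebra.norm E (AdjoinSimple.gen E ξ) ^ k')
          / Algebra.norm E (AdjoinSimple.gen E ξ) ^ k' := by
      field_simp
    rw [h1, map_div₀, hω1, div_one]
    exact hk'
  obtain ⟨x₁, hx₁⟩ := unr2_norm_of_close w hinv hE hcop' hξ _ hclose
  refine ⟨(IntermediateField.equivOfEq heq).symm ((AdjoinSimple.gen E ξ) ^ k' * x₁), ?_⟩
  rw [Algebra.norm_eq_of_algEquiv, map_mul, map_pow, hx₁]
  field_simp

end Final

end Fermat.Agent.F4.Loc
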