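import Fermat.Agent.F4.Loc.LocalGal
import Fermat.Agent.F4.Loc.FTA
import Fermat.Agent.F4.Loc.FTB
import Fermat.Agent.F4.Loc.Unram2
import Fermat.Agent.F4.Loc.FTC

/-!
# F4 / Loc / FT : field theory in subgroup form  (STUBS — seats FTA, FTB, FTC)

`Γ` a local Galois group (`IsLocalGal q Γ`), acting on `Ω = PadicAlgCl q`; `E = Ω^Γ`.
These are the consumer forms of Hilbert 90, the norm index and the unramified theory: everything
is expressed with subgroups of `Γ`, fixed elements and `cycNorm`; NO intermediate fields appear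
in the statements.  Proofs: translate to the finite Galois extension `Ω^W / Ω^H`
(group `H/W`) and apply Mathlib's Hilbert 90, `NormIndex` (helper91), `Unram`, `EF`.

FTA  `h1Triv_of_open`      : Hilbert 90 for `W ≤ H`, `W` open and normal in `Γ`.
FTB  `exists_not_norm`, `norm_index_le` : `χ : Γ ↠ ℤ/ℓ` (`ℓ` prime) with open kernel:
     `E^× / N (Ω^{ker χ})^×` is cyclic of order `ℓ`.
FTC  `exists_unram_char`   : for every `n ≥ 1` an unramified character `χ : Γ ↠ ℤ/n` with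
     Frobenius `σ`: units of `E` are norms, norms have valuation in `w(E^×)^n`, and for every
     open `H ≤ Γ` of index `n` every element of `E^×` is a norm from `Ω^{H ∩ ker χ}` to `Ω^H`
     (this uses `e f = n`).
-/

set_option autoImplicit false

open scoped NNReal

namespace Fermat.Agent.F4.Loc

variable {q : ℕ} [Fact q.Prime]
variable {Γ : Type} [Group Γ] [MulSemiringAction Γ (PadicAlgCl q)]
  [MulDistribMulAction Γ (PadicAlgCl q)ˣ]

/-- **FTA: Hilbert 90.**  Every 1-cocycle of `H` which is right-invariant under an open normal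
subgroup `W ≤ H` of `Γ` is a coboundary. -/
theorem h1Triv_of_open (hΓ : IsLocalGal q Γ) (H W : Subgroup Γ) [W.Normal] (hW : IsOpenSub q W)
    (hWH : W ≤ H) : H1Triv H W (PadicAlgCl q)ˣ :=
  h1Triv_of_open_aux hΓ H W hW hWH

/-- **FTB: existence of a non-norm** for a cyclic layer of prime degree. -/
theorem exists_not_norm (hΓ : IsLocalGal q Γ) {ℓ : ℕ} [Fact ℓ.Prime]
    (χ : Γ →* Multiplicative (ZMod ℓ)) (hχ : Function.Surjective χ) (hker : IsOpenSub q χ.ker)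
    (σ : Γ) (hσ : χ σ = Multiplicative.ofAdd 1) :
    ∃ a : (PadicAlgCl q)ˣ, IsFixedBy (⊤ : Subgroup Γ) a ∧
      ∀ m : (PadicAlgCl q)ˣ, IsFixedBy χ.ker m → cycNorm ℓ σ m ≠ a :=
  exists_not_norm_aux hΓ χ hχ hker σ hσ

/-- **FTB: the norm index is at most `ℓ`**: modulo norms, every element of `E^×` is a power of
any given non-norm. -/
theorem norm_index_le (hΓ : IsLocalGal q Γ) {ℓ : ℕ} [Fact ℓ.Prime]
    (χ : Γ →* Multiplicative (ZMod ℓ)) (hχ : Function.Surjective χ) (hker : IsOpenSub q χ.ker)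
    (σ : Γ) (hσ : χ σ = Multiplicative.ofAdd 1)
    (a : (PadicAlgCl q)ˣ) (ha : IsFixedBy (⊤ : Subgroup Γ) a)
    (hna : ∀ m : (PadicAlgCl q)ˣ, IsFixedBy χ.ker m → cycNorm ℓ σ m ≠ a)
    (b : (PadicAlgCl q)ˣ) (hb : IsFixedBy (⊤ : Subgroup Γ) b) :
    ∃ (k : ℕ) (m : (PadicAlgCl q)ˣ), k < ℓ ∧ IsFixedBy χ.ker m ∧ b = a ^ k * cycNorm ℓ σ m :=
  norm_index_le_aux hΓ χ hχ hker σ hσ a ha hna b hb

/-- The properties of an unramified character `χ : Γ ↠ ℤ/n` with Frobenius `σ`. -/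
structure IsUnramChar (q : ℕ) [Fact q.Prime] {Γ : Type} [Group Γ]
    [MulSemiringAction Γ (PadicAlgCl q)] [MulDistribMulAction Γ (PadicAlgCl q)ˣ]
    {n : ℕ} (χ : Γ →* Multiplicative (ZMod n)) (σ : Γ) : Prop where
  surj : Function.Surjective χ
  ker_open : IsOpenSub q χ.ker
  frob : χ σ = Multiplicative.ofAdd 1
  /-- every unit of `E` is a norm -/
  unit_norm : ∀ u : (PadicAlgCl q)ˣ, IsFixedBy (⊤ : Subgroup Γ) u →
    padicVal q (u : PadicAlgCl q) = 1 → ∃ m : (PadicAlgCl q)ˣ, IsFixedBy χ.ker m ∧ cycNorm n σ m = u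
  /-- the value group of `Ω^{ker χ}` is that of `E` -/
  val_eq : ∀ m : (PadicAlgCl q)ˣ, IsFixedBy χ.ker m →
    ∃ y : (PadicAlgCl q)ˣ, IsFixedBy (⊤ : Subgroup Γ) y ∧
      padicVal q (m : PadicAlgCl q) = padicVal q (y : PadicAlgCl q)
  /-- absorption: for `H` open normal of index `n`, every element of `E^×` is a norm from
  `Ω^{H ∩ ker χ}` to `Ω^H`; the image of `H` under `χ` is generated by `χ τ`, of order `k`. -/
  absorb : ∀ (H : Subgroup Γ), H.Normal → IsOpenSub q H → H.index = n →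
    ∃ (τ : Γ) (k : ℕ), τ ∈ H ∧ 0 < k ∧ (∀ h ∈ H, ∃ i : ℕ, χ h = χ τ ^ i) ∧ orderOf (χ τ) = k ∧
      ∀ a : (PadicAlgCl q)ˣ, IsFixedBy (⊤ : Subgroup Γ) a →
        ∃ m : (PadicAlgCl q)ˣ, IsFixedBy (H ⊓ χ.ker) m ∧ cycNorm k τ m = a

/-- **FTC: unramified characters exist** for every `n ≥ 1`. -/
theorem exists_unram_char (hΓ : IsLocalGal q Γ) (n : ℕ) [NeZero n] :
    ∃ (χ : Γ →* Multiplicative (ZMod n)) (σ : Γ), IsUnramChar q χ σ := by
  have hU : UNR2Input q := unr2Input_of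
    (fun E Ω _ _ _ _ _ _ w hinv hE m hm ζ hζ x hx => unram_val w hinv hE hm hζ x hx)
    (fun E Ω _ _ _ _ _ _ w hinv hE m hm ζ hζ u hu => unram_norm_unit w hinv hE hm hζ u hu)
  obtain ⟨χ, σ, h1, h2, h3, h4, h5, h6⟩ := exists_unram_char_of hU hΓ n
  exact ⟨χ, σ, ⟨h1, h2, h3, h4, h5, h6⟩⟩

end Fermat.Agent.F4.Loc
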