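import Mathlib

/-!
# F4 / Loc / InfRes : inflation–restriction in degree 2 on explicit multiplicative cocycles
(seat INFRES of the LOC layer, see NOTES/blueprint-F4-LOC.md; statements by helper3, proofs by
helper71)

`Γ` a group, `H ⊴ Γ`, `M` a multiplicative `Γ`-module, `V ≤ H` a normal subgroup of `Γ`
("level"; take `V = ⊥` for the plain statements).  A cochain is `V`-constant if it is
right-`V`-invariant in every variable.  Hypothesis `H1Triv`: every `V`-constant 1-cocycle of `H`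
is a coboundary (Hilbert 90).

* `infl_injective`: an `H`-inflated 2-cocycle which is the coboundary of a `V`-constant cochain
  is the coboundary of an `H`-inflated cochain.
* `infl_res_exact`: a `V`-constant 2-cocycle whose restriction to `H` is the coboundary of a
  `V`-constant cochain is cohomologous (through a `V`-constant cochain) to an `H`-inflated one.

Proof of `infl_res_exact` (20 lines, all on cochains; write `∂s (g,h) = g • s h / s (g*h) * s g`):
1. extend `t` to `Γ` by `t̃ (r w) = t w` along a transversal; `c₁ = c / ∂t̃` is `1` on `H × H`.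
2. `b (r w) := c₁ (r, w)`;  `c₂ = c₁ * ∂b` satisfies `c₂ (g, w) = 1` for `w ∈ H`; by the cocycle
   identity `c₂ (g, h w) = c₂ (g, h)`.
3. for fixed `h`, `w ↦ c₂ (w, h)` is a 1-cocycle of `H`, depending only on `h H`; by `H1Triv`
   it is `w ↦ w • m_h / m_h`, `m_h` constant on cosets, `m_1 = 1`; `d h := m_h`, `c₃ = c₂ / ∂d`.
4. `c₃ (g, w) = 1 = c₃ (w, g)` for `w ∈ H`; the cocycle identity gives that `c₃` is `H`-inflated.
-/

set_option autoImplicit false
set_option linter.unusedSectionVars false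

open groupCohomology

namespace Fermat.Agent.F4.Loc

variable {Γ M : Type*} [Group Γ] [CommGroup M] [MulDistribMulAction Γ M]

/-- The multiplicative coboundary of a 1-cochain. -/
def mulD1 (s : Γ → M) : Γ × Γ → M := fun p => p.1 • s p.2 / s (p.1 * p.2) * s p.1

@[simp] lemma mulD1_apply (s : Γ → M) (g h : Γ) : mulD1 s (g, h) = g • s h / s (g * h) * s g :=
  rfl

/-- Restriction of a 1-cochain to a subgroup. -/
def resC1 (H : Subgroup Γ) (s : Γ → M) : H → M := fun h => s h

/-- Restriction of a 2-cochain to a subgroup. -/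
def resC2 (H : Subgroup Γ) (c : Γ × Γ → M) : H × H → M := fun p => c (p.1, p.2)

/-- A 1-cochain is right-`V`-invariant. -/
def IsConst1 (V : Subgroup Γ) (s : Γ → M) : Prop := ∀ g v : Γ, v ∈ V → s (g * v) = s g

/-- A 2-cochain is right-`V`-invariant in both variables. -/
def IsConst2 (V : Subgroup Γ) (c : Γ × Γ → M) : Prop :=
  ∀ g g' v v' : Γ, v ∈ V → v' ∈ V → c (g * v, g' * v') = c (g, g')

/-- A 1-cochain is inflated from `Γ/H` with values in `M^H`. -/
def IsInfl1 (H : Subgroup Γ) (s : Γ → M) : Prop :=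
  IsConst1 H s ∧ ∀ g h : Γ, h ∈ H → h • s g = s g

/-- A 2-cochain is inflated from `Γ/H` with values in `M^H`. -/
def IsInfl2 (H : Subgroup Γ) (c : Γ × Γ → M) : Prop :=
  IsConst2 H c ∧ ∀ g g' h : Γ, h ∈ H → h • c (g, g') = c (g, g')

/-- Hilbert 90 for `H` at level `V`: every right-`V`-invariant 1-cocycle of `H` is a
coboundary. -/
def H1Triv (H V : Subgroup Γ) (M : Type*) [CommGroup M] [MulDistribMulAction Γ M] : Prop :=
  ∀ t : H → M, IsMulCocycle₁ t → (∀ (h v : H), (v : Γ) ∈ V → t (h * v) = t h) →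
    IsMulCoboundary₁ t

/-! ### general facts on cochains -/

theorem mulD1_mul (s s' : Γ → M) : mulD1 (s * s') = mulD1 s * mulD1 s' := by
  funext ⟨g, h⟩
  simp only [mulD1_apply, Pi.mul_apply, smul_mul']
  exact (by intros; abel :
    ∀ a a' b b' c c' : Additive M, (a + a') - (b + b') + (c + c') =
      (a - b + c) + (a' - b' + c')) _ _ _ _ _ _

/-- coboundaries are cocycles. -/
theorem isMulCocycle₂_mulD1 (s : Γ → M) : IsMulCocycle₂ (mulD1 s) := by
  intro g h j
  simp only [mulD1_apply, smul_mul', smul_div', mul_smul]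
  rw [mul_assoc g h j]
  exact (by intros; abel :
    ∀ A B C D E F : Additive M, (A - B + C) + (D - C + E) = (A - F + D) + (F - B + E))
    _ _ _ _ _ _

theorem isMulCocycle₂_mul {c c' : Γ × Γ → M} (hc : IsMulCocycle₂ c) (hc' : IsMulCocycle₂ c') :
    IsMulCocycle₂ (c * c') := by
  intro g h j
  simp only [Pi.mul_apply, smul_mul']
  rw [mul_mul_mul_comm, hc g h j, hc' g h j, mul_mul_mul_comm]

/-- for a cocycle, `c (1, x) = c (1, 1)`. -/
theorem IsMulCocycle₂_one_left {c : Γ × Γ → M} (hc : IsMulCocycle₂ c) (x : Γ) :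
    c (1, x) = c (1, 1) := by
  have := hc 1 1 x
  rw [one_mul, one_smul, one_mul] at this
  exact (mul_left_cancel this).symm

/-- for a cocycle, `c (g, 1) = g • c (1, 1)`. -/
theorem IsMulCocycle₂_one_right {c : Γ × Γ → M} (hc : IsMulCocycle₂ c) (g : Γ) :
    c (g, 1) = g • c (1, 1) := by
  have := hc g 1 1
  rw [mul_one, mul_one] at this
  exact mul_right_cancel this

theorem IsInfl1.mul {V : Subgroup Γ} {s s' : Γ → M} (hs : IsInfl1 V s) (hs' : IsInfl1 V s') :
    IsInfl1 V (s * s') := by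
  refine ⟨fun g v hv => ?_, fun g h hh => ?_⟩
  · simp only [Pi.mul_apply, hs.1 g v hv, hs'.1 g v hv]
  · simp only [Pi.mul_apply, smul_mul', hs.2 g h hh, hs'.2 g h hh]

theorem IsInfl2.mul {V : Subgroup Γ} {c c' : Γ × Γ → M} (hc : IsInfl2 V c) (hc' : IsInfl2 V c') :
    IsInfl2 V (c * c') := by
  refine ⟨fun g g' v v' hv hv' => ?_, fun g g' h hh => ?_⟩
  · simp only [Pi.mul_apply, hc.1 g g' v v' hv hv', hc'.1 g g' v v' hv hv']
  · simp only [Pi.mul_apply, smul_mul', hc.2 g g' h hh, hc'.2 g g' h hh]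

/-- the coboundary of a `V`-inflated cochain is `V`-inflated (`V` normal). -/
theorem IsInfl1.mulD1 {V : Subgroup Γ} [V.Normal] {s : Γ → M} (hs : IsInfl1 V s) :
    IsInfl2 V (mulD1 s) := by
  refine ⟨fun g g' v v' hv hv' => ?_, fun g g' h hh => ?_⟩
  · simp only [mulD1_apply]
    have h1 : g * v * (g' * v') = g * g' * (g'⁻¹ * v * g' * v') := by group
    have h2 : g'⁻¹ * v * g' * v' ∈ V :=
      V.mul_mem (by simpa using Subgroup.Normal.conj_mem inferInstance v hv g'⁻¹) hv'
    rw [h1, hs.1 _ _ h2, hs.1 g' v' hv', hs.1 g v hv, mul_smul, hs.2 g' v hv]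
  · simp only [mulD1_apply, smul_mul', smul_div']
    have h3 : ∀ x : M, (∀ v ∈ V, v • x = x) → h • g • x = g • x := by
      intro x hx
      have h4 : h * g = g * (g⁻¹ * h * g) := by group
      have h5 : g⁻¹ * h * g ∈ V := by
        simpa using Subgroup.Normal.conj_mem inferInstance h hh g⁻¹
      rw [← mul_smul, h4, mul_smul, hx _ h5]
    rw [h3 _ (fun v hv => hs.2 g' v hv), hs.2 _ h hh, hs.2 _ h hh]

/-- a `V`-constant cocycle has `V`-fixed values (`V` normal). -/
theorem isInfl2_of_isConst2 {V : Subgroup Γ} [V.Normal] {c : Γ × Γ → M}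
    (hc : IsMulCocycle₂ c) (hcV : IsConst2 V c) : IsInfl2 V c := by
  refine ⟨hcV, fun g g' v hv => ?_⟩
  have h1 := hc v g g'
  have h2 : c (v * g, g') = c (g, g') := by
    have h3 : v * g = g * (g⁻¹ * v * g) := by group
    have h4 : g⁻¹ * v * g ∈ V := by
      simpa using Subgroup.Normal.conj_mem inferInstance v hv g⁻¹
    have := hcV g g' _ 1 h4 (one_mem _)
    rw [mul_one] at this
    rw [h3, this]
  have h5 : ∀ x : Γ, c (v, x) = c (1, 1) := by
    intro x
    have := hcV 1 x v 1 hv (one_mem _)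
    rw [one_mul, mul_one] at this
    rw [this, IsMulCocycle₂_one_left hc]
  rw [h2, h5, h5] at h1
  exact (mul_right_cancel h1).symm

/-! ### a normalised transversal -/

theorem exists_transversal (H : Subgroup Γ) :
    ∃ r : Γ → Γ, (∀ h, h ∈ H → r h = 1) ∧ (∀ g, (r g)⁻¹ * g ∈ H) ∧
      ∀ g h, h ∈ H → r (g * h) = r g := by
  classical
  refine ⟨fun g => if g ∈ H then 1 else (QuotientGroup.mk g : Γ ⧸ H).out, ?_, ?_, ?_⟩
  · intro h hh
    simp [hh]
  · intro g
    by_cases hg : g ∈ H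
    · simp [hg]
    · simp only [hg, if_false]
      exact QuotientGroup.eq.mp (QuotientGroup.out_eq' _)
  · intro g h hh
    have h1 : g * h ∈ H ↔ g ∈ H := Subgroup.mul_mem_cancel_right H hh
    have h2 : (QuotientGroup.mk (g * h) : Γ ⧸ H) = QuotientGroup.mk g := by
      rw [QuotientGroup.eq]
      simpa using hh
    simp only [h1, h2]

/-! ### injectivity of inflation -/

/-- **Inflation is injective** in degree 2 (given Hilbert 90 for `H`). -/
theorem infl_injective (H V : Subgroup Γ) [H.Normal] [V.Normal] (hVH : V ≤ H)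
    (h1 : H1Triv H V M) (c : Γ × Γ → M) (hc : IsInfl2 H c)
    (s : Γ → M) (hs : IsConst1 V s) (hcs : c = mulD1 s) :
    ∃ s' : Γ → M, IsInfl1 H s' ∧ c = mulD1 s' := by
  have _ := hVH
  set e : M := s 1 with he
  have hce : c (1, 1) = e := by
    rw [hcs, mulD1_apply, one_smul, one_mul, div_self', one_mul]
  have hefix : ∀ h ∈ H, h • e = e := fun h hh => by rw [← hce]; exact hc.2 1 1 h hh
  have hcHH : ∀ h h' : Γ, h ∈ H → h' ∈ H → c (h, h') = e := by
    intro h h' hh hh'
    have := hc.1 1 1 h h' hh hh'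
    rw [one_mul, one_mul] at this
    rw [this, hce]
  -- the cocycle `t = s / e` on `H`
  have hcoc : IsMulCocycle₁ (fun h : H => s h / e) := by
    intro h h'
    have h2 := hcHH h h' h.2 h'.2
    rw [hcs, mulD1_apply] at h2
    show s ((h : Γ) * (h' : Γ)) / e = (h : Γ) • (s h' / e) * (s h / e)
    rw [smul_div', hefix h h.2]
    exact (by intro a b c d h; rw [← h]; abel :
      ∀ a b c d : Additive M, a - b + c = d → b - d = (a - d) + (c - d)) _ _ _ _ h2
  have hconst : ∀ (h v : H), (v : Γ) ∈ V → (fun h : H => s h / e) (h * v) =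
      (fun h : H => s h / e) h := by
    intro h v hv
    show s ((h : Γ) * (v : Γ)) / e = s h / e
    rw [hs _ _ hv]
  obtain ⟨x, hx⟩ := h1 _ hcoc hconst
  have hx' : ∀ h ∈ H, h • x / x = s h / e := fun h hh => hx ⟨h, hh⟩
  -- the new cochain
  set s' : Γ → M := fun g => s g * (x / g • x) with hs'
  have hcs' : c = mulD1 s' := by
    rw [hcs]
    funext ⟨g, h⟩
    simp only [mulD1_apply, hs', smul_mul', smul_div', mul_smul]
    exact (by intros; abel :
      ∀ a b c X Y Z : Additive M, a - b + c = (a + (Y - Z)) - (b + (X - Z)) + (c + (X - Y)))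
      _ _ _ _ _ _
  have hs'H : ∀ h ∈ H, s' h = e := by
    intro h hh
    have := hx' h hh
    show s h * (x / h • x) = e
    exact (by intro a b c d h; rw [sub_eq_iff_eq_add] at h; rw [h]; abel :
      ∀ a b c d : Additive M, a - b = c - d → c + (b - a) = d) _ _ _ _ this
  have hs'1 : s' 1 = e := hs'H 1 (one_mem _)
  have hconst' : IsConst1 H s' := by
    intro g h hh
    have h2 : c (g, h) = c (g, 1) := by
      have := hc.1 g 1 1 h (one_mem _) hh
      rw [mul_one, one_mul] at this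
      exact this
    rw [hcs', mulD1_apply, mulD1_apply, hs'H h hh, hs'1, mul_one] at h2
    exact (by intro a b c h; have h' := congrArg (fun z => z - a - c) h; simp at h'
              have : b = c := by
                have h3 := h
                rw [sub_add_cancel] at h3
                have h4 : a - b + c - a = 0 := by rw [h3]; abel
                have h5 : a - b + c - a = c - b := by abel
                rw [h5, sub_eq_zero] at h4
                exact h4.symm
              exact this :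
      ∀ a b c : Additive M, a - b + c = a - c + c → b = c) _ _ _ h2
  refine ⟨s', ⟨hconst', ?_⟩, hcs'⟩
  intro g h hh
  have h2 : c (h, g) = e := by
    have := hc.1 1 g h 1 hh (one_mem _)
    rw [one_mul, mul_one] at this
    rw [this, hcs', mulD1_apply, one_smul, one_mul, div_self', one_mul, hs'1]
  rw [hcs', mulD1_apply, hs'H h hh] at h2
  have h3 : s' (h * g) = s' g := by
    have h4 : h * g = g * (g⁻¹ * h * g) := by group
    have h5 : g⁻¹ * h * g ∈ H := by
      simpa using Subgroup.Normal.conj_mem inferInstance h hh g⁻¹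
    rw [h4, hconst' _ _ h5]
  rw [h3] at h2
  exact (by intro a b c h
            have h4 : a - b + c - c = 0 := by rw [h]; abel
            have h5 : a - b + c - c = a - b := by abel
            rw [h5, sub_eq_zero] at h4
            exact h4 :
    ∀ a b c : Additive M, a - b + c = c → a = b) _ _ _ h2

/-! ### exactness in the middle -/

/-- Step 4: a cocycle which is trivial as soon as one argument lies in `H` is `H`-inflated. -/
theorem isInfl2_of_trivial (H : Subgroup Γ) [H.Normal] {c : Γ × Γ → M} (hc : IsMulCocycle₂ c)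
    (hr : ∀ g w, w ∈ H → c (g, w) = 1) (hl : ∀ g w, w ∈ H → c (w, g) = 1) : IsInfl2 H c := by
  apply isInfl2_of_isConst2 hc
  have h2 : ∀ x y w, w ∈ H → c (x, y * w) = c (x, y) := by
    intro x y w hw
    have := hc x y w
    rw [hr _ _ hw, hr _ _ hw, smul_one, one_mul, one_mul] at this
    exact this.symm
  have h1 : ∀ x y w, w ∈ H → c (x * w, y) = c (x, y) := by
    intro x y w hw
    have := hc x w y
    rw [hr _ _ hw, hl _ _ hw, smul_one, mul_one, one_mul] at this
    have h3 : w * y = y * (y⁻¹ * w * y) := by group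
    have h4 : y⁻¹ * w * y ∈ H := by
      simpa using Subgroup.Normal.conj_mem inferInstance w hw y⁻¹
    rw [this, h3, h2 _ _ _ h4]
  intro g g' w w' hw hw'
  rw [h1 _ _ _ hw, h2 _ _ _ hw']

/-- Step 1: make the cocycle trivial on `H × H`. -/
theorem infRes_step1 (H V : Subgroup Γ) [H.Normal] [V.Normal] (hVH : V ≤ H)
    (c : Γ × Γ → M) (hcV : IsConst2 V c)
    (t : H → M) (ht : ∀ (h v : H), (v : Γ) ∈ V → t (h * v) = t h)
    (hct : ∀ h h' : H, c (h, h') = (h : Γ) • t h' / t (h * h') * t h) :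
    ∃ s₁ : Γ → M, IsInfl1 V s₁ ∧ ∀ h h', h ∈ H → h' ∈ H → (c * mulD1 s₁) (h, h') = 1 := by
  classical
  obtain ⟨r, hr1, hr2, hr3⟩ := exists_transversal H
  -- values of `t` are `V`-fixed
  have htfix : ∀ (h' : H) (v : Γ), v ∈ V → v • t h' = t h' := by
    intro h' v hv
    have hvH : v ∈ H := hVH hv
    have e1 := hct ⟨v, hvH⟩ h'
    have e2 := hct 1 h'
    simp only [Subgroup.coe_one, one_smul, one_mul] at e1 e2
    have e3 : c (v, (h' : Γ)) = c (1, (h' : Γ)) := by
      have := hcV 1 h' v 1 hv (one_mem _)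
      rw [one_mul, mul_one] at this
      exact this
    have e4 : t (⟨v, hvH⟩ * h') = t h' := by
      have h5 : (⟨v, hvH⟩ * h' : H) = h' * ⟨(h' : Γ)⁻¹ * v * h', by
          simpa using Subgroup.Normal.conj_mem (inferInstance : H.Normal) v hvH (h' : Γ)⁻¹⟩ := by
        apply Subtype.ext
        simp only [Subgroup.coe_mul]
        group
      rw [h5]
      apply ht
      simpa using Subgroup.Normal.conj_mem (inferInstance : V.Normal) v hv (h' : Γ)⁻¹
    have e5 : t ⟨v, hvH⟩ = t 1 := by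
      have := ht 1 ⟨v, hvH⟩ hv
      rw [one_mul] at this
      exact this
    rw [e3, e2, e4, e5] at e1
    exact (by intro a b d h
              have h4 : a - b + d - d = 0 := by rw [← h]; abel
              have h5 : a - b + d - d = a - b := by abel
              rw [h5, sub_eq_zero] at h4
              exact h4 :
      ∀ a b d : Additive M, b - b + d = a - b + d → a = b) _ _ _ e1
  set t' : Γ → M := fun g => if hg : g ∈ H then t ⟨g, hg⟩ else 1 with ht'
  have ht'H : ∀ (g : Γ) (hg : g ∈ H), t' g = t ⟨g, hg⟩ := fun g hg => by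
    simp only [ht', hg, dif_pos]
  refine ⟨fun g => (t' ((r g)⁻¹ * g))⁻¹, ⟨?_, ?_⟩, ?_⟩
  · intro g v hv
    show (t' ((r (g * v))⁻¹ * (g * v)))⁻¹ = (t' ((r g)⁻¹ * g))⁻¹
    rw [hr3 g v (hVH hv), ← mul_assoc, ht'H _ (hr2 g), ht'H _ (H.mul_mem (hr2 g) (hVH hv))]
    congr 1
    exact ht ⟨_, hr2 g⟩ ⟨v, hVH hv⟩ hv
  · intro g v hv
    show v • (t' ((r g)⁻¹ * g))⁻¹ = (t' ((r g)⁻¹ * g))⁻¹
    rw [ht'H _ (hr2 g), smul_inv', htfix _ v hv]
  · intro h h' hh hh'
    have e1 : ∀ x, x ∈ H → (r x)⁻¹ * x = x := fun x hx => by rw [hr1 x hx, inv_one, one_mul]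
    simp only [Pi.mul_apply, mulD1_apply]
    rw [e1 h hh, e1 h' hh', e1 (h * h') (H.mul_mem hh hh'), ht'H h hh, ht'H h' hh',
      ht'H _ (H.mul_mem hh hh'), smul_inv']
    have e2 := hct ⟨h, hh⟩ ⟨h', hh'⟩
    rw [e2]
    exact (by intros; abel :
      ∀ X Y Z : Additive M, (X - Y + Z) + (-X - -Y + -Z) = 0) _ _ _

/-- Step 2: make the cocycle trivial on `Γ × H`. -/
theorem infRes_step2 (H V : Subgroup Γ) [H.Normal] [V.Normal] (hVH : V ≤ H)
    (c₁ : Γ × Γ → M) (hc : IsMulCocycle₂ c₁) (hcV : IsInfl2 V c₁)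
    (h11 : ∀ h h', h ∈ H → h' ∈ H → c₁ (h, h') = 1) :
    ∃ s₂ : Γ → M, IsInfl1 V s₂ ∧ ∀ g w, w ∈ H → (c₁ * mulD1 s₂) (g, w) = 1 := by
  obtain ⟨r, hr1, hr2, hr3⟩ := exists_transversal H
  refine ⟨fun g => c₁ (r g, (r g)⁻¹ * g), ⟨?_, ?_⟩, ?_⟩
  · intro g v hv
    show c₁ (r (g * v), (r (g * v))⁻¹ * (g * v)) = c₁ (r g, (r g)⁻¹ * g)
    rw [hr3 g v (hVH hv), ← mul_assoc]
    have := hcV.1 (r g) ((r g)⁻¹ * g) 1 v (one_mem _) hv
    rw [mul_one] at this
    exact this
  · intro g v hv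
    exact hcV.2 _ _ v hv
  · intro g w hw
    simp only [Pi.mul_apply, mulD1_apply]
    rw [hr3 g w hw, hr1 w hw, inv_one, one_mul, h11 1 w (one_mem _) hw, smul_one,
      ← mul_assoc (r g)⁻¹ g w]
    have e1 := hc (r g) ((r g)⁻¹ * g) w
    rw [mul_inv_cancel_left, h11 _ _ (hr2 g) hw, smul_one, one_mul] at e1
    exact (by intro G P Q h; rw [← h]; abel :
      ∀ G P Q : Additive M, G + P = Q → G + (0 - Q + P) = 0) _ _ _ e1

/-- Step 3: make the cocycle trivial on `Γ × H` and on `H × Γ`. -/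
theorem infRes_step3 (H V : Subgroup Γ) [H.Normal] [V.Normal] (hVH : V ≤ H)
    (h1 : H1Triv H V M) (c₂ : Γ × Γ → M) (hc : IsMulCocycle₂ c₂) (hcV : IsInfl2 V c₂)
    (hr : ∀ g w, w ∈ H → c₂ (g, w) = 1) :
    ∃ s₃ : Γ → M, IsInfl1 V s₃ ∧ (∀ g w, w ∈ H → (c₂ * mulD1 s₃) (g, w) = 1) ∧
      ∀ g w, w ∈ H → (c₂ * mulD1 s₃) (w, g) = 1 := by
  classical
  obtain ⟨r, hr1, hr2, hr3⟩ := exists_transversal H
  have h2 : ∀ x y w, w ∈ H → c₂ (x, y * w) = c₂ (x, y) := by
    intro x y w hw
    have := hc x y w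
    rw [hr _ _ hw, hr _ _ hw, smul_one, one_mul, one_mul] at this
    exact this.symm
  have hconj : ∀ (w g : Γ), w ∈ H → g⁻¹ * w * g ∈ H := fun w g hw => by
    simpa using Subgroup.Normal.conj_mem (inferInstance : H.Normal) w hw g⁻¹
  have h2' : ∀ x y w, w ∈ H → c₂ (x, w * y) = c₂ (x, y) := by
    intro x y w hw
    have h3 : w * y = y * (y⁻¹ * w * y) := by group
    rw [h3, h2 _ _ _ (hconj w y hw)]
  -- Hilbert 90 for each `g`
  have hex : ∀ g : Γ, ∃ x : M, ∀ w : H, (w : Γ) • x / x = c₂ (w, g) := by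
    intro g
    have hcoc : IsMulCocycle₁ (fun w : H => c₂ ((w : Γ), g)) := by
      intro w w'
      have := hc w w' g
      rw [hr _ _ w'.2, mul_one, h2' _ _ _ w'.2] at this
      exact this
    have hconst : ∀ (h v : H), (v : Γ) ∈ V → (fun w : H => c₂ ((w : Γ), g)) (h * v) =
        (fun w : H => c₂ ((w : Γ), g)) h := by
      intro h v hv
      have := hcV.1 h g v 1 hv (one_mem _)
      rw [mul_one] at this
      exact this
    obtain ⟨x, hx⟩ := h1 _ hcoc hconst
    exact ⟨x, hx⟩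
  choose X hX using hex
  set m : Γ → M := fun g => if g ∈ H then 1 else X (r g) with hm
  have hmH : ∀ g, g ∈ H → m g = 1 := fun g hg => by simp only [hm, hg, if_true]
  have hm1 : ∀ g w, w ∈ H → m (g * w) = m g := by
    intro g w hw
    have e1 : g * w ∈ H ↔ g ∈ H := Subgroup.mul_mem_cancel_right H hw
    simp only [hm, e1, hr3 g w hw]
  have hm2 : ∀ g w, w ∈ H → w • m g / m g = c₂ (w, g) := by
    intro g w hw
    by_cases hg : g ∈ H
    · rw [hmH g hg, smul_one, div_one, hr _ _ hg]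
    · have e1 : m g = X (r g) := by simp only [hm, hg, if_false]
      have e2 := hX (r g) ⟨w, hw⟩
      have e3 : c₂ (w, g) = c₂ (w, r g) := by
        have := h2 w (r g) _ (hr2 g)
        rw [mul_inv_cancel_left] at this
        exact this
      rw [e1, e2, e3]
  have hc11 : c₂ (1, 1) = 1 := hr 1 1 (one_mem _)
  have hm4 : ∀ g v, v ∈ V → v • m g = m g := by
    intro g v hv
    have e1 := hm2 g v (hVH hv)
    have e2 : c₂ (v, g) = 1 := by
      have := hcV.1 1 g v 1 hv (one_mem _)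
      rw [one_mul, mul_one] at this
      rw [this, IsMulCocycle₂_one_left hc, hc11]
    rw [e2, div_eq_one] at e1
    exact e1
  refine ⟨fun g => (m g)⁻¹, ⟨?_, ?_⟩, ?_, ?_⟩
  · intro g v hv
    show (m (g * v))⁻¹ = (m g)⁻¹
    rw [hm1 g v (hVH hv)]
  · intro g v hv
    show v • (m g)⁻¹ = (m g)⁻¹
    rw [smul_inv', hm4 g v hv]
  · intro g w hw
    simp only [Pi.mul_apply, mulD1_apply]
    rw [hr g w hw, hm1 g w hw, hmH w hw, inv_one, smul_one]
    exact (by intros; abel : ∀ a : Additive M, 0 + (0 - -a + -a) = 0) _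
  · intro g w hw
    simp only [Pi.mul_apply, mulD1_apply]
    have e1 : m (w * g) = m g := by
      have h3 : w * g = g * (g⁻¹ * w * g) := by group
      rw [h3, hm1 _ _ (hconj w g hw)]
    rw [e1, hmH w hw, inv_one, smul_inv', ← hm2 g w hw]
    exact (by intros; abel : ∀ a b : Additive M, (a - b) + (-a - -b + 0) = 0) _ _

/-- **Exactness of inflation–restriction** in degree 2 (given Hilbert 90 for `H`). -/
theorem infl_res_exact (H V : Subgroup Γ) [H.Normal] [V.Normal] (hVH : V ≤ H)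
    (h1 : H1Triv H V M) (c : Γ × Γ → M) (hc : IsMulCocycle₂ c) (hcV : IsConst2 V c)
    (t : H → M) (ht : ∀ (h v : H), (v : Γ) ∈ V → t (h * v) = t h)
    (hct : ∀ h h' : H, c (h, h') = (h : Γ) • t h' / t (h * h') * t h) :
    ∃ s : Γ → M, IsConst1 V s ∧ IsInfl2 H (c * mulD1 s) := by
  obtain ⟨s₁, hs₁, h11⟩ := infRes_step1 H V hVH c hcV t ht hct
  have hc₁ : IsMulCocycle₂ (c * mulD1 s₁) := isMulCocycle₂_mul hc (isMulCocycle₂_mulD1 s₁)
  have hcV₁ : IsInfl2 V (c * mulD1 s₁) := (isInfl2_of_isConst2 hc hcV).mul hs₁.mulD1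
  obtain ⟨s₂, hs₂, hr₂⟩ := infRes_step2 H V hVH _ hc₁ hcV₁ h11
  have hc₂ : IsMulCocycle₂ (c * mulD1 s₁ * mulD1 s₂) :=
    isMulCocycle₂_mul hc₁ (isMulCocycle₂_mulD1 s₂)
  have hcV₂ : IsInfl2 V (c * mulD1 s₁ * mulD1 s₂) := hcV₁.mul hs₂.mulD1
  obtain ⟨s₃, hs₃, hr₃, hl₃⟩ := infRes_step3 H V hVH h1 _ hc₂ hcV₂ hr₂
  have hc₃ : IsMulCocycle₂ (c * mulD1 s₁ * mulD1 s₂ * mulD1 s₃) :=
    isMulCocycle₂_mul hc₂ (isMulCocycle₂_mulD1 s₃)
  refine ⟨s₁ * s₂ * s₃, ((hs₁.mul hs₂).mul hs₃).1, ?_⟩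
  rw [mulD1_mul, mulD1_mul, ← mul_assoc, ← mul_assoc]
  exact isInfl2_of_trivial H hc₃ hr₃ hl₃

end Fermat.Agent.F4.Loc
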