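import Fermat.Agent.F4.Loc.Setup

/-!
# F4 / Loc / EFCore : norm, trace and discreteness for a Galois-invariant valuation

`L/E` finite Galois, `w` a valuation of `L` invariant under `Gal(L/E)`.

* `w_norm`     : `w (N x) = w x ^ [L:E]`;
* `w_trace_le` : `w (Tr x) ≤ w x`;
* `exists_unif_top` : a uniformizer `π` of `E` yields a uniformizer `ϖ` of `L` with
  `w π = w ϖ ^ e`, `0 < e`;
* `IsUnif.val_eq` : all uniformizers have the same value.
-/

set_option autoImplicit false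

open Polynomial

namespace Fermat.Agent.F4.Loc

variable {E L : Type*} [Field E] [Field L] [Algebra E L]
  {Γ₀ : Type*} [LinearOrderedCommGroupWithZero Γ₀]

section Galois

variable [FiniteDimensional E L] [IsGalois E L]

/-- `w (N_{L/E} x) = w x ^ [L:E]` for a Galois-invariant valuation. -/
theorem w_norm (w : Valuation L Γ₀) (hinv : IsInvVal E w) (x : L) :
    w (algebraMap E L (Algebra.norm E x)) = w x ^ Module.finrank E L := by
  rw [Algebra.norm_eq_prod_automorphisms, map_prod]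
  simp only [hinv _ x, Finset.prod_const, Finset.card_univ]
  rw [← Nat.card_eq_fintype_card, IsGalois.card_aut_eq_finrank]

/-- `w (Tr_{L/E} x) ≤ w x` for a Galois-invariant valuation. -/
theorem w_trace_le (w : Valuation L Γ₀) (hinv : IsInvVal E w) (x : L) :
    w (algebraMap E L (Algebra.trace E L x)) ≤ w x := by
  rw [trace_eq_sum_automorphisms]
  exact Valuation.map_sum_le _ (fun σ _ => (hinv σ x).le)

end Galois

/-- In a linearly ordered group with zero, `x ^ n = 1` with `n ≠ 0` forces `x = 1`. -/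
theorem eq_one_of_pow_eq_one' {x : Γ₀} {n : ℕ} (hn : n ≠ 0) (h : x ^ n = 1) : x = 1 := by
  rcases lt_trichotomy x 1 with hx | hx | hx
  · exact absurd h (ne_of_lt (pow_lt_one₀ zero_le hx hn))
  · exact hx
  · exact absurd h (ne_of_gt (one_lt_pow₀ hx hn))

/-- Powers of an element `< 1` (nonzero) are injective in the exponent. -/
theorem zpow_inj_of_lt_one {γ : Γ₀} (h0 : γ ≠ 0) (h1 : γ < 1) {a b : ℤ} (h : γ ^ a = γ ^ b) :
    a = b := by
  by_contra hab
  wlog hlt : a < b generalizing a b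
  · exact this h.symm (Ne.symm hab) (lt_of_le_of_ne (not_lt.1 hlt) (Ne.symm hab))
  have hpos : 0 < b - a := sub_pos.2 hlt
  have h2 : γ ^ (b - a) = 1 := by
    rw [zpow_sub₀ h0, h, div_self (zpow_ne_zero _ h0)]
  obtain ⟨k, hk⟩ := Int.eq_ofNat_of_zero_le hpos.le
  rw [hk, zpow_natCast] at h2
  have hk0 : k ≠ 0 := by rintro rfl; simp at hk; omega
  have := eq_one_of_pow_eq_one' hk0 h2
  exact absurd this (ne_of_lt h1)

section Discrete

variable [FiniteDimensional E L] [IsGalois E L]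

/-- The `n`-th power of every nonzero value of `w` is an integer power of `w π`. -/
theorem exists_zpow_eq_pow (w : Valuation L Γ₀) (hinv : IsInvVal E w) {π : E}
    (hπ : IsUnif (resVal E w) π) {x : L} (hx : x ≠ 0) :
    ∃ m : ℤ, w x ^ Module.finrank E L = w (algebraMap E L π) ^ m := by
  have hN : Algebra.norm E x ≠ 0 := by
    rw [Ne, Algebra.norm_eq_zero_iff]; exact hx
  obtain ⟨m, hm⟩ := hπ.2.2 _ hN
  exact ⟨m, by rw [← w_norm w hinv x]; exact hm⟩

/-- A uniformizer of `E` yields a uniformizer of `L`, with ramification index `e`. -/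
theorem exists_unif_top (w : Valuation L Γ₀) (hinv : IsInvVal E w) {π : E}
    (hπ : IsUnif (resVal E w) π) :
    ∃ (ϖ : L) (e : ℕ), IsUnif w ϖ ∧ 0 < e ∧ w (algebraMap E L π) = w ϖ ^ e := by
  classical
  set n := Module.finrank E L with hn
  have hn0 : n ≠ 0 := Module.finrank_pos.ne'
  set γ : Γ₀ := w (algebraMap E L π) with hγ
  have hγ0 : γ ≠ 0 := (w.ne_zero_iff).2 (by rw [Ne, map_eq_zero]; exact hπ.1)
  have hγ1 : γ < 1 := hπ.2.1
  -- the minimal positive exponent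
  let P : ℕ → Prop := fun d => 0 < d ∧ ∃ x : L, x ≠ 0 ∧ w x ^ n = γ ^ d
  have hP : ∃ d, P d := ⟨n, Nat.pos_of_ne_zero hn0, algebraMap E L π,
    by rw [Ne, map_eq_zero]; exact hπ.1, rfl⟩
  obtain ⟨hd0, ϖ, hϖ0, hϖ⟩ := Nat.find_spec hP
  set d := Nat.find hP with hd
  have hwϖ0 : w ϖ ≠ 0 := (w.ne_zero_iff).2 hϖ0
  have hϖ1 : w ϖ < 1 := by
    by_contra h
    have h1 : (1 : Γ₀) ≤ w ϖ ^ n := one_le_pow₀ (not_lt.1 h)
    rw [hϖ] at h1
    exact absurd (pow_lt_one₀ zero_le hγ1 hd0.ne') (not_lt.2 h1)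
  -- every value is a power of `w ϖ`
  have key : ∀ x : L, x ≠ 0 → ∃ q : ℤ, w x = w ϖ ^ q := by
    intro x hx
    obtain ⟨m, hm⟩ := exists_zpow_eq_pow w hinv hπ hx
    refine ⟨m / d, ?_⟩
    set q := m / (d : ℤ) with hq
    set r := m % (d : ℤ) with hr
    have hd' : (0 : ℤ) < d := by exact_mod_cast hd0
    have hr0 : 0 ≤ r := Int.emod_nonneg _ hd'.ne'
    have hrd : r < d := Int.emod_lt_of_pos _ hd'
    have hmqr : m = d * q + r := (Int.mul_ediv_add_emod m d).symm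
    set y := x * (ϖ ^ q)⁻¹ with hy
    have hy0 : y ≠ 0 := mul_ne_zero hx (inv_ne_zero (zpow_ne_zero _ hϖ0))
    have hwy : w y ^ n = γ ^ r := by
      have e1 : w y = w x * (w ϖ ^ q)⁻¹ := by rw [hy, map_mul, map_inv₀, map_zpow₀]
      have e2 : (w ϖ ^ q) ^ n = γ ^ ((d : ℤ) * q) := by
        rw [← zpow_natCast (w ϖ ^ q) n, ← zpow_mul, mul_comm, zpow_mul, zpow_natCast, hϖ,
          ← zpow_natCast γ d, ← zpow_mul]
      rw [e1, mul_pow, inv_pow, e2, hm, hmqr, zpow_add₀ hγ0]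
      field_simp
    obtain ⟨k, hk⟩ := Int.eq_ofNat_of_zero_le hr0
    have hk0 : k = 0 := by
      by_contra hk0
      have hPk : P k := ⟨Nat.pos_of_ne_zero hk0, y, hy0, by
        rw [hwy, hk, zpow_natCast]⟩
      have := Nat.find_min' hP hPk
      omega
    rw [hk, hk0] at hwy
    simp only [Nat.cast_zero, zpow_zero] at hwy
    have h1 := eq_one_of_pow_eq_one' hn0 hwy
    rw [hy, map_mul, map_inv₀, map_zpow₀] at h1
    rw [← mul_one (w ϖ ^ q), ← h1, mul_comm (w x), ← mul_assoc,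
      mul_inv_cancel₀ (zpow_ne_zero _ hwϖ0), one_mul]
  have hϖu : IsUnif w ϖ := ⟨hϖ0, hϖ1, key⟩
  obtain ⟨q, hq⟩ := key (algebraMap E L π) (by rw [Ne, map_eq_zero]; exact hπ.1)
  have hqpos : 0 < q := by
    by_contra h
    have hq' : q ≤ 0 := not_lt.1 h
    obtain ⟨k, hk⟩ := Int.exists_eq_neg_ofNat hq'
    have : (1 : Γ₀) ≤ w ϖ ^ q := by
      rw [hk, zpow_neg, zpow_natCast]
      exact (one_le_inv₀ (zero_lt_iff.2 (pow_ne_zero _ hwϖ0))).2 (pow_le_one₀ zero_le hϖ1.le)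
    rw [← hq] at this
    exact absurd hγ1 (not_lt.2 this)
  obtain ⟨e, he⟩ := Int.eq_ofNat_of_zero_le hqpos.le
  refine ⟨ϖ, e, hϖu, ?_, ?_⟩
  · omega
  · rw [hγ, hq, he, zpow_natCast]

/-- Two uniformizers of the same valuation have the same value. -/
theorem IsUnif.val_eq {F : Type*} [Field F] {v : Valuation F Γ₀} {π π' : F} (h : IsUnif v π)
    (h' : IsUnif v π') : v π = v π' := by
  obtain ⟨a, ha⟩ := h.2.2 π' h'.1
  obtain ⟨b, hb⟩ := h'.2.2 π h.1
  have h0 : v π ≠ 0 := (v.ne_zero_iff).2 h.1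
  have h0' : v π' ≠ 0 := (v.ne_zero_iff).2 h'.1
  have hab : v π ^ (1 : ℤ) = v π ^ (a * b) := by
    rw [zpow_one, zpow_mul, ← ha, ← hb]
  have hab1 : (1 : ℤ) = a * b := zpow_inj_of_lt_one h0 h.2.1 hab
  have ha1 : a = 1 ∨ a = -1 := Int.isUnit_iff.1 (IsUnit.of_mul_eq_one b hab1.symm)
  rcases ha1 with rfl | rfl
  · rw [ha, zpow_one]
  · exfalso
    rw [zpow_neg, zpow_one] at ha
    have : (1 : Γ₀) ≤ (v π)⁻¹ := (one_le_inv₀ (zero_lt_iff.2 h0)).2 h.2.1.le
    rw [← ha] at this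
    exact absurd h'.2.1 (not_lt.2 this)

end Discrete

end Fermat.Agent.F4.Loc
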