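import Fermat.Agent.F4.Loc.EFCore

/-!
# F4 / Loc / EFRes : residue bases

`w` a valuation on `L`, `E` a subfield.  A family `b : Fin f → L` of integers of `L` is a
*residue basis* over `E` if it is residually independent and residually spanning; in elementary
terms (no quotient rings).

* `ResIndep.linearIndependent` : residually independent families are `E`-linearly independent;
* `exists_isResBasis` : residue bases exist for finite-dimensional `L/E`;
* `IsResBasis.hasFiniteResidue` : finiteness of the residue field passes to `L`.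
-/

set_option autoImplicit false

namespace Fermat.Agent.F4.Loc

variable {E L : Type*} [Field E] [Field L] [Algebra E L]
  {Γ₀ : Type*} [LinearOrderedCommGroupWithZero Γ₀]

/-- `b` is residually independent over `E`. -/
def ResIndep (E : Type*) {L : Type*} [Field E] [Field L] [Algebra E L] (w : Valuation L Γ₀)
    {f : ℕ} (b : Fin f → L) : Prop :=
  ∀ c : Fin f → E, (∀ i, resVal E w (c i) ≤ 1) → w (∑ i, c i • b i) < 1 →
    ∀ i, resVal E w (c i) < 1

/-- `b` is residually spanning over `E`. -/
def ResSpan (E : Type*) {L : Type*} [Field E] [Field L] [Algebra E L] (w : Valuation L Γ₀)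
    {f : ℕ} (b : Fin f → L) : Prop :=
  ∀ x : L, w x ≤ 1 → ∃ c : Fin f → E, (∀ i, resVal E w (c i) ≤ 1) ∧ w (x - ∑ i, c i • b i) < 1

/-- `b` is a residue basis of `w` over `E`. -/
structure IsResBasis (E : Type*) {L : Type*} [Field E] [Field L] [Algebra E L]
    (w : Valuation L Γ₀) {f : ℕ} (b : Fin f → L) : Prop where
  int : ∀ i, w (b i) ≤ 1
  indep : ResIndep E w b
  span : ResSpan E w b

lemma w_smul (w : Valuation L Γ₀) (c : E) (x : L) : w (c • x) = resVal E w c * w x := by
  rw [Algebra.smul_def, map_mul]; rfl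

/-- An integral combination of integral elements is integral. -/
lemma w_sum_smul_le_one (w : Valuation L Γ₀) {f : ℕ} {b : Fin f → L} (hb : ∀ i, w (b i) ≤ 1)
    {c : Fin f → E} (hc : ∀ i, resVal E w (c i) ≤ 1) : w (∑ i, c i • b i) ≤ 1 := by
  refine Valuation.map_sum_le _ (fun i _ => ?_)
  rw [w_smul]
  exact mul_le_one' (hc i) (hb i)

/-- A combination with coefficients in the maximal ideal lies in the maximal ideal. -/
lemma w_sum_smul_lt_one (w : Valuation L Γ₀) {f : ℕ} {b : Fin f → L} (hb : ∀ i, w (b i) ≤ 1)
    {c : Fin f → E} (hc : ∀ i, resVal E w (c i) < 1) : w (∑ i, c i • b i) < 1 := by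
  refine Valuation.map_sum_lt _ one_ne_zero (fun i _ => ?_)
  rw [w_smul]
  exact mul_lt_one_of_lt_of_le (hc i) (hb i)

/-- Residually independent families are linearly independent. -/
theorem ResIndep.linearIndependent {w : Valuation L Γ₀} {f : ℕ} {b : Fin f → L}
    (h : ResIndep E w b) : LinearIndependent E b := by
  classical
  rw [Fintype.linearIndependent_iff]
  intro c hc i
  by_contra hi
  have hne : (Finset.univ : Finset (Fin f)).Nonempty := ⟨i, Finset.mem_univ i⟩
  obtain ⟨i0, -, hmax⟩ := Finset.exists_max_image Finset.univ (fun j => resVal E w (c j)) hne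
  have hci0 : c i0 ≠ 0 := by
    intro h0
    have := hmax i (Finset.mem_univ i)
    rw [h0, map_zero, le_zero_iff, Valuation.zero_iff] at this
    exact hi this
  have hv0 : resVal E w (c i0) ≠ 0 := ((resVal E w).ne_zero_iff).2 hci0
  set c' : Fin f → E := fun j => c j / c i0 with hc'
  have hc'1 : ∀ j, resVal E w (c' j) ≤ 1 := by
    intro j
    show resVal E w (c j / c i0) ≤ 1
    rw [map_div₀]
    exact (div_le_one₀ (zero_lt_iff.2 hv0)).2 (hmax j (Finset.mem_univ j))
  have hsum : ∑ j, c' j • b j = 0 := by
    have : ∑ j, c' j • b j = (c i0)⁻¹ • ∑ j, c j • b j := by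
      rw [Finset.smul_sum]
      refine Finset.sum_congr rfl (fun j _ => ?_)
      rw [smul_smul]
      show (c j / c i0) • b j = _
      rw [div_eq_inv_mul]
    rw [this, hc, smul_zero]
  have := h c' hc'1 (by rw [hsum, map_zero]; exact zero_lt_one) i0
  have h1 : c' i0 = 1 := div_self hci0
  rw [h1, map_one] at this
  exact lt_irrefl _ this

theorem ResIndep.le_finrank [FiniteDimensional E L] {w : Valuation L Γ₀} {f : ℕ}
    {b : Fin f → L} (h : ResIndep E w b) : f ≤ Module.finrank E L := by
  have := h.linearIndependent.fintype_card_le_finrank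
  simpa using this

/-- The value of a combination of a residually independent integral family is the maximum of
the values of the coefficients. -/
theorem ResIndep.val_sum {w : Valuation L Γ₀} {f : ℕ} {b : Fin f → L} (hb : ∀ i, w (b i) ≤ 1)
    (h : ResIndep E w b) (c : Fin f → E) (i0 : Fin f)
    (hmax : ∀ i, resVal E w (c i) ≤ resVal E w (c i0)) :
    w (∑ i, c i • b i) = resVal E w (c i0) := by
  by_cases hci0 : c i0 = 0
  · have hall : ∀ i, c i = 0 := fun i => by
      have := hmax i
      rw [hci0, map_zero, le_zero_iff, Valuation.zero_iff] at this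
      exact this
    simp [hall]
  have hv0 : resVal E w (c i0) ≠ 0 := ((resVal E w).ne_zero_iff).2 hci0
  set c' : Fin f → E := fun j => c j / c i0 with hc'
  have hc'1 : ∀ j, resVal E w (c' j) ≤ 1 := by
    intro j
    show resVal E w (c j / c i0) ≤ 1
    rw [map_div₀]
    exact (div_le_one₀ (zero_lt_iff.2 hv0)).2 (hmax j)
  have hsum : ∑ j, c j • b j = c i0 • ∑ j, c' j • b j := by
    rw [Finset.smul_sum]
    refine Finset.sum_congr rfl (fun j _ => ?_)
    rw [smul_smul]
    show _ = (c i0 * (c j / c i0)) • b j
    rw [mul_div_cancel₀ _ hci0]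
  have h1 : w (∑ j, c' j • b j) = 1 := by
    refine le_antisymm (w_sum_smul_le_one w hb hc'1) (not_lt.1 fun hlt => ?_)
    have := h c' hc'1 hlt i0
    have h1 : c' i0 = 1 := div_self hci0
    rw [h1, map_one] at this
    exact lt_irrefl _ this
  rw [hsum, w_smul, h1, mul_one]

/-- Residue bases exist. -/
theorem exists_isResBasis [FiniteDimensional E L] (w : Valuation L Γ₀) :
    ∃ (f : ℕ) (b : Fin f → L), IsResBasis E w b := by
  classical
  let Q : ℕ → Prop := fun f => ∃ b : Fin f → L, (∀ i, w (b i) ≤ 1) ∧ ResIndep E w b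
  have hQ0 : Q 0 := ⟨Fin.elim0, fun i => i.elim0, fun c _ _ i => i.elim0⟩
  have hQle : ∀ f, Q f → f ≤ Module.finrank E L := fun f ⟨b, _, hb⟩ => hb.le_finrank
  set f := Nat.findGreatest Q (Module.finrank E L) with hf
  have hQf : Q f := Nat.findGreatest_spec (Nat.zero_le _) hQ0
  obtain ⟨b, hb, hind⟩ := hQf
  refine ⟨f, b, hb, hind, ?_⟩
  intro x hx
  by_contra hno
  have hno' : ∀ c : Fin f → E, (∀ i, resVal E w (c i) ≤ 1) → ¬ w (x - ∑ i, c i • b i) < 1 :=
    fun c hc hlt => hno ⟨c, hc, hlt⟩
  have hQ' : Q (f + 1) := by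
    refine ⟨Fin.cons x b, ?_, ?_⟩
    · intro i
      refine Fin.cases ?_ (fun j => ?_) i
      · simpa using hx
      · simpa using hb j
    · intro c hc hlt
      rw [Fin.sum_univ_succ] at hlt
      simp only [Fin.cons_zero, Fin.cons_succ] at hlt
      by_cases hc0 : resVal E w (c 0) < 1
      · have h1 : w (c 0 • x) < 1 := by
          rw [w_smul]; exact mul_lt_one_of_lt_of_le hc0 hx
        have h2 : w (∑ i : Fin f, c i.succ • b i) < 1 := by
          have : ∑ i : Fin f, c i.succ • b i
              = (c 0 • x + ∑ i : Fin f, c i.succ • b i) - c 0 • x := by ring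
          rw [this]
          exact lt_of_le_of_lt (Valuation.map_sub _ _ _) (max_lt hlt h1)
        have h3 := hind (fun i => c i.succ) (fun i => hc i.succ) h2
        intro i
        refine Fin.cases hc0 (fun j => h3 j) i
      · exfalso
        have hc01 : resVal E w (c 0) = 1 := le_antisymm (hc 0) (not_lt.1 hc0)
        have hc0ne : c 0 ≠ 0 := by
          intro h0; rw [h0, map_zero] at hc01; exact zero_ne_one hc01
        refine hno' (fun i => -(c i.succ / c 0)) (fun i => ?_) ?_
        · rw [Valuation.map_neg, map_div₀, hc01, div_one]; exact hc i.succ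
        · have : x - ∑ i : Fin f, (-(c i.succ / c 0)) • b i
              = (c 0)⁻¹ • (c 0 • x + ∑ i : Fin f, c i.succ • b i) := by
            rw [smul_add, smul_smul, inv_mul_cancel₀ hc0ne, one_smul, Finset.smul_sum]
            simp only [neg_smul, Finset.sum_neg_distrib, sub_neg_eq_add, smul_smul,
              div_eq_inv_mul]
          rw [this, w_smul, map_inv₀, hc01, inv_one, one_mul]
          exact hlt
  have hle := hQle _ hQ'
  exact Nat.findGreatest_is_greatest (Nat.lt_succ_self f) hle hQ'

/-- Finiteness of the residue field passes to `L`, along a residue basis. -/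
theorem IsResBasis.hasFiniteResidue {w : Valuation L Γ₀} {f : ℕ} {b : Fin f → L}
    (hb : IsResBasis E w b) (hfin : HasFiniteResidue (resVal E w)) : HasFiniteResidue w := by
  classical
  obtain ⟨R, hR⟩ := hfin
  refine ⟨(Fintype.piFinset fun _ : Fin f => R).image (fun r => ∑ i, r i • b i), ?_⟩
  intro x hx
  obtain ⟨c, hc, hxc⟩ := hb.span x hx
  choose r hrR hr using fun i => hR (c i) (hc i)
  refine ⟨∑ i, r i • b i, Finset.mem_image.2 ⟨r, Fintype.mem_piFinset.2 hrR, rfl⟩, ?_⟩
  have : x - ∑ i, r i • b i = (x - ∑ i, c i • b i) + ∑ i, (c i - r i) • b i := by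
    simp only [sub_smul, Finset.sum_sub_distrib]; ring
  rw [this]
  exact lt_of_le_of_lt (Valuation.map_add _ _ _)
    (max_lt hxc (w_sum_smul_lt_one w hb.int hr))

end Fermat.Agent.F4.Loc
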