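import Fermat.Agent.F4.Loc.LocalGal
import Fermat.Agent.F4.UC.KLevel

/-!
# F4 / Loc / Formation : the abstract local formation (FIXED interface between SMOOTH and DATUM)

`Γ₀` a group acting on `Ω = PadicAlgCl q`, `𝓛` a level structure on `Γ₀`, `C` a `ℤ[Γ₀]`-module.
`LocFormation q 𝓛 C` says that `Γ₀` is a local Galois group, that the levels are open, and that
`C` is (through `j`) the group of `𝓛`-smooth units of `Ω`.

* SMOOTH (third wave) proves, for every `F : LocFormation q 𝓛 C` and every prime `p`, the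
  formation-level statements `UC.H90sm 𝓛 C`, `UC.F1sm p 𝓛 C`, `UC.F3sm p 𝓛 C` (`F4/UC/KLevel.lean`),
  the finiteness of `Hom_sm(Γ₀, 𝔽_p)` and the bridge `MA`.
* DATUM (fourth wave) constructs the formations `(↥U, 𝓛.sub U, C|_U)` for the open subgroups `U` of
  the local Galois group at `q`, `𝓛 = locLevelsS S q` or `locLevelsAll q`.
-/

set_option autoImplicit false

open CategoryTheory groupCohomology

namespace Fermat.Agent.F4.Loc

/-- The abstract local formation: `C` is the module of `𝓛`-smooth units of `PadicAlgCl q`. -/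
structure LocFormation (q : ℕ) [Fact q.Prime] {Γ₀ : Type} [Group Γ₀]
    [MulSemiringAction Γ₀ (PadicAlgCl q)] [MulDistribMulAction Γ₀ (PadicAlgCl q)ˣ]
    (𝓛 : Levels Γ₀) (C : Rep.{0} ℤ Γ₀) where
  /-- `Γ₀` acts as `Gal(Ω/E)`, `E/ℚ_q` finite -/
  isLocalGal : IsLocalGal q Γ₀
  /-- the levels are open -/
  isOpenSub : ∀ V ∈ 𝓛.sets, IsOpenSub q V
  /-- the embedding of `C` into the units of `Ω` -/
  j : C →+ Additive (PadicAlgCl q)ˣ
  j_inj : Function.Injective j
  j_comm : ∀ (γ : Γ₀) (c : C), j (C.ρ γ c) = Additive.ofMul (γ • Additive.toMul (j c))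
  /-- the image of `j` is the group of units fixed by some level -/
  j_range : ∀ u : (PadicAlgCl q)ˣ,
    (∃ c : C, j c = Additive.ofMul u) ↔ ∃ V ∈ 𝓛.sets, IsFixedBy V u

namespace LocFormation

variable {q : ℕ} [Fact q.Prime] {Γ₀ : Type} [Group Γ₀]
  [MulSemiringAction Γ₀ (PadicAlgCl q)] [MulDistribMulAction Γ₀ (PadicAlgCl q)ˣ]
  {𝓛 : Levels Γ₀} {C : Rep.{0} ℤ Γ₀} (F : LocFormation q 𝓛 C)

/-- The multiplicative cochain attached to an additive cochain with values in `C`. -/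
noncomputable def toMul1 (c : Γ₀ → C) : Γ₀ → (PadicAlgCl q)ˣ := fun g => Additive.toMul (F.j (c g))

/-- The multiplicative 2-cochain attached to an additive 2-cochain with values in `C`. -/
noncomputable def toMul2 (w : Γ₀ × Γ₀ → C) : Γ₀ × Γ₀ → (PadicAlgCl q)ˣ := fun x => Additive.toMul (F.j (w x))

include F in
/-- `C` is smooth. -/
theorem isSmooth : IsSmooth 𝓛 C := by
  intro c
  obtain ⟨V, hV, hfix⟩ := (F.j_range (Additive.toMul (F.j c))).1 ⟨c, rfl⟩
  refine ⟨V, hV, fun g hg => F.j_inj ?_⟩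
  rw [F.j_comm, hfix g hg]
  rfl

end LocFormation

/-- **MA bridge** (deliverable of SMOOTH): a smooth 2-cocycle of `C` which is the coboundary of
a cochain which is smooth for the full topology, is a smooth coboundary of `C`. -/
def MABridge {q : ℕ} [Fact q.Prime] {Γ₀ : Type} [Group Γ₀]
    [MulSemiringAction Γ₀ (PadicAlgCl q)] [MulDistribMulAction Γ₀ (PadicAlgCl q)ˣ]
    {𝓛 : Levels Γ₀} {C : Rep.{0} ℤ Γ₀} (F : LocFormation q 𝓛 C) : Prop :=
  ∀ w : Γ₀ × Γ₀ → C, w ∈ Z2 𝓛 C → IsSmCob2 (F.toMul2 w) → w ∈ B2 𝓛 C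

/-- Finiteness of `Hom_sm(Γ₀, 𝔽_p)` (deliverable of SMOOTH, from local Kummer finiteness). -/
def HomFinite (p : ℕ) {Γ₀ : Type} [Group Γ₀] (𝓛 : Levels Γ₀) : Prop :=
  Module.Finite (ZMod p) ↥(Z1 𝓛 (Rep.trivial (ZMod p) Γ₀ (ZMod p)))

end Fermat.Agent.F4.Loc
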