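import Mathlib

/-!
# F4/Loc: Herbrand's lemma in index form, multiplicative version (helper91)

For two endomorphisms `f g` of a commutative group `A` with `f ∘ g = 1 = g ∘ f` and a
subgroup `B`, put `mhq f g B = [B ∩ ker f : g B]`.  For stable `B ≤ C` with `[C : B]` finite,
`mhq f g C * mhq g f B = mhq f g B * mhq g f C`.
Also a criterion for a relative index to be a prime `p`.
-/

set_option autoImplicit false

namespace Fermat.Agent.F4Loc

variable {A A' : Type*} [CommGroup A] [CommGroup A']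

/-- For `B ≤ C` and any subgroup `K`: `[C : B] = [C K : B K] * [C ∩ K : B ∩ K]`. -/
theorem mrelIndex_eq_sup_mul_inf (B C K : Subgroup A) (h : B ≤ C) :
    B.relIndex C = (B ⊔ K).relIndex (C ⊔ K) * (B ⊓ K).relIndex (C ⊓ K) := by
  have h1 : B ≤ B ⊔ (C ⊓ K) := le_sup_left
  have h2 : B ⊔ (C ⊓ K) ≤ C := sup_le h inf_le_left
  rw [← Subgroup.relIndex_mul_relIndex B (B ⊔ (C ⊓ K)) C h1 h2]
  have e1 : B.relIndex (B ⊔ (C ⊓ K)) = (B ⊓ K).relIndex (C ⊓ K) := by
    rw [Subgroup.relIndex_sup_left, ← Subgroup.inf_relIndex_right B (C ⊓ K)]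
    congr 1
    rw [← inf_assoc, inf_eq_left.mpr h]
  have e2 : (B ⊔ (C ⊓ K)).relIndex C = (B ⊔ K).relIndex (C ⊔ K) := by
    have hm : B ⊔ (C ⊓ K) = (B ⊔ K) ⊓ C := by
      rw [sup_inf_assoc_of_le K h, inf_comm K C]
    rw [hm, Subgroup.inf_relIndex_right]
    have hs : C ⊔ K = C ⊔ (B ⊔ K) := by
      rw [← sup_assoc, sup_eq_left.mpr h]
    rw [hs, Subgroup.relIndex_sup_right]
  rw [e1, e2, mul_comm]

/-- Lang's index lemma: `[C : B] = [f C : f B] * [C ∩ ker f : B ∩ ker f]`. -/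
theorem mrelIndex_eq_map_mul_ker (f : A →* A') (B C : Subgroup A) (h : B ≤ C) :
    B.relIndex C = (B.map f).relIndex (C.map f) * (B ⊓ f.ker).relIndex (C ⊓ f.ker) := by
  rw [Subgroup.relIndex_map_map]
  exact mrelIndex_eq_sup_mul_inf B C f.ker h

/-- `mhq f g B = [B ∩ ker f : g B]` (`0` if infinite). -/
noncomputable def mhq (f g : A →* A) (B : Subgroup A) : ℕ :=
  (B.map g).relIndex (B ⊓ f.ker)

theorem mhq_def (f g : A →* A) (B : Subgroup A) :
    mhq f g B = (B.map g).relIndex (B ⊓ f.ker) := rfl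

theorem mhq_top (f g : A →* A) : mhq f g ⊤ = g.range.relIndex f.ker := by
  rw [mhq, top_inf_eq, ← MonoidHom.range_eq_map]

theorem mmap_le_inf_ker (f g : A →* A) (hfg : ∀ x, f (g x) = 1) {B : Subgroup A}
    (hgB : B.map g ≤ B) : B.map g ≤ B ⊓ f.ker := by
  refine le_inf hgB ?_
  rintro _ ⟨x, -, rfl⟩
  exact hfg x

theorem mrelIndex_map_mul_mhq (f g : A →* A) (hfg : ∀ x, f (g x) = 1) {B C : Subgroup A}
    (hBC : B ≤ C) (hgB : B.map g ≤ B) (hgC : C.map g ≤ C) :
    (B.map g).relIndex (C.map g) * mhq f g C =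
      mhq f g B * (B ⊓ f.ker).relIndex (C ⊓ f.ker) := by
  have h1 : B.map g ≤ C.map g := Subgroup.map_mono hBC
  have h2 : C.map g ≤ C ⊓ f.ker := mmap_le_inf_ker f g hfg hgC
  have h3 : B.map g ≤ B ⊓ f.ker := mmap_le_inf_ker f g hfg hgB
  have h4 : B ⊓ f.ker ≤ C ⊓ f.ker := inf_le_inf_right _ hBC
  rw [mhq, mhq, Subgroup.relIndex_mul_relIndex _ _ _ h1 h2,
    Subgroup.relIndex_mul_relIndex _ _ _ h3 h4]

/-- **Herbrand's lemma** (index form, multiplicative). -/
theorem mhq_mul_mhq_of_relIndex_ne_zero (f g : A →* A) (hfg : ∀ x, f (g x) = 1)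
    (hgf : ∀ x, g (f x) = 1) {B C : Subgroup A} (hBC : B ≤ C)
    (hfB : B.map f ≤ B) (hgB : B.map g ≤ B) (hfC : C.map f ≤ C) (hgC : C.map g ≤ C)
    (hfin : B.relIndex C ≠ 0) :
    mhq f g C * mhq g f B = mhq f g B * mhq g f C := by
  have e1 := mrelIndex_map_mul_mhq f g hfg hBC hgB hgC
  have e2 := mrelIndex_map_mul_mhq g f hgf hBC hfB hfC
  have i1 := mrelIndex_eq_map_mul_ker f B C hBC
  have i2 := mrelIndex_eq_map_mul_ker g B C hBC
  have key : B.relIndex C * (mhq f g C * mhq g f B) =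
      B.relIndex C * (mhq f g B * mhq g f C) := by
    calc B.relIndex C * (mhq f g C * mhq g f B)
        = ((B.map g).relIndex (C.map g) * mhq f g C) *
            (mhq g f B * (B ⊓ g.ker).relIndex (C ⊓ g.ker)) := by rw [i2]; ring
      _ = (mhq f g B * (B ⊓ f.ker).relIndex (C ⊓ f.ker)) *
            ((B.map f).relIndex (C.map f) * mhq g f C) := by rw [e1, e2]
      _ = B.relIndex C * (mhq f g B * mhq g f C) := by rw [i1]; ring
  exact Nat.eq_of_mul_eq_mul_left (Nat.pos_of_ne_zero hfin) key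

/-- Under the hypotheses of Herbrand's lemma, `mhq f g C` is finite iff `mhq f g B` is. -/
theorem mhq_ne_zero_iff_of_relIndex_ne_zero (f g : A →* A) (hfg : ∀ x, f (g x) = 1)
    {B C : Subgroup A} (hBC : B ≤ C) (hgB : B.map g ≤ B) (hgC : C.map g ≤ C)
    (hfin : B.relIndex C ≠ 0) :
    mhq f g C ≠ 0 ↔ mhq f g B ≠ 0 := by
  have e1 := mrelIndex_map_mul_mhq f g hfg hBC hgB hgC
  have i1 := mrelIndex_eq_map_mul_ker f B C hBC
  have i2 := mrelIndex_eq_map_mul_ker g B C hBC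
  have n1 : (B ⊓ f.ker).relIndex (C ⊓ f.ker) ≠ 0 := by
    intro h; rw [h, mul_zero] at i1; exact hfin i1
  have n2 : (B.map g).relIndex (C.map g) ≠ 0 := by
    intro h; rw [h, zero_mul] at i2; exact hfin i2
  constructor
  · intro h hB
    rw [hB, zero_mul] at e1
    exact (mul_ne_zero n2 h) e1
  · intro h hC
    rw [hC, mul_zero] at e1
    exact (mul_ne_zero h n1) e1.symm

/-- Herbrand's lemma for `C = ⊤`. -/
theorem mhq_top_mul_mhq (f g : A →* A) (hfg : ∀ x, f (g x) = 1)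
    (hgf : ∀ x, g (f x) = 1) {B : Subgroup A}
    (hfB : B.map f ≤ B) (hgB : B.map g ≤ B) (hfin : B.index ≠ 0) :
    mhq f g ⊤ * mhq g f B = mhq f g B * mhq g f ⊤ := by
  refine mhq_mul_mhq_of_relIndex_ne_zero f g hfg hgf le_top hfB hgB le_top le_top ?_
  rwa [Subgroup.relIndex_top_right]

/-- Criterion for `[X : Y] = p`: `X` is generated by `Y` and one element `x ∉ Y` with
`x ^ p ∈ Y`. -/
theorem relIndex_eq_prime {G : Type*} [CommGroup G] {p : ℕ} (hp : p.Prime) {X Y : Subgroup G}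
    (x : G) (hxX : x ∈ X) (hxY : x ∉ Y) (hxp : x ^ p ∈ Y)
    (hgen : X ≤ Y ⊔ Subgroup.zpowers x) : Y.relIndex X = p := by
  have : Fact p.Prime := ⟨hp⟩
  set Q := X ⧸ Y.subgroupOf X
  set q : Q := QuotientGroup.mk (⟨x, hxX⟩ : X) with hq
  have hqp : q ^ p = 1 := by
    rw [hq, ← QuotientGroup.mk_pow, QuotientGroup.eq_one_iff]
    exact hxp
  have hq1 : q ≠ 1 := by
    rw [hq, Ne, QuotientGroup.eq_one_iff]
    exact hxY
  have hord : orderOf q = p := orderOf_eq_prime hqp hq1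
  have hall : ∀ y : Q, y ∈ Subgroup.zpowers q := by
    intro y
    induction y using QuotientGroup.induction_on with
    | H z =>
      obtain ⟨z, hz⟩ := z
      have := hgen hz
      rw [Subgroup.mem_sup] at this
      obtain ⟨y', hy', w, hw, rfl⟩ := this
      rw [Subgroup.mem_zpowers_iff] at hw
      obtain ⟨k, rfl⟩ := hw
      rw [Subgroup.mem_zpowers_iff]
      refine ⟨k, ?_⟩
      rw [hq, ← QuotientGroup.mk_zpow, QuotientGroup.eq]
      show ((⟨x, hxX⟩ : X) ^ k)⁻¹ * ⟨y' * x ^ k, hz⟩ ∈ Y.subgroupOf X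
      rw [Subgroup.mem_subgroupOf]
      simp only [Subgroup.coe_mul, Subgroup.coe_inv, Subgroup.coe_zpow]
      rw [mul_comm y', inv_mul_cancel_left]
      exact hy'
  have hcard : Nat.card Q = p := by
    rw [← hord]
    exact (orderOf_eq_card_of_forall_mem_zpowers hall).symm
  rw [Subgroup.relIndex, Subgroup.index, hcard]

end Fermat.Agent.F4Loc
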